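import Mathlib

set_option autoImplicit false

open WeierstrassCurve WeierstrassCurve.Affine IntermediateField

namespace Fermat.Agent.S13

namespace AlgDescent

section Lift

variable {K Ω : Type*} [Field K] [Field Ω] [Algebra K Ω]

/-- An element satisfying a monic quadratic equation is integral. -/
theorem isIntegral_of_quadratic {R : Type*} [CommRing R] [Algebra R Ω] (b c : R) (y : Ω)
    (h : y ^ 2 + algebraMap R Ω b * y + algebraMap R Ω c = 0) : IsIntegral R y := by
  refine ⟨Polynomial.X ^ 2 + (Polynomial.C b * Polynomial.X + Polynomial.C c), ?_, ?_⟩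
  · exact Polynomial.monic_X_pow_add
      (lt_of_le_of_lt (Polynomial.degree_linear_le) (by norm_num))
  · simp [Polynomial.eval₂_add, Polynomial.eval₂_mul, Polynomial.eval₂_pow] 
    linear_combination h

/-- Over an algebraically closed field, integral elements of an extension are in the base. -/
theorem mem_range_of_isIntegral [IsAlgClosed K] {x : Ω} (hx : IsIntegral K x) :
    x ∈ (algebraMap K Ω).range :=
  minpoly.mem_range_of_degree_eq_one K x
    (IsAlgClosed.degree_eq_one_of_irreducible K (minpoly.irreducible hx))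

/-- A `K`-embedding of the simple transcendental extension `K(x)` sending `x` to another
transcendental element. -/
theorem exists_algHom_adjoin_simple {x x' : Ω} (hx : Transcendental K x)
    (hx' : Transcendental K x') :
    ∃ σ : K⟮x⟯ →ₐ[K] Ω, σ (AdjoinSimple.gen K x) = x' := by
  refine ⟨(K⟮x'⟯.val).comp (((RatFunc.algEquivOfTranscendental x' hx') :
    RatFunc K →ₐ[K] K⟮x'⟯).comp
    ((RatFunc.algEquivOfTranscendental x hx).symm : K⟮x⟯ →ₐ[K] RatFunc K)), ?_⟩
  have h1 : (RatFunc.algEquivOfTranscendental x hx).symm (AdjoinSimple.gen K x) = RatFunc.X := by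
    rw [AlgEquiv.symm_apply_eq]
    apply Subtype.ext
    rw [RatFunc.algEquivOfTranscendental_X]
    rfl
  simp [h1, RatFunc.algEquivOfTranscendental_X]

/-- The embedding extends to the relative algebraic closure of `K(x)` in `Ω`. -/
theorem exists_algHom_algebraicClosure [IsAlgClosed Ω] {x x' : Ω} (hx : Transcendental K x)
    (hx' : Transcendental K x') :
    ∃ ψ : (algebraicClosure K⟮x⟯ Ω) →ₐ[K] Ω,
      ψ (algebraMap K⟮x⟯ (algebraicClosure K⟮x⟯ Ω) (AdjoinSimple.gen K x)) = x' := by
  obtain ⟨σ, hσ⟩ := exists_algHom_adjoin_simple hx hx'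
  obtain ⟨ψ, hψ⟩ := IsAlgClosed.surjective_domRestrict_of_isAlgebraic
    (K := K) (L := K⟮x⟯) (M := Ω) (E := algebraicClosure K⟮x⟯ Ω) σ
  refine ⟨ψ, ?_⟩
  rw [← hσ, ← hψ]
  rfl

end Lift

section Main

variable {k K Ω : Type*} [Field k] [Field K] [Field Ω] [Algebra k K] [Algebra k Ω]

/-- The `y`-coordinate of an affine point is integral over any subring containing the
`x`-coordinate and the image of the base field. -/
theorem isIntegral_y {R : Type*} [CommRing R] [Algebra k R] [Algebra R Ω] [IsScalarTower k R Ω]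
    (W' : Affine k) (x₀ : R) {y : Ω} (h : (W'⁄Ω).Equation (algebraMap R Ω x₀) y) :
    IsIntegral R y := by
  rw [Affine.equation_iff] at h
  refine isIntegral_of_quadratic (algebraMap k R W'.a₁ * x₀ + algebraMap k R W'.a₃)
    (-(x₀ ^ 3 + algebraMap k R W'.a₂ * x₀ ^ 2 + algebraMap k R W'.a₄ * x₀ + algebraMap k R W'.a₆))
    y ?_
  simp only [WeierstrassCurve.baseChange, WeierstrassCurve.map_a₁, WeierstrassCurve.map_a₂,
    WeierstrassCurve.map_a₃, WeierstrassCurve.map_a₄, WeierstrassCurve.map_a₆] at h
  simp only [map_add, map_mul, map_neg, map_pow, ← IsScalarTower.algebraMap_apply k R Ω]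
  linear_combination h

/-- Core step: over an algebraically closed field `Ω ⊇ K` (`K` algebraically closed), if the
`n`-torsion of `E(Ω)` is finite then the `x`-coordinate of every `n`-torsion point lies in `K`. -/
theorem x_mem_range [DecidableEq Ω] [Algebra K Ω] [IsScalarTower k K Ω] [IsAlgClosed K]
    [IsAlgClosed Ω] (W' : Affine k) (n : ℕ)
    (hfin : {P : (W'⁄Ω).Point | n • P = 0}.Finite) {x y : Ω} (h : (W'⁄Ω).Nonsingular x y)
    (hP : n • (Point.some x y h : (W'⁄Ω).Point) = 0) : x ∈ (algebraMap K Ω).range := by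
  classical
  by_contra hx
  have htr : Transcendental K x := fun halg => hx (mem_range_of_isIntegral halg.isIntegral)
  -- the field `E` of elements algebraic over `K(x)`
  have hst1 : IsScalarTower k K⟮x⟯ Ω := IsScalarTower.of_algebraMap_eq (fun a => rfl)
  let E := algebraicClosure K⟮x⟯ Ω
  have hst2 : IsScalarTower k E Ω := IsScalarTower.of_algebraMap_eq (fun a => rfl)
  have hst3 : IsScalarTower k K E := IsScalarTower.of_algebraMap_eq
    (fun a => Subtype.ext (IsScalarTower.algebraMap_apply k K Ω a))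
  let xE : E := algebraMap K⟮x⟯ E (AdjoinSimple.gen K x)
  have hxE : (xE : Ω) = x := rfl
  have hyE : y ∈ E := by
    rw [mem_algebraicClosure_iff']
    exact isIntegral_y (R := K⟮x⟯) W' (AdjoinSimple.gen K x) h.1
  let yE : E := ⟨y, hyE⟩
  let incl : E →ₐ[k] Ω := IsScalarTower.toAlgHom k E Ω
  have hE : (W'⁄E).Nonsingular xE yE :=
    (W'.baseChange_nonsingular incl.injective xE yE).mp h
  let PE : (W'⁄E).Point := Point.some xE yE hE
  have hPE : n • PE = 0 := by
    apply Point.map_injective incl
    rw [map_nsmul, map_zero]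
    exact hP
  -- the shifted embeddings
  have htr' : ∀ c : K, Transcendental K (x + algebraMap K Ω c) := fun c halg =>
    htr (by simpa using halg.sub (isAlgebraic_algebraMap c))
  choose ψ hψ using fun c : K => exists_algHom_algebraicClosure htr (htr' c)
  let T : K → (W'⁄Ω).Point := fun c => Point.map ((ψ c).restrictScalars k) PE
  have hT : ∀ c, T c ∈ {P : (W'⁄Ω).Point | n • P = 0} := by
    intro c
    show n • Point.map ((ψ c).restrictScalars k) PE = 0
    rw [← map_nsmul, hPE, map_zero]
  have hinj : Function.Injective T := by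
    intro c c' hcc
    have h1 : (ψ c) xE = (ψ c') xE := by
      have := hcc
      simp only [T, PE, Point.map_some] at this
      exact (Point.some.inj this).1
    rw [hψ c, hψ c'] at h1
    exact (algebraMap K Ω).injective (add_left_cancel h1)
  exact (Set.infinite_of_injective_forall_mem hinj hT) hfin

theorem mem_torsionBy_iff_nsmul {F : Type*} [Field F] [DecidableEq F] [Algebra k F]
    (W' : Affine k) (n : ℕ) (Q : (W'⁄F).Point) :
    Q ∈ Submodule.torsionBy ℤ (W'⁄F).Point n ↔ n • Q = 0 := by
  rw [Submodule.mem_torsionBy_iff, natCast_zsmul]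

end Main

end AlgDescent

section Export

open AlgDescent

variable {k K Ω : Type*} [Field k] [Field K] [Field Ω] [DecidableEq K] [DecidableEq Ω]
  [Algebra k K] [Algebra k Ω] [IsAlgClosed K] [IsAlgClosed Ω]

/-- **Descent of torsion points.** Let `K ⊆ Ω` be algebraically closed fields and `W'` a
Weierstrass curve over a subfield `k` of `K`. If `E(Ω)` has only finitely many points killed
by `n`, then each of them is the image of a point of `E(K)` (killed by `n`). -/
theorem exists_map_eq_of_torsion (ι : K →ₐ[k] Ω) (W' : Affine k) (n : ℕ)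
    (hfin : {P : (W'⁄Ω).Point | n • P = 0}.Finite) (P : (W'⁄Ω).Point) (hP : n • P = 0) :
    ∃ Q : (W'⁄K).Point, n • Q = 0 ∧ Point.map ι Q = P := by
  let _ : Algebra K Ω := ι.toRingHom.toAlgebra
  have hst : IsScalarTower k K Ω := IsScalarTower.of_algebraMap_eq (fun a => (ι.commutes a).symm)
  have key : ∀ Q : (W'⁄K).Point, Point.map ι Q = P → n • Q = 0 := by
    intro Q hQ
    apply Point.map_injective ι
    rw [map_nsmul, hQ, hP, map_zero]
  rcases P with _ | ⟨x, y, h⟩
  · exact ⟨0, key 0 rfl, rfl⟩
  · obtain ⟨x₀, hx₀⟩ := x_mem_range (K := K) W' n hfin h hP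
    subst hx₀
    obtain ⟨y₀, hy₀⟩ := mem_range_of_isIntegral (K := K) (isIntegral_y (R := K) W' x₀ h.1)
    subst hy₀
    have hQ : (W'⁄K).Nonsingular x₀ y₀ := (W'.baseChange_nonsingular ι.injective x₀ y₀).mp h
    exact ⟨Point.some x₀ y₀ hQ, key _ rfl, rfl⟩

/-- Under the same finiteness hypothesis, `E(K)[n]` and `E(Ω)[n]` have the same cardinality. -/
theorem natCard_torsionBy_eq (ι : K →ₐ[k] Ω) (W' : Affine k) (n : ℕ)
    (hfin : {P : (W'⁄Ω).Point | n • P = 0}.Finite) :
    Nat.card (Submodule.torsionBy ℤ (W'⁄K).Point n) =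
      Nat.card (Submodule.torsionBy ℤ (W'⁄Ω).Point n) := by
  refine Nat.card_congr (Equiv.ofBijective
    (fun Q => ⟨Point.map ι Q.1, (mem_torsionBy_iff_nsmul W' n _).2
      (by rw [← map_nsmul, (mem_torsionBy_iff_nsmul W' n _).1 Q.2, map_zero])⟩)
    ⟨?_, ?_⟩)
  · intro Q Q' hQQ
    exact Subtype.ext (Point.map_injective ι (congrArg Subtype.val hQQ))
  · intro P
    obtain ⟨Q, hQ, hQP⟩ := exists_map_eq_of_torsion ι W' n hfin P.1
      ((mem_torsionBy_iff_nsmul W' n _).1 P.2)
    exact ⟨⟨Q, (mem_torsionBy_iff_nsmul W' n _).2 hQ⟩, Subtype.ext hQP⟩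

/-- Variant of `natCard_torsionBy_eq` with the finiteness hypothesis on the torsion submodule. -/
theorem natCard_torsionBy_eq_of_finite (ι : K →ₐ[k] Ω) (W' : Affine k) (n : ℕ)
    (hfin : Finite (Submodule.torsionBy ℤ (W'⁄Ω).Point n)) :
    Nat.card (Submodule.torsionBy ℤ (W'⁄K).Point n) =
      Nat.card (Submodule.torsionBy ℤ (W'⁄Ω).Point n) := by
  refine natCard_torsionBy_eq ι W' n ?_
  have h : {P : (W'⁄Ω).Point | n • P = 0} =
      ((Submodule.torsionBy ℤ (W'⁄Ω).Point n : Submodule ℤ (W'⁄Ω).Point) : Set (W'⁄Ω).Point) := by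
    ext P
    exact (mem_torsionBy_iff_nsmul W' n P).symm
  rw [h]
  exact Set.toFinite _

end Export

end Fermat.Agent.S13
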