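/-
S13, global step, cyclotomic part: the mod `p` cyclotomic character of the absolute Galois group
of `ℚ`, its ramification (unramified outside `p`) and its value on Frobenius elements.
-/
import Mathlib
import Fermat.Agent.S54_Frob
import Fermat.Prelude.Def_FLTPrelim_Ramification
import Fermat.Prelude.Def_EllipticCurve_FrobeniusTrace

set_option autoImplicit false

namespace Fermat.Agent.S13

namespace Cyclo

section ValSub

variable {L : Type*} [Field L] (A : ValuationSubring L)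

/-- A root of unity has valuation one. -/
theorem valuation_eq_one_of_pow_eq_one {n : ℕ} (hn : n ≠ 0) {ζ : L} (hζ : ζ ^ n = 1) :
    A.valuation ζ = 1 := by
  have h := congrArg A.valuation hζ
  rw [map_pow, map_one] at h
  exact (pow_eq_one_iff_left hn).mp h

theorem mem_of_pow_eq_one {n : ℕ} (hn : n ≠ 0) {ζ : L} (hζ : ζ ^ n = 1) : ζ ∈ A := by
  rw [← ValuationSubring.valuation_le_one_iff, valuation_eq_one_of_pow_eq_one A hn hζ]

/-- Reduction modulo the maximal ideal of a valuation subring is injective on `n`-th roots of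
unity when `n` is a unit of the valuation subring. -/
theorem eq_of_sub_mem_nonunits {n : ℕ} (hn : n ≠ 0) (hnA : (n : L) ∉ A.nonunits) {ζ ζ' : L}
    (hζ : ζ ^ n = 1) (hζ' : ζ' ^ n = 1) (h : ζ - ζ' ∈ A.nonunits) : ζ = ζ' := by
  by_contra hne
  have hζA : ζ ∈ A := mem_of_pow_eq_one A hn hζ
  have hζ'A : ζ' ∈ A := mem_of_pow_eq_one A hn hζ'
  -- all differences of powers are nonunits
  have hpow : ∀ i : ℕ, A.valuation (ζ' ^ i - ζ ^ i) < 1 := by
    intro i
    have h1 : ζ' ^ i - ζ ^ i = (∑ j ∈ Finset.range i, ζ ^ j * ζ' ^ (i - 1 - j)) * -(ζ - ζ') := by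
      rw [mul_neg, geom_sum₂_mul]; ring
    have h2 : (∑ j ∈ Finset.range i, ζ ^ j * ζ' ^ (i - 1 - j)) ∈ A :=
      sum_mem fun j _ => mul_mem (pow_mem hζA _) (pow_mem hζ'A _)
    have h3 : -(ζ - ζ') ∈ A.nonunits := by
      rw [ValuationSubring.mem_nonunits_iff, Valuation.map_neg]
      exact (ValuationSubring.mem_nonunits_iff A).mp h
    rw [h1]
    exact (ValuationSubring.mem_nonunits_iff A).mp (S54.mul_mem_nonunits A h2 h3)
  -- the geometric sum vanishes
  have hS : ∑ j ∈ Finset.range n, ζ ^ j * ζ' ^ (n - 1 - j) = 0 := by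
    have h1 := geom_sum₂_mul ζ ζ' n
    rw [hζ, hζ', sub_self] at h1
    rcases mul_eq_zero.mp h1 with h2 | h2
    · exact h2
    · exact absurd (sub_eq_zero.mp h2) hne
  have hT : (n : L) * ζ ^ (n - 1) =
      -∑ j ∈ Finset.range n, ζ ^ j * (ζ' ^ (n - 1 - j) - ζ ^ (n - 1 - j)) := by
    have h1 : ∑ j ∈ Finset.range n, ζ ^ j * (ζ' ^ (n - 1 - j) - ζ ^ (n - 1 - j)) =
        ∑ j ∈ Finset.range n, ζ ^ j * ζ' ^ (n - 1 - j) - ∑ j ∈ Finset.range n, ζ ^ (n - 1) := by
      rw [← Finset.sum_sub_distrib]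
      refine Finset.sum_congr rfl fun j hj => ?_
      have hj' : j + (n - 1 - j) = n - 1 := by
        have := Finset.mem_range.mp hj
        omega
      rw [mul_sub, ← pow_add, hj']
    rw [h1, hS, Finset.sum_const, Finset.card_range, nsmul_eq_mul]
    ring
  have hlt : A.valuation ((n : L) * ζ ^ (n - 1)) < 1 := by
    rw [hT, Valuation.map_neg]
    refine Valuation.map_sum_lt _ one_ne_zero fun j _ => ?_
    rw [map_mul, map_pow, valuation_eq_one_of_pow_eq_one A hn hζ, one_pow, one_mul]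
    exact hpow _
  rw [map_mul, map_pow, valuation_eq_one_of_pow_eq_one A hn hζ, one_pow, mul_one] at hlt
  exact hnA ((ValuationSubring.mem_nonunits_iff A).mpr hlt)

end ValSub

section Unfold

variable {K L : Type*} [Field K] [Field L] [Algebra K L] (A : ValuationSubring L)

/-- Elements of the inertia group act trivially on the residue field. -/
theorem sub_mem_nonunits_of_mem_inertia {σ : L ≃ₐ[K] L} (hσ : σ ∈ A.inertiaSubgroupIn K)
    {z : L} (hz : z ∈ A) : σ z - z ∈ A.nonunits := by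
  obtain ⟨τ, hτ, rfl⟩ := hσ
  have h1 : MulSemiringAction.toRingAut (A.decompositionSubgroup K) (IsLocalRing.ResidueField A) τ
      = 1 := hτ
  have h2 : τ • IsLocalRing.residue A ⟨z, hz⟩ = IsLocalRing.residue A ⟨z, hz⟩ := by
    have := congrArg (fun e : RingAut (IsLocalRing.ResidueField A) =>
      e (IsLocalRing.residue A ⟨z, hz⟩)) h1
    exact this
  rw [← IsLocalRing.ResidueField.residue_smul, ← sub_eq_zero, ← map_sub,
    IsLocalRing.residue_eq_zero_iff, ← ValuationSubring.coe_mem_nonunits_iff] at h2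
  exact h2

/-- A Frobenius element acts as the `q`-th power map modulo the maximal ideal. -/
theorem sub_pow_mem_nonunits_of_isFrobeniusAt {σ : L ≃ₐ[K] L} {q : ℕ}
    (hσ : A.IsFrobeniusAt σ q) {z : L} (hz : z ∈ A) : σ z - z ^ q ∈ A.nonunits := by
  obtain ⟨hdec, hfr⟩ := hσ
  have h2 := hfr (IsLocalRing.residue A ⟨z, hz⟩)
  rw [← IsLocalRing.ResidueField.residue_smul, ← map_pow, ← sub_eq_zero, ← map_sub,
    IsLocalRing.residue_eq_zero_iff, ← ValuationSubring.coe_mem_nonunits_iff] at h2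
  exact h2

end Unfold

end Cyclo

local notation "Qbar" => AlgebraicClosure ℚ
local notation "GQ" => (AlgebraicClosure ℚ ≃ₐ[ℚ] AlgebraicClosure ℚ)

theorem Cyclo.card_rootsOfUnity (p : ℕ) [NeZero p] : Nat.card (rootsOfUnity p Qbar) = p := by
  obtain ⟨ζ, hζ⟩ := HasEnoughRootsOfUnity.exists_primitiveRoot Qbar p
  exact hζ.card_rootsOfUnity

/-- The mod `p` cyclotomic character of the absolute Galois group of `ℚ`. -/
noncomputable def cycloChar (p : ℕ) [Fact p.Prime] : GQ →* (ZMod p)ˣ :=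
  (modularCyclotomicCharacter Qbar (Cyclo.card_rootsOfUnity p)).comp
    (MulSemiringAction.toRingAut GQ Qbar)

theorem cycloChar_spec (p : ℕ) [Fact p.Prime] (σ : GQ) {ζ : Qbar} (hζ : ζ ^ p = 1) :
    σ ζ = ζ ^ ((cycloChar p σ : (ZMod p)ˣ) : ZMod p).val := by
  have hp0 : p ≠ 0 := (Fact.out : p.Prime).ne_zero
  have hζ0 : ζ ≠ 0 := fun h => by
    rw [h, zero_pow hp0] at hζ
    exact zero_ne_one hζ
  have hmem : Units.mk0 ζ hζ0 ∈ rootsOfUnity p Qbar := by
    rw [mem_rootsOfUnity]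
    exact Units.ext (by simpa using hζ)
  exact modularCyclotomicCharacter.spec Qbar (Cyclo.card_rootsOfUnity p)
    (MulSemiringAction.toRingAut GQ Qbar σ) hmem

/-- The value of the cyclotomic character is determined by the action on one nontrivial
`p`-th root of unity. -/
theorem cycloChar_eq_of_map_eq_pow (p : ℕ) [Fact p.Prime] (σ : GQ) {ζ : Qbar} (hζ : ζ ^ p = 1)
    (hζ1 : ζ ≠ 1) (k : ℕ) (h : σ ζ = ζ ^ k) :
    ((cycloChar p σ : (ZMod p)ˣ) : ZMod p) = (k : ZMod p) := by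
  have hord : orderOf ζ = p := orderOf_eq_prime hζ hζ1
  have h1 := cycloChar_spec p σ hζ
  have hfin : IsOfFinOrder ζ :=
    isOfFinOrder_iff_pow_eq_one.mpr ⟨p, (Fact.out : p.Prime).pos, hζ⟩
  rw [h, hfin.pow_eq_pow_iff_modEq, hord] at h1
  rw [← ZMod.natCast_zmod_val ((cycloChar p σ : (ZMod p)ˣ) : ZMod p)]
  exact ((ZMod.natCast_eq_natCast_iff _ _ _).mpr h1).symm

theorem exists_root_ne_one (p : ℕ) [Fact p.Prime] : ∃ ζ : Qbar, ζ ^ p = 1 ∧ ζ ≠ 1 := by
  obtain ⟨ζ, hζ⟩ := HasEnoughRootsOfUnity.exists_primitiveRoot Qbar p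
  exact ⟨ζ, hζ.pow_eq_one, hζ.ne_one (Fact.out : p.Prime).one_lt⟩

theorem cycloChar_eq_one_of_map_eq (p : ℕ) [Fact p.Prime] (σ : GQ) {ζ : Qbar} (hζ : ζ ^ p = 1)
    (hζ1 : ζ ≠ 1) (h : σ ζ = ζ) : cycloChar p σ = 1 := by
  have h1 := cycloChar_eq_of_map_eq_pow p σ hζ hζ1 1 (by rw [pow_one]; exact h)
  exact Units.ext (by rw [h1]; simp)

/-- The cyclotomic character has open kernel. -/
theorem isOpen_ker_cycloChar (p : ℕ) [Fact p.Prime] : IsOpen ((cycloChar p).ker : Set GQ) := by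
  obtain ⟨ζ, hζ, hζ1⟩ := exists_root_ne_one p
  refine Subgroup.isOpen_mono (H₁ := MulAction.stabilizer GQ ζ) (fun σ hσ => ?_)
    (stabilizer_isOpen_of_isIntegral ζ)
  exact MonoidHom.mem_ker.mpr (cycloChar_eq_one_of_map_eq p σ hζ hζ1 (MulAction.mem_stabilizer_iff.mp hσ))

/-- A prime different from `ℓ` is a unit in every valuation subring over `ℓ`. -/
theorem Cyclo.natCast_not_mem_nonunits {L : Type*} [Field L] (A : ValuationSubring L) {ℓ p : ℕ}
    (hℓ : ℓ.Prime) (hA : A.LiesOverPrime ℓ) (hp : p.Prime) (hℓp : ℓ ≠ p) :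
    (p : L) ∉ A.nonunits := by
  intro h
  have h1 : ((p : ℤ) : L) ∈ A.nonunits := by simpa using h
  have h2 := (S54.int_mem_nonunits_iff A hℓ hA (p : ℤ)).mp h1
  exact hℓp ((Nat.prime_dvd_prime_iff_eq hℓ hp).mp (Int.natCast_dvd_natCast.mp h2))

/-- The mod `p` cyclotomic character is unramified outside `p`. -/
theorem cycloChar_eq_one_of_mem_inertia (p : ℕ) [Fact p.Prime] (A : ValuationSubring Qbar)
    {ℓ : ℕ} (hℓ : ℓ.Prime) (hA : A.LiesOverPrime ℓ) (hℓp : ℓ ≠ p) {σ : GQ}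
    (hσ : σ ∈ A.inertiaSubgroupIn ℚ) : cycloChar p σ = 1 := by
  have hp : p.Prime := Fact.out
  obtain ⟨ζ, hζ, hζ1⟩ := exists_root_ne_one p
  refine cycloChar_eq_one_of_map_eq p σ hζ hζ1 ?_
  refine Cyclo.eq_of_sub_mem_nonunits A hp.ne_zero
    (Cyclo.natCast_not_mem_nonunits A hℓ hA hp hℓp) (by rw [← map_pow, hζ, map_one]) hζ ?_
  exact Cyclo.sub_mem_nonunits_of_mem_inertia A hσ (Cyclo.mem_of_pow_eq_one A hp.ne_zero hζ)

/-- The mod `p` cyclotomic character sends a Frobenius element at `ℓ ≠ p` to `ℓ`. -/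
theorem cycloChar_of_isFrobeniusAt (p : ℕ) [Fact p.Prime] (A : ValuationSubring Qbar)
    {ℓ : ℕ} (hℓ : ℓ.Prime) (hA : A.LiesOverPrime ℓ) (hℓp : ℓ ≠ p) {σ : GQ}
    (hσ : A.IsFrobeniusAt σ ℓ) : ((cycloChar p σ : (ZMod p)ˣ) : ZMod p) = (ℓ : ZMod p) := by
  have hp : p.Prime := Fact.out
  obtain ⟨ζ, hζ, hζ1⟩ := exists_root_ne_one p
  refine cycloChar_eq_of_map_eq_pow p σ hζ hζ1 ℓ ?_
  refine Cyclo.eq_of_sub_mem_nonunits A hp.ne_zero
    (Cyclo.natCast_not_mem_nonunits A hℓ hA hp hℓp) (by rw [← map_pow, hζ, map_one])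
    (by rw [← pow_mul, mul_comm, pow_mul, hζ, one_pow]) ?_
  exact Cyclo.sub_pow_mem_nonunits_of_isFrobeniusAt A hσ (Cyclo.mem_of_pow_eq_one A hp.ne_zero hζ)

end Fermat.Agent.S13
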