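/-
S13 / Frey2 (helper22): arithmetic of the Frey curve at 2.  The coefficients `a₂`, `a₄` of the
Frey model are integers, `a₄ ≠ 0`, and `v₂(a₄) = p · v₂(b) - 4` with `v₂(b) ≥ 1`.
-/
import Mathlib
import Fermat.Prelude.Def_FLTPrelim_FreyPackage

set_option autoImplicit false

namespace Fermat.Agent.S13

namespace Frey2

lemma two_dvd_b (P : FreyPackage) : (2 : ℤ) ∣ P.b :=
  (ZMod.intCast_zmod_eq_zero_iff_dvd P.b 2).1 P.hb2

lemma not_two_dvd_a (P : FreyPackage) : ¬ (2 : ℤ) ∣ P.a := by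
  intro h
  obtain ⟨c, hc⟩ := h
  have h4 := P.ha4
  rw [hc] at h4
  have : ∀ z : ZMod 4, (2 : ZMod 4) * z ≠ 3 := by decide
  push_cast at h4
  exact this _ h4

lemma four_dvd (P : FreyPackage) : (4 : ℤ) ∣ P.b ^ P.p - 1 - P.a ^ P.p := by
  have hp5 := P.hp5
  have hb : (4 : ℤ) ∣ P.b ^ P.p := by
    have h1 : (2 : ℤ) ^ P.p ∣ P.b ^ P.p := pow_dvd_pow_of_dvd (two_dvd_b P) _
    have h2 : (4 : ℤ) ∣ 2 ^ P.p := by
      have : (2 : ℤ) ^ 2 ∣ 2 ^ P.p := pow_dvd_pow 2 (by omega)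
      simpa using this
    exact dvd_trans h2 h1
  have ha : (4 : ℤ) ∣ 1 + P.a ^ P.p := by
    apply (ZMod.intCast_zmod_eq_zero_iff_dvd (1 + P.a ^ P.p) 4).1
    push_cast
    rw [P.ha4]
    obtain ⟨j, hj⟩ := P.hp_odd
    rw [hj, pow_succ, pow_mul]
    have h9 : (3 : ZMod 4) ^ 2 = 1 := by decide
    rw [h9, one_pow]
    decide
  have : P.b ^ P.p - 1 - P.a ^ P.p = P.b ^ P.p - (1 + P.a ^ P.p) := by ring
  rw [this]
  exact dvd_sub hb ha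

lemma sixteen_dvd (P : FreyPackage) : (16 : ℤ) ∣ P.b ^ P.p := by
  have hp5 := P.hp5
  have h1 : (2 : ℤ) ^ P.p ∣ P.b ^ P.p := pow_dvd_pow_of_dvd (two_dvd_b P) _
  have h2 : (16 : ℤ) ∣ 2 ^ P.p := by
    have : (2 : ℤ) ^ 4 ∣ 2 ^ P.p := pow_dvd_pow 2 (by omega)
    simpa using this
  exact dvd_trans h2 h1

end Frey2

open Frey2

/-- Arithmetic of the Frey curve at `2`. -/
theorem frey_two (P : FreyPackage) :
    ∃ n₂ n₄ : ℤ, ∃ m : ℕ, P.freyCurve.a₂ = (n₂ : ℚ) ∧ P.freyCurve.a₄ = (n₄ : ℚ) ∧ n₄ ≠ 0 ∧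
      1 ≤ m ∧ padicValRat 2 P.freyCurve.a₄ = (P.p : ℤ) * m - 4 := by
  obtain ⟨k₂, hk₂⟩ := four_dvd P
  obtain ⟨k₄, hk₄⟩ := sixteen_dvd P
  have hb0 : P.b ≠ 0 := P.hb0
  have ha0 : P.a ≠ 0 := P.ha0
  have hk₄0 : k₄ ≠ 0 := by
    rintro rfl
    rw [mul_zero] at hk₄
    exact hb0 (pow_eq_zero_iff (P.hp0) |>.1 hk₄)
  have hm : 1 ≤ padicValInt 2 P.b := by
    have : (2 : ℤ) ^ 1 ∣ P.b := by simpa using two_dvd_b P
    exact (padicValInt_dvd_iff (p := 2) 1 P.b).1 this |>.resolve_left hb0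
  refine ⟨k₂, -(P.a ^ P.p) * k₄, padicValInt 2 P.b, ?_, ?_, ?_, hm, ?_⟩
  · show ((P.b : ℚ) ^ P.p - 1 - (P.a : ℚ) ^ P.p) / 4 = (k₂ : ℚ)
    have : ((P.b : ℚ) ^ P.p - 1 - (P.a : ℚ) ^ P.p) = 4 * (k₂ : ℚ) := by exact_mod_cast hk₂
    rw [this]; ring
  · show -((P.a : ℚ) ^ P.p) * ((P.b : ℚ) ^ P.p) / 16 = ((-(P.a ^ P.p) * k₄ : ℤ) : ℚ)
    have : ((P.b : ℚ) ^ P.p) = 16 * (k₄ : ℚ) := by exact_mod_cast hk₄
    rw [this]; push_cast; ring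
  · exact mul_ne_zero (neg_ne_zero.2 (pow_ne_zero _ ha0)) hk₄0
  · show padicValRat 2 (-((P.a : ℚ) ^ P.p) * ((P.b : ℚ) ^ P.p) / 16) = _
    have haQ : (P.a : ℚ) ≠ 0 := by exact_mod_cast ha0
    have hbQ : (P.b : ℚ) ≠ 0 := by exact_mod_cast hb0
    have h16 : (16 : ℚ) = 2 ^ 4 := by norm_num
    have h22 : padicValRat 2 (2 : ℚ) = 1 := by
      have := padicValRat.self (p := 2) (by norm_num)
      exact_mod_cast this
    rw [padicValRat.div (mul_ne_zero (neg_ne_zero.2 (pow_ne_zero _ haQ)) (pow_ne_zero _ hbQ))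
      (by norm_num), padicValRat.mul (neg_ne_zero.2 (pow_ne_zero _ haQ)) (pow_ne_zero _ hbQ),
      padicValRat.neg, padicValRat.pow, padicValRat.pow, h16,
      padicValRat.pow, h22, padicValRat.of_int,
      padicValRat.of_int, padicValInt.eq_zero_of_not_dvd (not_two_dvd_a P)]
    push_cast
    ring

end Fermat.Agent.S13
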