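/-
Inertia groups of valuation subrings of `AlgebraicClosure ℚ`: unfolding of the prelude
definition `ValuationSubring.inertiaSubgroupIn`, and the lifting lemma: the inertia group of a
valuation subring `A` over a prime number surjects onto the inertia group (relative to `A`) of
every intermediate field.

Main results (namespace `Fermat.Agent.S13`):
* `mem_decompositionSubgroup_iff`, `mem_inertiaSubgroupIn_iff'` (any field extension),
  `mem_inertiaSubgroupIn_iff` (for `AlgebraicClosure ℚ` over `ℚ`);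
* `InertiaLift.mem_inertiaSubgroupIn_of_zbar`: an automorphism moving every algebraic integer by
  an element of the maximal ideal of `A` lies in the inertia group of `A`;
* `exists_mem_inertiaSubgroupIn_restrict`: the lifting lemma.
-/
import Mathlib
import Fermat.Prelude.Def_FLTPrelim_Ramification
import Fermat.Agent.S54_Frob

set_option autoImplicit false

open scoped Pointwise

namespace Fermat.Agent.S13

section Unfold

variable {K L : Type*} [Field K] [Field L] [Algebra K L]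

theorem mem_decompositionSubgroup_iff (A : ValuationSubring L) (σ : L ≃ₐ[K] L) :
    σ ∈ A.decompositionSubgroup K ↔ ∀ a : L, a ∈ A ↔ σ a ∈ A := by
  rw [MulAction.mem_stabilizer_iff]
  constructor
  · intro h a
    constructor
    · intro ha
      have : σ • a ∈ σ • A := ValuationSubring.smul_mem_pointwise_smul σ a A ha
      rw [h] at this
      exact this
    · intro ha
      rw [← h, ValuationSubring.mem_pointwise_smul_iff_inv_smul_mem] at ha
      have h2 : σ⁻¹ • σ a = a := by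
        rw [AlgEquiv.smul_def, AlgEquiv.aut_inv, AlgEquiv.symm_apply_apply]
      rwa [h2] at ha
  · intro h
    ext x
    rw [ValuationSubring.mem_pointwise_smul_iff_inv_smul_mem, h]
    have h2 : σ (σ⁻¹ • x) = x := by
      rw [AlgEquiv.smul_def, AlgEquiv.aut_inv, AlgEquiv.apply_symm_apply]
    rw [h2]

theorem mem_inertiaSubgroupIn_iff' (A : ValuationSubring L) (σ : L ≃ₐ[K] L) :
    σ ∈ A.inertiaSubgroupIn K ↔
      (∀ a : L, a ∈ A → σ a ∈ A) ∧ (∀ a : L, a ∈ A → σ a - a ∈ A.nonunits) := by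
  constructor
  · intro h
    obtain ⟨g, hg, rfl⟩ := Subgroup.mem_map.mp h
    have hdec := (mem_decompositionSubgroup_iff A (g : L ≃ₐ[K] L)).mp g.2
    refine ⟨fun a ha => (hdec a).mp ha, fun a ha => ?_⟩
    have h1 : MulSemiringAction.toRingAut (A.decompositionSubgroup K)
        (IsLocalRing.ResidueField A) g = 1 := hg
    have h2 := congrArg (fun f => f (IsLocalRing.residue A ⟨a, ha⟩)) h1
    replace h2 : g • IsLocalRing.residue A ⟨a, ha⟩ = IsLocalRing.residue A ⟨a, ha⟩ := h2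
    rw [← IsLocalRing.ResidueField.residue_smul, ← sub_eq_zero, ← map_sub,
      IsLocalRing.residue_eq_zero_iff, ← ValuationSubring.coe_mem_nonunits_iff] at h2
    exact h2
  · rintro ⟨h1, h2⟩
    have hdec : σ ∈ A.decompositionSubgroup K := by
      rw [mem_decompositionSubgroup_iff]
      intro a
      refine ⟨h1 a, fun ha => ?_⟩
      by_contra hna
      have hb : a⁻¹ ∈ A.nonunits := by
        rw [ValuationSubring.mem_nonunits_iff, map_inv₀]
        have : 1 < A.valuation a := by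
          rw [← not_le, ValuationSubring.valuation_le_one_iff]; exact hna
        exact inv_lt_one_of_one_lt₀ this
      have hbA : a⁻¹ ∈ A := ValuationSubring.nonunits_subset hb
      have h3 := h2 _ hbA
      have h4 : σ a⁻¹ ∈ A.nonunits := by
        have : σ a⁻¹ = (σ a⁻¹ - a⁻¹) + a⁻¹ := by ring
        rw [this]
        exact Fermat.Agent.S54.add_mem_nonunits A h3 hb
      rw [map_inv₀, ValuationSubring.mem_nonunits_iff, map_inv₀] at h4
      have h5 : A.valuation (σ a) ≤ 1 := (ValuationSubring.valuation_le_one_iff A _).mpr ha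
      by_cases h0 : A.valuation (σ a) = 0
      · rw [h0, inv_zero] at h4
        have ha0 : σ a = 0 := (Valuation.zero_iff _).mp h0
        have : a = 0 := by simpa using ha0
        exact hna (this ▸ A.zero_mem)
      · have := (inv_lt_one₀ (zero_lt_iff.mpr h0)).mp h4
        exact absurd h5 (not_le.mpr this)
    refine Subgroup.mem_map.mpr ⟨⟨σ, hdec⟩, ?_, rfl⟩
    change MulSemiringAction.toRingAut (A.decompositionSubgroup K)
        (IsLocalRing.ResidueField A) ⟨σ, hdec⟩ = 1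
    ext x
    obtain ⟨a, rfl⟩ := IsLocalRing.residue_surjective x
    change (⟨σ, hdec⟩ : A.decompositionSubgroup K) • IsLocalRing.residue A a =
      IsLocalRing.residue A a
    rw [← IsLocalRing.ResidueField.residue_smul, ← sub_eq_zero, ← map_sub,
      IsLocalRing.residue_eq_zero_iff, ← ValuationSubring.coe_mem_nonunits_iff]
    exact h2 a a.2

end Unfold

local notation "Qbar" => AlgebraicClosure ℚ
local notation "GQ" => (AlgebraicClosure ℚ ≃ₐ[ℚ] AlgebraicClosure ℚ)
local notation "Zbar" => integralClosure ℤ (AlgebraicClosure ℚ)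

/-- Membership in the inertia group of a valuation subring of `AlgebraicClosure ℚ`, unfolded. -/
theorem mem_inertiaSubgroupIn_iff (A : ValuationSubring Qbar) (σ : GQ) :
    σ ∈ A.inertiaSubgroupIn ℚ ↔
      (∀ a : Qbar, a ∈ A → σ a ∈ A) ∧ (∀ a : Qbar, a ∈ A → σ a - a ∈ A.nonunits) :=
  mem_inertiaSubgroupIn_iff' A σ

open Fermat.Agent.S54

attribute [local instance] galActIntegralClosure

namespace InertiaLift


theorem fixed_mem (L : IntermediateField ℚ Qbar) (z : Zbar)
    (hz : ∀ h : Qbar ≃ₐ[L] Qbar, h • z = z) : (z : Qbar) ∈ L := by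
  have h1 : (z : Qbar) ∈ (⊥ : IntermediateField L Qbar) := by
    rw [← InfiniteGalois.fixedField_bot (k := L) (K := Qbar)]
    rintro ⟨g, -⟩
    exact congrArg Subtype.val (hz g)
  rw [IntermediateField.mem_bot] at h1
  obtain ⟨l, hl⟩ := h1
  rw [← hl]
  exact l.2

/-- If `σ` moves every algebraic integer by an element of the maximal ideal of `A`, then
`σ` lies in the inertia group of `A`. -/
theorem mem_inertiaSubgroupIn_of_zbar (A : ValuationSubring Qbar) {ℓ : ℕ} (hℓ : ℓ.Prime)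
    (hA : A.LiesOverPrime ℓ) (σ : GQ)
    (hσ : ∀ z : Zbar, σ (z : Qbar) - (z : Qbar) ∈ A.nonunits) :
    σ ∈ A.inertiaSubgroupIn ℚ := by
  have hA' : (ℓ : Qbar) ∈ A.nonunits := hA
  have hZA : ∀ x : Zbar, (x : Qbar) ∈ A := integralClosure_int_le A
  have halg : ∀ u : Qbar, IsAlgebraic ℤ u := fun u =>
    (IsFractionRing.isAlgebraic_iff ℤ ℚ Qbar).mpr (Algebra.IsAlgebraic.isAlgebraic u)
  have hσZ : ∀ z : Zbar, σ (z : Qbar) ∈ A := fun z =>
    hZA ⟨σ (z : Qbar), map_isIntegral_int σ z.2⟩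
  have key : ∀ a : Qbar, a ∈ A → σ a ∈ A ∧ σ a - a ∈ A.nonunits := by
    intro a ha
    obtain ⟨s, b, hs, hsb⟩ := exists_integral_mul_eq A hℓ hA' ha (halg a)
    have hs1 : A.valuation (s : Qbar) = 1 := valuation_eq_one_of_not_mem_nonunits A (hZA s) hs
    have hσs : σ (s : Qbar) ∉ A.nonunits := by
      intro h
      apply hs
      have : (s : Qbar) = σ (s : Qbar) - (σ (s : Qbar) - (s : Qbar)) := by ring
      rw [this, sub_eq_add_neg]
      refine add_mem_nonunits A h ?_
      rw [ValuationSubring.mem_nonunits_iff, Valuation.map_neg]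
      exact (ValuationSubring.mem_nonunits_iff A).mp (hσ s)
    have hσs1 : A.valuation (σ (s : Qbar)) = 1 :=
      valuation_eq_one_of_not_mem_nonunits A (hσZ s) hσs
    have hs0 : (s : Qbar) ≠ 0 := by
      intro h0
      rw [h0, map_zero] at hs1
      exact zero_ne_one hs1
    have hσs0 : σ (s : Qbar) ≠ 0 := by
      intro h0
      rw [h0, map_zero] at hσs1
      exact zero_ne_one hσs1
    have e1 : σ (s : Qbar) * σ a = σ (b : Qbar) := by rw [← map_mul, hsb]
    have ha_eq : a = (b : Qbar) / (s : Qbar) := by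
      rw [eq_div_iff hs0, mul_comm]; exact hsb
    have hσa_eq : σ a = σ (b : Qbar) / σ (s : Qbar) := by
      rw [eq_div_iff hσs0, mul_comm]; exact e1
    constructor
    · rw [← ValuationSubring.valuation_le_one_iff, hσa_eq, map_div₀, hσs1, div_one]
      exact (ValuationSubring.valuation_le_one_iff A _).mpr (hσZ b)
    · have e2 : σ a - a = ((σ (b : Qbar) - (b : Qbar)) * (s : Qbar) -
          (b : Qbar) * (σ (s : Qbar) - (s : Qbar))) / (σ (s : Qbar) * (s : Qbar)) := by
        rw [hσa_eq, ha_eq]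
        field_simp
        ring
      rw [e2, ValuationSubring.mem_nonunits_iff, map_div₀, map_mul, hσs1, hs1, mul_one, div_one,
        ← ValuationSubring.mem_nonunits_iff, sub_eq_add_neg]
      refine add_mem_nonunits A ?_ ?_
      · rw [mul_comm]; exact mul_mem_nonunits A (hZA s) (hσ b)
      · rw [ValuationSubring.mem_nonunits_iff, Valuation.map_neg,
          ← ValuationSubring.mem_nonunits_iff]
        exact mul_mem_nonunits A (hZA b) (hσ s)
  rw [mem_inertiaSubgroupIn_iff']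
  exact ⟨fun a ha => (key a ha).1, fun a ha => (key a ha).2⟩



theorem continuousSMul_zbar (L : IntermediateField ℚ Qbar) :
    letI : TopologicalSpace Zbar := ⊥
    ContinuousSMul (Qbar ≃ₐ[L] Qbar) Zbar := by
  let _ : TopologicalSpace Zbar := ⊥
  have : DiscreteTopology Zbar := ⟨rfl⟩
  refine continuousSMul_iff_stabilizer_isOpen.mpr fun x => ?_
  have h : (MulAction.stabilizer (Qbar ≃ₐ[L] Qbar) x : Set (Qbar ≃ₐ[L] Qbar)) =
      MulAction.stabilizer (Qbar ≃ₐ[L] Qbar) (x : Qbar) := by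
    ext g
    simp only [SetLike.mem_coe, MulAction.mem_stabilizer_iff, Subtype.ext_iff]
    rfl
  rw [h]
  exact stabilizer_isOpen_of_isIntegral _

end InertiaLift

open InertiaLift in
theorem exists_mem_inertiaSubgroupIn_restrict (A : ValuationSubring Qbar) {ℓ : ℕ} (hℓ : ℓ.Prime)
    (hA : A.LiesOverPrime ℓ) (L : IntermediateField ℚ Qbar) (τ : L ≃ₐ[ℚ] L)
    (hτ : ∀ b : L, IsIntegral ℤ b → ((τ b : L) : Qbar) - (b : Qbar) ∈ A.nonunits) :
    ∃ σ ∈ A.inertiaSubgroupIn ℚ, ∀ b : L, σ (b : Qbar) = ((τ b : L) : Qbar) := by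
  have hA' : (ℓ : Qbar) ∈ A.nonunits := hA
  have hZA : ∀ x : Zbar, (x : Qbar) ∈ A := integralClosure_int_le A
  let f : Zbar →+* A := (algebraMap Zbar Qbar).codRestrict A.toSubring hZA
  let Q : Ideal Zbar := (IsLocalRing.maximalIdeal A).comap f
  have hQmem : ∀ x : Zbar, x ∈ Q ↔ (x : Qbar) ∈ A.nonunits := by
    intro x
    rw [Ideal.mem_comap, ← ValuationSubring.coe_mem_nonunits_iff]
    rfl
  have hQprime : Q.IsPrime := Ideal.comap_isPrime f _
  -- extend `τ`
  let σ1 : GQ := τ.liftNormal Qbar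
  have hσ1 : ∀ b : L, σ1 (b : Qbar) = ((τ b : L) : Qbar) := fun b => τ.liftNormal_commutes Qbar b
  have hτinv : ∀ b : L, IsIntegral ℤ b → ((τ.symm b : L) : Qbar) - (b : Qbar) ∈ A.nonunits := by
    intro b hb
    have h1 := hτ (τ.symm b) (map_isIntegral_int τ.symm hb)
    rw [AlgEquiv.apply_symm_apply] at h1
    have : ((τ.symm b : L) : Qbar) - (b : Qbar) = -((b : Qbar) - ((τ.symm b : L) : Qbar)) := by ring
    rw [this, ValuationSubring.mem_nonunits_iff, Valuation.map_neg]
    exact (ValuationSubring.mem_nonunits_iff A).mp h1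
  -- the profinite group `H = Gal(Qbar/L)` and its fixed ring
  let R : Subalgebra ℤ Zbar := FixedPoints.subalgebra ℤ Zbar (Qbar ≃ₐ[L] Qbar)
  have hRL : ∀ z : R, ∃ l : L, (l : Qbar) = ((z : Zbar) : Qbar) ∧ IsIntegral ℤ l := by
    intro z
    have h1 := fixed_mem L (z : Zbar) z.2
    refine ⟨⟨_, h1⟩, rfl, ?_⟩
    have h2 : IsIntegral ℤ ((z : Zbar) : Qbar) := (z : Zbar).2
    exact (isIntegral_algebraMap_iff (algebraMap L Qbar).injective).mp h2
  let _ : TopologicalSpace Zbar := ⊥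
  have : DiscreteTopology Zbar := ⟨rfl⟩
  have : ContinuousSMul (Qbar ≃ₐ[L] Qbar) Zbar := continuousSMul_zbar L
  have : Algebra.IsInvariant R Zbar (Qbar ≃ₐ[L] Qbar) := ⟨fun b h => ⟨⟨b, h⟩, rfl⟩⟩
  -- `σ1 • Q` and `Q` have the same contraction to `R`
  have hunder : (σ1 • Q).under R = Q.under R := by
    ext z
    obtain ⟨l, hl, hlint⟩ := hRL z
    rw [Ideal.under_def, Ideal.under_def, Ideal.mem_comap, Ideal.mem_comap,
      Ideal.mem_pointwise_smul_iff_inv_smul_mem, hQmem, hQmem]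
    have h1 : ((σ1⁻¹ • (algebraMap R Zbar z) : Zbar) : Qbar) = ((τ.symm l : L) : Qbar) := by
      change σ1⁻¹ ((z : Zbar) : Qbar) = _
      rw [← hl, AlgEquiv.aut_inv, AlgEquiv.symm_apply_eq, hσ1, AlgEquiv.apply_symm_apply]
    have h2 : ((algebraMap R Zbar z : Zbar) : Qbar) = (l : Qbar) := hl.symm
    rw [h1, h2]
    have h3 := hτinv l hlint
    constructor
    · intro h
      have : (l : Qbar) = ((τ.symm l : L) : Qbar) - (((τ.symm l : L) : Qbar) - (l : Qbar)) := by
        ring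
      rw [this, sub_eq_add_neg]
      refine add_mem_nonunits A h ?_
      rw [ValuationSubring.mem_nonunits_iff, Valuation.map_neg]
      exact (ValuationSubring.mem_nonunits_iff A).mp h3
    · intro h
      have : ((τ.symm l : L) : Qbar) = (((τ.symm l : L) : Qbar) - (l : Qbar)) + (l : Qbar) := by
        ring
      rw [this]
      exact add_mem_nonunits A h3 h
  have hσ1prime : (σ1 • Q).IsPrime := by
    rw [Ideal.pointwise_smul_eq_comap]; exact Ideal.comap_isPrime _ _
  obtain ⟨h, hh⟩ := Algebra.IsInvariant.exists_smul_of_under_eq_of_profinite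
    (A := R) (G := (Qbar ≃ₐ[L] Qbar)) (σ1 • Q) Q hunder
  -- `σ2` stabilises `Q` and restricts to `τ`
  let σ2 : GQ := (h.restrictScalars ℚ) * σ1
  have hσ2 : ∀ b : L, σ2 (b : Qbar) = ((τ b : L) : Qbar) := by
    intro b
    change h (σ1 (b : Qbar)) = _
    rw [hσ1]
    exact h.commutes (τ b)
  have hσ2inv : ∀ z : Zbar, ((σ2⁻¹ • z : Zbar) : Qbar) =
      ((σ1⁻¹ • (h⁻¹ • z) : Zbar) : Qbar) := by
    intro z
    change σ2⁻¹ (z : Qbar) = σ1⁻¹ (h⁻¹ (z : Qbar))
    rw [AlgEquiv.aut_inv, AlgEquiv.symm_apply_eq]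
    change _ = h (σ1 (σ1⁻¹ (h⁻¹ (z : Qbar))))
    rw [AlgEquiv.aut_inv, AlgEquiv.apply_symm_apply, AlgEquiv.aut_inv, AlgEquiv.apply_symm_apply]
  have hσ2Q : σ2 • Q = Q := by
    ext z
    rw [Ideal.mem_pointwise_smul_iff_inv_smul_mem]
    conv_rhs => rw [hh, Ideal.mem_pointwise_smul_iff_inv_smul_mem,
      Ideal.mem_pointwise_smul_iff_inv_smul_mem]
    rw [hQmem, hQmem, hσ2inv]
  -- the automorphism of `Zbar ⧸ Q` induced by `σ2` is linear over `R ⧸ (Q ∩ R)`
  have hσ2R : ∀ z : R, σ2 • (algebraMap R Zbar z) - algebraMap R Zbar z ∈ Q := by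
    intro z
    obtain ⟨l, hl, hlint⟩ := hRL z
    rw [hQmem]
    change σ2 ((z : Zbar) : Qbar) - ((z : Zbar) : Qbar) ∈ A.nonunits
    rw [← hl, hσ2]
    exact hτ l hlint
  let e : (Zbar ⧸ Q) ≃+* (Zbar ⧸ Q) :=
    Ideal.quotientEquiv Q Q (MulSemiringAction.toRingEquiv GQ Zbar σ2) hσ2Q.symm
  have he : ∀ b : Zbar, e (Ideal.Quotient.mk Q b) = Ideal.Quotient.mk Q (σ2 • b) := fun b => rfl
  let φ : (Zbar ⧸ Q) ≃ₐ[R ⧸ Q.under R] (Zbar ⧸ Q) :=
    AlgEquiv.ofRingEquiv (f := e) (by
      intro x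
      obtain ⟨r, rfl⟩ := Ideal.Quotient.mk_surjective x
      rw [Ideal.Quotient.algebraMap_mk_of_liesOver, he, Ideal.Quotient.eq]
      exact hσ2R r)
  obtain ⟨⟨ρ, hρQ⟩, hρ⟩ := Ideal.Quotient.stabilizerHom_surjective_of_profinite
    (G := (Qbar ≃ₐ[L] Qbar)) (Q.under R) Q φ
  have hρ' : ∀ b : Zbar, ρ • b - σ2 • b ∈ Q := by
    intro b
    have h1 := congrArg (fun g => g (Ideal.Quotient.mk Q b)) hρ
    have h2 : Ideal.Quotient.mk Q (ρ • b) = Ideal.Quotient.mk Q (σ2 • b) := h1
    exact Ideal.Quotient.eq.mp h2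
  have hρinvQ : ∀ w : Zbar, w ∈ Q → ρ⁻¹ • w ∈ Q := by
    intro w hw
    rw [MulAction.mem_stabilizer_iff] at hρQ
    rw [← Ideal.mem_pointwise_smul_iff_inv_smul_mem, hρQ]
    exact hw
  let σ3 : GQ := (ρ.restrictScalars ℚ)⁻¹ * σ2
  refine ⟨σ3, ?_, ?_⟩
  · refine mem_inertiaSubgroupIn_of_zbar A hℓ hA σ3 fun z => ?_
    have h1 := hρinvQ _ (hρ' z)
    have h2 : -(ρ⁻¹ • (ρ • z - σ2 • z)) ∈ Q := Q.neg_mem h1
    rw [hQmem] at h2
    have h3 : ((-(ρ⁻¹ • (ρ • z - σ2 • z)) : Zbar) : Qbar) = σ3 (z : Qbar) - (z : Qbar) := by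
      change -(ρ⁻¹ (ρ (z : Qbar) - σ2 (z : Qbar))) = ρ⁻¹ (σ2 (z : Qbar)) - (z : Qbar)
      rw [map_sub, AlgEquiv.aut_inv, AlgEquiv.symm_apply_apply]
      ring
    rw [← h3]
    exact h2
  · intro b
    change ρ⁻¹ (σ2 (b : Qbar)) = _
    rw [hσ2, AlgEquiv.aut_inv, AlgEquiv.symm_apply_eq]
    exact (ρ.commutes (τ b)).symm

end Fermat.Agent.S13
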