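/-
The inertia field lemma: an algebraic number fixed by the inertia group of a valuation subring
`A` of `AlgebraicClosure ℚ` over a prime number `ℓ` is a power of `ℓ` times a unit of `A`.

Finite level (a Galois number field `L`, a prime `P` of its ring of integers over `ℓ`, inertia
group `I`): `|I|` is the ramification index of `P` over `ℓ` and also over the fixed ring of `I`
(Mathlib: `Ideal.card_inertia_eq_ramificationIdxIn`, applied twice), so an `I`-invariant element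
of `P` lies in `P ^ |I|`, and `ℓ` generates `P ^ |I|` locally at `P`.  The passage from the
absolute inertia group to the finite level is the lifting lemma of `InertiaLift.lean`.

Main result: `Fermat.Agent.S13.exists_unit_of_inertia_fixed`.
-/
import Mathlib
import Fermat.Agent.S54_Frob
import Fermat.Agent.S13.InertiaLift

set_option autoImplicit false

open scoped NumberField Pointwise

namespace Fermat.Agent.S13

local notation "Qbar" => AlgebraicClosure ℚ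

open Fermat.Agent.S54

namespace InertiaField

section Finite

variable (L : Type*) [Field L] [NumberField L] [IsGalois ℚ L]

omit [IsGalois ℚ L] in
/-- An ideal not contained in the prime `P` contains an element outside `P` that is invariant
under the inertia group of `P` (the norm over the inertia group). -/
theorem exists_invariant_mem (P : Ideal (𝓞 L)) [P.IsPrime] (J : Ideal (𝓞 L)) (hJ : ¬ J ≤ P) :
    ∃ c : 𝓞 L, c ∈ J ∧ c ∉ P ∧ ∀ σ ∈ P.inertia (L ≃ₐ[ℚ] L), σ • c = c := by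
  obtain ⟨c₀, hc₀J, hc₀P⟩ := SetLike.not_le_iff_exists.mp hJ
  have : Fintype (P.inertia (L ≃ₐ[ℚ] L)) := Fintype.ofFinite _
  refine ⟨∏ σ : P.inertia (L ≃ₐ[ℚ] L), (σ : L ≃ₐ[ℚ] L) • c₀, ?_, ?_, ?_⟩
  · have h1 : ((1 : P.inertia (L ≃ₐ[ℚ] L)) : L ≃ₐ[ℚ] L) • c₀ ∣
        ∏ σ : P.inertia (L ≃ₐ[ℚ] L), (σ : L ≃ₐ[ℚ] L) • c₀ :=
      Finset.dvd_prod_of_mem (fun σ : P.inertia (L ≃ₐ[ℚ] L) => (σ : L ≃ₐ[ℚ] L) • c₀)
        (Finset.mem_univ 1)
    rw [Subgroup.coe_one, one_smul] at h1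
    exact Ideal.mem_of_dvd J h1 hc₀J
  · intro h
    rw [Ideal.IsPrime.prod_mem_iff] at h
    obtain ⟨σ, -, hσ⟩ := h
    apply hc₀P
    have h2 : (σ : L ≃ₐ[ℚ] L) • c₀ - c₀ ∈ P := σ.2 c₀
    have h3 := P.sub_mem hσ h2
    simpa using h3
  · intro τ hτ
    rw [Finset.smul_prod']
    exact Fintype.prod_equiv (Equiv.mulLeft (⟨τ, hτ⟩ : P.inertia (L ≃ₐ[ℚ] L))) _ _
      (fun σ => by simp [mul_smul])


/-- An element of the prime `P` that is invariant under the inertia group `I` of `P` lies in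
`P ^ |I|` (the extension is totally ramified over the inertia field). -/
theorem mem_pow_card_of_invariant (P : Ideal (𝓞 L)) [P.IsPrime] (z : 𝓞 L)
    (hz : ∀ σ ∈ P.inertia (L ≃ₐ[ℚ] L), σ • z = z) (hzP : z ∈ P) :
    z ∈ P ^ Nat.card (P.inertia (L ≃ₐ[ℚ] L)) := by
  by_cases hz0 : z = 0
  · rw [hz0]; exact Ideal.zero_mem _
  let E : IntermediateField ℚ L := FixedPoints.intermediateField (P.inertia (L ≃ₐ[ℚ] L))
  have hG2 : IsGaloisGroup (P.inertia (L ≃ₐ[ℚ] L)) (𝓞 E) (𝓞 L) :=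
    IsGaloisGroup.of_isFractionRing _ _ _ E L
  obtain ⟨a, ha⟩ := hG2.isInvariant.isInvariant z (fun g => hz g g.2)
  have ha0 : a ≠ 0 := by
    rintro rfl
    exact hz0 (by rw [← ha, map_zero])
  have hap : a ∈ P.under (𝓞 E) := by
    rw [Ideal.under_def, Ideal.mem_comap, ha]; exact hzP
  have hp0 : P.under (𝓞 E) ≠ ⊥ := fun h => ha0 (by rw [h] at hap; exact hap)
  have hpmax : (P.under (𝓞 E)).IsMaximal := Ring.DimensionLEOne.maximalOfPrime hp0 inferInstance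
  have : Finite (𝓞 E ⧸ P.under (𝓞 E)) := Ring.HasFiniteQuotients.finiteQuotient hp0
  have hcard := Ideal.card_inertia_eq_ramificationIdxIn (G := P.inertia (L ≃ₐ[ℚ] L))
    (P.under (𝓞 E)) P
  rw [Ideal.ramificationIdxIn_eq_ramificationIdx (P.under (𝓞 E)) P (P.inertia (L ≃ₐ[ℚ] L)),
    ← Ideal.ramificationIdx'_eq_ramificationIdx (P.under (𝓞 E)) P hp0] at hcard
  have htop : P.inertia (P.inertia (L ≃ₐ[ℚ] L)) = ⊤ := by
    rw [eq_top_iff]
    intro σ _
    exact Ideal.coe_mem_inertia.mp σ.2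
  rw [htop, Subgroup.card_top] at hcard
  rw [hcard, ← ha]
  exact Ideal.le_pow_ramificationIdx' (Ideal.mem_map_of_mem _ hap)


omit [NumberField L] [IsGalois ℚ L] in
/-- In a ring of integers, multiplication by an element outside the maximal ideal `P` is
injective modulo every power of `P`. -/
theorem mem_pow_of_mul_mem_pow (P : Ideal (𝓞 L)) (hP : P.IsMaximal) {c : 𝓞 L} (hc : c ∉ P)
    (n : ℕ) (w : 𝓞 L) (hw : c * w ∈ P ^ n) : w ∈ P ^ n := by
  obtain ⟨d, u, hu, hdu⟩ := hP.exists_inv hc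
  have key : ∀ k : ℕ, ∃ d' u' : 𝓞 L, u' ∈ P ^ k ∧ d' * c + u' = 1 := by
    intro k
    induction k with
    | zero => exact ⟨0, 1, by simp, by simp⟩
    | succ k ih =>
      obtain ⟨d', u', hu', h1⟩ := ih
      refine ⟨d' * d * c + d' * u + u' * d, u' * u, ?_, ?_⟩
      · rw [pow_succ]; exact Ideal.mul_mem_mul hu' hu
      · calc (d' * d * c + d' * u + u' * d) * c + u' * u
            = (d' * c + u') * (d * c + u) := by ring
          _ = 1 := by rw [h1, hdu, one_mul]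
  obtain ⟨d', u', hu', h1⟩ := key n
  have h2 : w = d' * (c * w) + u' * w := by
    calc w = (d' * c + u') * w := by rw [h1, one_mul]
      _ = d' * (c * w) + u' * w := by ring
  rw [h2]
  exact Ideal.add_mem _ (Ideal.mul_mem_left _ _ hw) (Ideal.mul_mem_right _ _ hu')

/-- Finite level: an algebraic integer of a Galois number field which is invariant under the
inertia group of the prime `P` over `ℓ` is, up to elements outside `P`, a power of `ℓ`. -/
theorem exists_mul_eq_of_invariant (P : Ideal (𝓞 L)) [P.IsPrime] {ℓ : ℕ} (hℓ : ℓ.Prime)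
    (hP : (ℓ : 𝓞 L) ∈ P) :
    ∀ (N : ℕ) (y : 𝓞 L), y ∉ P ^ N → (∀ σ ∈ P.inertia (L ≃ₐ[ℚ] L), σ • y = y) →
      ∃ (m : ℕ) (s t : 𝓞 L), s ∉ P ∧ t ∉ P ∧ s * y = (ℓ : 𝓞 L) ^ m * t := by
  have hℓ' : Prime (ℓ : ℤ) := Nat.prime_iff_prime_int.mp hℓ
  have hp : (Ideal.span {(ℓ : ℤ)}).IsPrime := (Ideal.span_singleton_prime hℓ'.ne_zero).mpr hℓ'
  have hp0 : Ideal.span {(ℓ : ℤ)} ≠ ⊥ := by
    rw [Ne, Ideal.span_singleton_eq_bot]; exact hℓ'.ne_zero
  have hPtop : P ≠ ⊤ := Ideal.IsPrime.ne_top inferInstance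
  have hlies : P.LiesOver (Ideal.span {(ℓ : ℤ)}) :=
    (Ideal.liesOver_span_iff hPtop hℓ').mpr (by simpa using hP)
  have hℓ0 : (ℓ : 𝓞 L) ≠ 0 := Nat.cast_ne_zero.mpr hℓ.ne_zero
  have hP0 : P ≠ ⊥ := fun h => hℓ0 (by rw [h] at hP; simpa using hP)
  have hPmax : P.IsMaximal := Ring.DimensionLEOne.maximalOfPrime hP0 inferInstance
  have hpmax : (Ideal.span {(ℓ : ℤ)}).IsMaximal := Ring.DimensionLEOne.maximalOfPrime hp0 hp
  have : Finite (ℤ ⧸ Ideal.span {(ℓ : ℤ)}) := Ring.HasFiniteQuotients.finiteQuotient hp0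
  have hcard := Ideal.card_inertia_eq_ramificationIdxIn (G := L ≃ₐ[ℚ] L)
    (Ideal.span {(ℓ : ℤ)}) P
  rw [Ideal.ramificationIdxIn_eq_ramificationIdx (Ideal.span {(ℓ : ℤ)}) P (L ≃ₐ[ℚ] L),
    ← Ideal.ramificationIdx'_eq_ramificationIdx (Ideal.span {(ℓ : ℤ)}) P hp0] at hcard
  have hmap : Ideal.map (algebraMap ℤ (𝓞 L)) (Ideal.span {(ℓ : ℤ)}) =
      Ideal.span {(ℓ : 𝓞 L)} := by
    rw [Ideal.map_span, Set.image_singleton]; simp
  have hmap0 : Ideal.map (algebraMap ℤ (𝓞 L)) (Ideal.span {(ℓ : ℤ)}) ≠ ⊥ := by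
    rw [hmap, Ne, Ideal.span_singleton_eq_bot]; exact hℓ0
  obtain ⟨J, hPJ, hJ⟩ := Ideal.eq_prime_pow_mul_coprime hmap0 P
  rw [← Ideal.IsDedekindDomain.ramificationIdx'_eq_normalizedFactors_count hmap0 inferInstance hP0,
    ← hcard, hmap] at hJ
  have hJP : ¬ J ≤ P := fun h => by
    rw [sup_of_le_left h] at hPJ; exact hPtop hPJ
  have he0 : 0 < Nat.card (P.inertia (L ≃ₐ[ℚ] L)) := Nat.card_pos
  have hℓe : (ℓ : 𝓞 L) ∈ P ^ Nat.card (P.inertia (L ≃ₐ[ℚ] L)) := by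
    have h1 : (ℓ : 𝓞 L) ∈ Ideal.span {(ℓ : 𝓞 L)} := Ideal.mem_span_singleton_self _
    have h2 : P ^ Nat.card (P.inertia (L ≃ₐ[ℚ] L)) * J ≤ P ^ Nat.card (P.inertia (L ≃ₐ[ℚ] L)) :=
      Ideal.mul_le_left
    exact h2 (hJ ▸ h1)
  obtain ⟨c, hcJ, hcP, hcinv⟩ := exists_invariant_mem L P J hJP
  intro N
  induction N using Nat.strong_induction_on with
  | _ N ih =>
    intro y hyN hyinv
    by_cases hyP : y ∈ P
    · have hye : y ∈ P ^ Nat.card (P.inertia (L ≃ₐ[ℚ] L)) :=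
        mem_pow_card_of_invariant L P y hyinv hyP
      have h1 : c * y ∈ Ideal.span {(ℓ : 𝓞 L)} := by
        rw [hJ, mul_comm c y]; exact Ideal.mul_mem_mul hye hcJ
      obtain ⟨y₁, hy₁⟩ := Ideal.mem_span_singleton'.mp h1
      have hy₁inv : ∀ σ ∈ P.inertia (L ≃ₐ[ℚ] L), σ • y₁ = y₁ := by
        intro σ hσ
        have h2 : σ • (y₁ * (ℓ : 𝓞 L)) = y₁ * (ℓ : 𝓞 L) := by
          rw [hy₁, smul_mul', hcinv σ hσ, hyinv σ hσ]
        have h3 : σ • (ℓ : 𝓞 L) = (ℓ : 𝓞 L) :=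
          map_natCast (MulSemiringAction.toRingHom (L ≃ₐ[ℚ] L) (𝓞 L) σ) ℓ
        rw [smul_mul', h3] at h2
        exact mul_right_cancel₀ hℓ0 h2
      have hNe : Nat.card (P.inertia (L ≃ₐ[ℚ] L)) ≤ N := by
        by_contra hlt
        push Not at hlt
        exact hyN (Ideal.pow_le_pow_right hlt.le hye)
      have hy₁N : y₁ ∉ P ^ (N - Nat.card (P.inertia (L ≃ₐ[ℚ] L))) := by
        intro h
        apply hyN
        apply mem_pow_of_mul_mem_pow L P hPmax hcP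
        rw [← hy₁]
        have h3 : P ^ N = P ^ (N - Nat.card (P.inertia (L ≃ₐ[ℚ] L))) *
            P ^ Nat.card (P.inertia (L ≃ₐ[ℚ] L)) := by
          rw [← pow_add, Nat.sub_add_cancel hNe]
        rw [h3]
        exact Ideal.mul_mem_mul h hℓe
      obtain ⟨m, s, t, hs, ht, hst⟩ := ih (N - Nat.card (P.inertia (L ≃ₐ[ℚ] L))) (by omega)
        y₁ hy₁N hy₁inv
      refine ⟨m + 1, s * c, t, ?_, ht, ?_⟩
      · intro h
        rcases Ideal.IsPrime.mem_or_mem inferInstance h with h | h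
        · exact hs h
        · exact hcP h
      · calc s * c * y = s * (c * y) := by ring
          _ = s * (y₁ * (ℓ : 𝓞 L)) := by rw [hy₁]
          _ = (s * y₁) * (ℓ : 𝓞 L) := by ring
          _ = (ℓ : 𝓞 L) ^ m * t * (ℓ : 𝓞 L) := by rw [hst]
          _ = (ℓ : 𝓞 L) ^ (m + 1) * t := by ring
    · exact ⟨0, 1, y, fun h => hPtop ((Ideal.eq_top_iff_one P).mpr h), hyP, by simp⟩

end Finite


theorem exists_mul_eq_of_invariant' (L : Type*) [Field L] [NumberField L] [IsGalois ℚ L]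
    (P : Ideal (𝓞 L)) [P.IsPrime] {ℓ : ℕ} (hℓ : ℓ.Prime)
    (hP : (ℓ : 𝓞 L) ∈ P) (y : 𝓞 L) (hy : y ≠ 0)
    (hinv : ∀ σ ∈ P.inertia (L ≃ₐ[ℚ] L), σ • y = y) :
    ∃ (m : ℕ) (s t : 𝓞 L), s ∉ P ∧ t ∉ P ∧ s * y = (ℓ : 𝓞 L) ^ m * t := by
  have hPtop : P ≠ ⊤ := Ideal.IsPrime.ne_top inferInstance
  have hN : ∃ N : ℕ, y ∉ P ^ N := by
    by_contra hall
    push Not at hall
    apply hy
    have h1 : y ∈ ⨅ i : ℕ, P ^ i := (Ideal.mem_iInf).mpr hall
    rw [Ideal.iInf_pow_eq_bot_of_isDomain P hPtop] at h1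
    exact h1
  obtain ⟨N, hN⟩ := hN
  exact exists_mul_eq_of_invariant L P hℓ hP N y hN hinv

theorem exists_unit_of_mem (A : ValuationSubring Qbar) {ℓ : ℕ} (hℓ : ℓ.Prime) (hA : A.LiesOverPrime ℓ)
    (L : IntermediateField ℚ Qbar) [FiniteDimensional ℚ L] [IsGalois ℚ L] {x : Qbar}
    (hxL : x ∈ L) (hx : x ≠ 0) (hfix : ∀ σ ∈ A.inertiaSubgroupIn ℚ, σ x = x) :
    ∃ (m : ℤ) (u : Qbar), u ∈ A ∧ u⁻¹ ∈ A ∧ x = (ℓ : Qbar) ^ m * u := by
  have hA' : (ℓ : Qbar) ∈ A.nonunits := hA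
  have : NumberField L := ⟨⟩
  have hOA : ∀ b : 𝓞 L, ((b : L) : Qbar) ∈ A := fun b =>
    integralClosure_int_le A ⟨((b : L) : Qbar), map_isIntegral_int (algebraMap L Qbar) b.2⟩
  let f : 𝓞 L →+* A :=
    ((algebraMap L Qbar).comp (algebraMap (𝓞 L) L)).codRestrict A.toSubring hOA
  let P : Ideal (𝓞 L) := (IsLocalRing.maximalIdeal A).comap f
  have hPmem : ∀ b : 𝓞 L, b ∈ P ↔ ((b : L) : Qbar) ∈ A.nonunits := by
    intro b
    rw [Ideal.mem_comap, ← ValuationSubring.coe_mem_nonunits_iff]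
    rfl
  have hPprime : P.IsPrime := Ideal.comap_isPrime f _
  have hℓP : (ℓ : 𝓞 L) ∈ P := by
    rw [hPmem]
    simpa using hA'
  -- clear denominators
  obtain ⟨n, hn0, hy⟩ := IsAlgebraic.exists_integral_multiple
    ((IsFractionRing.isAlgebraic_iff ℤ ℚ L).mpr
      (Algebra.IsAlgebraic.isAlgebraic (⟨x, hxL⟩ : L)))
  have hy' : IsIntegral ℤ ((n : L) * (⟨x, hxL⟩ : L)) := by
    rw [← zsmul_eq_mul]; exact hy
  let y : 𝓞 L := ⟨(n : L) * (⟨x, hxL⟩ : L), hy'⟩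
  have hycoe : ((y : L) : Qbar) = (n : Qbar) * x := by
    change (((n : L) * (⟨x, hxL⟩ : L) : L) : Qbar) = _
    push_cast
    rfl
  have hnQ : (n : Qbar) ≠ 0 := Int.cast_ne_zero.mpr hn0
  have hy0 : y ≠ 0 := by
    intro h0
    have h1 : ((y : L) : Qbar) = 0 := by rw [h0]; simp
    rw [hycoe] at h1
    exact (mul_ne_zero hnQ hx) h1
  -- invariance under the finite inertia group, via the lifting lemma
  have hyinv : ∀ τ ∈ P.inertia (L ≃ₐ[ℚ] L), τ • y = y := by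
    intro τ hτ
    obtain ⟨σ, hσ, hστ⟩ := exists_mem_inertiaSubgroupIn_restrict A hℓ hA L τ (fun b hb => by
      let b' : 𝓞 L := ⟨b, hb⟩
      have h1 : τ • b' - b' ∈ P := hτ b'
      exact (hPmem _).mp h1)
    have h2 : ((τ (⟨x, hxL⟩ : L) : L) : Qbar) = x := by
      rw [← hστ]; exact hfix σ hσ
    have h3 : τ (⟨x, hxL⟩ : L) = (⟨x, hxL⟩ : L) := Subtype.ext h2
    apply NumberField.RingOfIntegers.ext
    change τ ((n : L) * (⟨x, hxL⟩ : L)) = (n : L) * (⟨x, hxL⟩ : L)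
    rw [map_mul, map_intCast, h3]
  obtain ⟨m, s, t, hs, ht, hst⟩ := exists_mul_eq_of_invariant' L P hℓ hℓP y hy0 hyinv
  -- transfer the identity to `Qbar`
  have hstQ : ((s : L) : Qbar) * ((n : Qbar) * x) = (ℓ : Qbar) ^ m * ((t : L) : Qbar) := by
    have h1 := congrArg (fun b : 𝓞 L => ((b : L) : Qbar)) hst
    simp only [map_mul, map_pow, map_natCast, MulMemClass.coe_mul, SubmonoidClass.coe_pow] at h1
    rw [hycoe] at h1
    simpa using h1
  have hs1 : A.valuation ((s : L) : Qbar) = 1 :=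
    valuation_eq_one_of_not_mem_nonunits A (hOA s) (fun h => hs ((hPmem s).mpr h))
  have ht1 : A.valuation ((t : L) : Qbar) = 1 :=
    valuation_eq_one_of_not_mem_nonunits A (hOA t) (fun h => ht ((hPmem t).mpr h))
  have hfin : FiniteMultiplicity (ℓ : ℤ) n :=
    Int.finiteMultiplicity_iff.mpr ⟨by simpa using hℓ.ne_one, hn0⟩
  obtain ⟨n', hnk, hn'⟩ := hfin.exists_eq_pow_mul_and_not_dvd
  set k := multiplicity (ℓ : ℤ) n with hk
  have hn'1 : A.valuation (n' : Qbar) = 1 :=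
    valuation_eq_one_of_not_mem_nonunits A (intCast_mem A n')
      (fun h => hn' ((int_mem_nonunits_iff A hℓ hA' n').mp h))
  have hs0 : ((s : L) : Qbar) ≠ 0 := fun h => by rw [h, map_zero] at hs1; exact zero_ne_one hs1
  have hn'0 : (n' : Qbar) ≠ 0 := fun h => by rw [h, map_zero] at hn'1; exact zero_ne_one hn'1
  have hℓ0 : (ℓ : Qbar) ≠ 0 := Nat.cast_ne_zero.mpr hℓ.ne_zero
  refine ⟨(m : ℤ) - (k : ℤ), ((t : L) : Qbar) / (((s : L) : Qbar) * (n' : Qbar)), ?_, ?_, ?_⟩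
  · rw [← ValuationSubring.valuation_le_one_iff, map_div₀, map_mul, hs1, ht1, hn'1]
    simp
  · rw [← ValuationSubring.valuation_le_one_iff, map_inv₀, map_div₀, map_mul, hs1, ht1, hn'1]
    simp
  · have hnQ' : (n : Qbar) = (ℓ : Qbar) ^ k * (n' : Qbar) := by
      rw [hnk]; push_cast; rfl
    rw [hnQ'] at hstQ
    rw [zpow_sub₀ hℓ0, zpow_natCast, zpow_natCast]
    field_simp
    linear_combination hstQ

end InertiaField

open scoped IntermediateField in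
/-- **Inertia field lemma.** A nonzero algebraic number fixed by the inertia group of a valuation
subring `A` over the prime `ℓ` is a power of `ℓ` times a unit of `A`: the valuation of an
inertia-fixed element lies in the value group of `ℚ`. -/
theorem exists_unit_of_inertia_fixed (A : ValuationSubring Qbar) {ℓ : ℕ} (hℓ : ℓ.Prime)
    (hA : A.LiesOverPrime ℓ) {x : Qbar} (hx : x ≠ 0)
    (hfix : ∀ σ ∈ A.inertiaSubgroupIn ℚ, σ x = x) :
    ∃ (m : ℤ) (u : Qbar), u ∈ A ∧ u⁻¹ ∈ A ∧ x = (ℓ : Qbar) ^ m * u := by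
  have h1 : FiniteDimensional ℚ ℚ⟮x⟯ :=
    IntermediateField.adjoin.finiteDimensional (Algebra.IsIntegral.isIntegral x)
  have h2 : FiniteDimensional ℚ (IntermediateField.normalClosure ℚ ℚ⟮x⟯ Qbar) :=
    normalClosure.is_finiteDimensional ℚ ℚ⟮x⟯ Qbar
  have h3 : Normal ℚ (IntermediateField.normalClosure ℚ ℚ⟮x⟯ Qbar) :=
    normalClosure.normal ℚ ℚ⟮x⟯ Qbar
  have h4 : IsGalois ℚ (IntermediateField.normalClosure ℚ ℚ⟮x⟯ Qbar) := ⟨⟩
  exact InertiaField.exists_unit_of_mem A hℓ hA (IntermediateField.normalClosure ℚ ℚ⟮x⟯ Qbar)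
    (IntermediateField.le_normalClosure ℚ⟮x⟯ (IntermediateField.mem_adjoin_simple_self ℚ x))
    hx hfix

end Fermat.Agent.S13
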