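import Mathlib
import Fermat.Agent.S05.NonsingRed

/-!
# S13, local analysis at `2`: points with unit `x`-coordinate (no reduction homomorphism)

`A` a valuation subring of a field `F`, `W` a Weierstrass curve with coefficients in `A`.
At a point `T = (x, y)` with `2 y + a₁ x + a₃` a unit the reduction of `W` is nonsingular, so
helper12's chord lemma `NonsingRed.sub_some_x_notMem` applies.

* `L2X.map_eq_of_torsion`: an automorphism acting trivially on the residue field fixes every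
  such point which is killed by `p`, if the kernel of reduction has no `p`-torsion.
* `L2X.sub_or_add_x_notMem`: residue characteristic `2`, `a₁ = 1`, `a₃ = 0`: two points with unit
  `x`-coordinate whose coordinates all reduce into the prime field are congruent up to sign, so
  their difference or their sum lies in the kernel of reduction.
-/

set_option autoImplicit false

open WeierstrassCurve WeierstrassCurve.Affine

namespace Fermat.Agent.S13

namespace L2X

open Fermat.Agent.S05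

variable {F : Type*} [Field F] (A : ValuationSubring F)

theorem add_mem_nonunits {x y : F} (hx : x ∈ A.nonunits) (hy : y ∈ A.nonunits) :
    x + y ∈ A.nonunits := by
  rw [ValuationSubring.mem_nonunits_iff] at hx hy ⊢
  exact lt_of_le_of_lt (Valuation.map_add _ x y) (max_lt hx hy)

theorem neg_mem_nonunits {x : F} (hx : x ∈ A.nonunits) : -x ∈ A.nonunits := by
  rw [ValuationSubring.mem_nonunits_iff] at hx ⊢
  rwa [Valuation.map_neg]

theorem sub_mem_nonunits {x y : F} (hx : x ∈ A.nonunits) (hy : y ∈ A.nonunits) :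
    x - y ∈ A.nonunits := by
  rw [sub_eq_add_neg]
  exact add_mem_nonunits A hx (neg_mem_nonunits A hy)

/-- The maximal ideal is prime. -/
theorem mem_nonunits_or_of_mul {x y : F} (hx : x ∈ A) (hy : y ∈ A) (h : x * y ∈ A.nonunits) :
    x ∈ A.nonunits ∨ y ∈ A.nonunits := by
  by_contra hcon
  push Not at hcon
  obtain ⟨h1, h2⟩ := hcon
  rw [ValuationSubring.mem_nonunits_iff, not_lt] at h1 h2
  rw [ValuationSubring.mem_nonunits_iff, map_mul] at h
  have hx1 : A.valuation x = 1 := le_antisymm ((A.valuation_le_one_iff _).mpr hx) h1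
  have hy1 : A.valuation y = 1 := le_antisymm ((A.valuation_le_one_iff _).mpr hy) h2
  rw [hx1, hy1, one_mul] at h
  exact lt_irrefl _ h

/-- An element of `A` which is not in the maximal ideal and is congruent to its square is
congruent to `1`. -/
theorem sub_one_mem_nonunits {x : F} (hx : x ∈ A) (hxu : x ∉ A.nonunits)
    (h : x - x ^ 2 ∈ A.nonunits) : x - 1 ∈ A.nonunits := by
  have h1 : x * (x - 1) ∈ A.nonunits := by
    have := neg_mem_nonunits A h
    have e : -(x - x ^ 2) = x * (x - 1) := by ring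
    rwa [e] at this
  rcases mem_nonunits_or_of_mul A hx (sub_mem hx A.one_mem) h1 with h2 | h2
  · exact absurd h2 hxu
  · exact h2

variable (W : WeierstrassCurve F)

/-- In residue characteristic `2` the quantity `2 y + a₁ x + a₃` is a unit as soon as `a₁ x` is
a unit and `a₃` is in the maximal ideal. -/
theorem two_mul_add_notMem_nonunits (h2 : (2 : F) ∈ A.nonunits) (ha₃ : W.a₃ ∈ A.nonunits)
    {x y : F} (hy : y ∈ A) (hu : W.a₁ * x ∉ A.nonunits) :
    2 * y + W.a₁ * x + W.a₃ ∉ A.nonunits := by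
  intro h
  apply hu
  have h1 : (2 : F) * y ∈ A.nonunits := NonsingRed.mul_mem_nonunits_right A h2 hy
  have h3 := sub_mem_nonunits A (sub_mem_nonunits A h h1) ha₃
  have e : 2 * y + W.a₁ * x + W.a₃ - 2 * y - W.a₃ = W.a₁ * x := by ring
  rwa [e] at h3

variable [DecidableEq F]

/-- **Inertia fixes the torsion points with nonsingular reduction.**  Let `σ` act trivially on
the residue field and let `T = (x, y)`, `σ T` be killed by `p`, where the kernel of reduction has
no `p`-torsion (`hG1`).  If `2 y + a₁ x + a₃` is a unit, then `σ T = T`. -/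
theorem map_eq_of_torsion (ha₁ : W.a₁ ∈ A) (ha₂ : W.a₂ ∈ A) (ha₃ : W.a₃ ∈ A) (ha₄ : W.a₄ ∈ A)
    (ha₆ : W.a₆ ∈ A) (σ : F ≃+* F) (hσA : ∀ z ∈ A, σ z - z ∈ A.nonunits) {p : ℕ}
    (hG1 : ∀ {x y : F} (h : W.toAffine.Nonsingular x y), p • Point.some x y h = 0 → x ∈ A)
    {x y : F} (h : W.toAffine.Nonsingular x y) (h' : W.toAffine.Nonsingular (σ x) (σ y))
    (hP : p • Point.some x y h = 0) (hP' : p • Point.some (σ x) (σ y) h' = 0)
    (hns : 2 * y + W.a₁ * x + W.a₃ ∉ A.nonunits) : σ x = x ∧ σ y = y := by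
  have hx : x ∈ A := hG1 h hP
  have hy : y ∈ A := NonsingRed.y_mem_of_x_mem A W ha₁ ha₂ ha₃ ha₄ ha₆ h.1 hx
  by_contra hcon
  have hne : Point.some (σ x) (σ y) h' ≠ Point.some x y h := fun heq =>
    hcon (Point.some.inj heq)
  obtain ⟨x₃, y₃, h₃, hsub, hx₃⟩ :=
    NonsingRed.sub_some_x_notMem A W ha₁ ha₂ h h' hx hy (hσA x hx) (hσA y hy) (Or.inr hns) hne
  apply hx₃
  apply hG1 h₃
  rw [← hsub, nsmul_sub, hP, hP', sub_zero]

/-- **Points reducing into the prime field, residue characteristic `2`.**  For the model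
`y² + x y = x³ + a₂ x² + a₄ x + a₆` (`a₁ = 1`, `a₃ = 0`) over a valuation ring of residue
characteristic `2`: if `T = (x, y)` and `T₂ = (x₂, y₂)` are distinct integral points with unit
`x`-coordinates, all four coordinates being congruent to their squares, then `T₂ - T` or
`T₂ + T` is an affine point with non-integral `x` or `T₂ = -T`. -/
theorem sub_or_add_x_notMem (ha₁ : W.a₁ = 1) (ha₂ : W.a₂ ∈ A) (ha₃ : W.a₃ = 0) (ha₄ : W.a₄ ∈ A)
    (ha₆ : W.a₆ ∈ A) (h2 : (2 : F) ∈ A.nonunits)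
    {x y x₂ y₂ : F} (h : W.toAffine.Nonsingular x y) (h₂ : W.toAffine.Nonsingular x₂ y₂)
    (hx : x ∈ A) (hxu : x ∉ A.nonunits) (hx₂ : x₂ ∈ A) (hx₂u : x₂ ∉ A.nonunits)
    (hFx : x - x ^ 2 ∈ A.nonunits) (hFy : y - y ^ 2 ∈ A.nonunits)
    (hFx₂ : x₂ - x₂ ^ 2 ∈ A.nonunits) (hFy₂ : y₂ - y₂ ^ 2 ∈ A.nonunits)
    (hne : Point.some x₂ y₂ h₂ ≠ Point.some x y h)
    (hne' : Point.some x₂ y₂ h₂ ≠ -Point.some x y h) :
    (∃ (x₃ y₃ : F) (h₃ : W.toAffine.Nonsingular x₃ y₃),
      Point.some x₂ y₂ h₂ - Point.some x y h = Point.some x₃ y₃ h₃ ∧ x₃ ∉ A) ∨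
    (∃ (x₃ y₃ : F) (h₃ : W.toAffine.Nonsingular x₃ y₃),
      Point.some x₂ y₂ h₂ + Point.some x y h = Point.some x₃ y₃ h₃ ∧ x₃ ∉ A) := by
  have ha₁A : W.a₁ ∈ A := by rw [ha₁]; exact A.one_mem
  have ha₃A : W.a₃ ∈ A := by rw [ha₃]; exact A.zero_mem
  have ha₃m : W.a₃ ∈ A.nonunits := by
    rw [ha₃, ValuationSubring.mem_nonunits_iff, map_zero]; exact zero_lt_one
  have hy : y ∈ A := NonsingRed.y_mem_of_x_mem A W ha₁A ha₂ ha₃A ha₄ ha₆ h.1 hx
  have hy₂ : y₂ ∈ A := NonsingRed.y_mem_of_x_mem A W ha₁A ha₂ ha₃A ha₄ ha₆ h₂.1 hx₂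
  have hx1 : x - 1 ∈ A.nonunits := sub_one_mem_nonunits A hx hxu hFx
  have hx₂1 : x₂ - 1 ∈ A.nonunits := sub_one_mem_nonunits A hx₂ hx₂u hFx₂
  have hdx : x₂ - x ∈ A.nonunits := by
    have := sub_mem_nonunits A hx₂1 hx1
    have e : x₂ - 1 - (x - 1) = x₂ - x := by ring
    rwa [e] at this
  have hu : W.a₁ * x ∉ A.nonunits := by rw [ha₁, one_mul]; exact hxu
  have hns : 2 * y + W.a₁ * x + W.a₃ ∉ A.nonunits :=
    two_mul_add_notMem_nonunits A W h2 ha₃m hy hu
  have hprod : (y₂ - y) * (y₂ + y - 1) ∈ A.nonunits := by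
    have := sub_mem_nonunits A hFy hFy₂
    have e : y - y ^ 2 - (y₂ - y₂ ^ 2) = (y₂ - y) * (y₂ + y - 1) := by ring
    rwa [e] at this
  rcases mem_nonunits_or_of_mul A (sub_mem hy₂ hy) (sub_mem (add_mem hy₂ hy) A.one_mem) hprod
    with hdy | hdy
  · left
    exact NonsingRed.sub_some_x_notMem A W ha₁A ha₂ h h₂ hx hy hdx hdy (Or.inr hns) hne
  · right
    have hneg : -Point.some x y h =
        Point.some x (W.toAffine.negY x y) ((nonsingular_neg ..).mpr h) := Point.neg_some h
    have hnY : W.toAffine.negY x y = -y - x := by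
      simp only [negY]
      rw [show W.toAffine.a₁ = 1 from ha₁, show W.toAffine.a₃ = 0 from ha₃]
      ring
    have hyn : W.toAffine.negY x y ∈ A := by
      rw [hnY]; exact sub_mem (neg_mem hy) hx
    have hdy' : y₂ - W.toAffine.negY x y ∈ A.nonunits := by
      have := add_mem_nonunits A (add_mem_nonunits A hdy hx1) h2
      have e : y₂ + y - 1 + (x - 1) + 2 = y₂ - W.toAffine.negY x y := by rw [hnY]; ring
      rwa [e] at this
    have hns' : 2 * W.toAffine.negY x y + W.a₁ * x + W.a₃ ∉ A.nonunits := by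
      intro hmem
      apply hns
      have := neg_mem_nonunits A hmem
      have e : -(2 * W.toAffine.negY x y + W.a₁ * x + W.a₃) = 2 * y + W.a₁ * x + W.a₃ := by
        rw [hnY, ha₁, ha₃]; ring
      rwa [e] at this
    have hne'' : Point.some x₂ y₂ h₂ ≠
        Point.some x (W.toAffine.negY x y) ((nonsingular_neg ..).mpr h) := by
      rw [← hneg]; exact hne'
    obtain ⟨x₃, y₃, h₃, hsub, hx₃⟩ := NonsingRed.sub_some_x_notMem A W ha₁A ha₂
      ((nonsingular_neg ..).mpr h) h₂ hx hyn hdx hdy' (Or.inr hns') hne''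
    refine ⟨x₃, y₃, h₃, ?_, hx₃⟩
    rw [← hsub, ← hneg, sub_neg_eq_add]

end L2X

end Fermat.Agent.S13
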