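/-
S13, local analysis at `2` for the Frey curve (assembly on top of `Λ`, no reduction homomorphism).

`l2a`, `l2b`: the two hypotheses at `2` of `Fermat.Agent.S13.hasCofixedLine_of_local`.
Inputs: helper9's `Λ` (`Trop`, `TropGal`), the chord lemma facts of `L2X`, the kernel of
reduction (`KerRedX`), the inertia field lemma (`InertiaField`), Frobenius elements (`S54`),
arithmetic of the Frey curve at `2` (`Frey2`).
-/
import Fermat.Statements.S13
import Fermat.Agent.S54_Frob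
import Fermat.Agent.S05.TropGal
import Fermat.Agent.S05.FoldCase
import Fermat.Agent.S05.QValGal
import Fermat.Agent.S05.KerRedX
import Fermat.Agent.S05.CaseG
import Fermat.Agent.S13.L2X
import Fermat.Agent.S13.Frey2
import Fermat.Agent.S13.InertiaField
import Fermat.Agent.S13.Cyclo

set_option autoImplicit false
open WeierstrassCurve WeierstrassCurve.Affine
open FreyPackage

namespace Fermat.Agent.S13

namespace L2Alt

open Fermat.Agent.S05

local notation "K" => AlgebraicClosure ℚ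

/-- Pure arithmetic: `p m = 2 N k` with `0 < m < N` is impossible when `p ∤ 2 N`. -/
theorem arith_false {p : ℕ} (hp : p.Prime) {Nw k m₀ : ℤ} (hpN : ¬ (p : ℤ) ∣ 2 * Nw)
    (h1 : 0 < m₀) (h2 : m₀ < Nw) (h3 : (p : ℤ) * m₀ = 2 * Nw * k) : False := by
  have hpp : Prime (p : ℤ) := Nat.prime_iff_prime_int.mp hp
  have hdvd : (p : ℤ) ∣ 2 * Nw * k := ⟨m₀, h3.symm⟩
  rcases hpp.dvd_or_dvd hdvd with h | h
  · exact hpN h
  · obtain ⟨k', rfl⟩ := h
    have hp0 : (p : ℤ) ≠ 0 := hpp.ne_zero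
    have h4 : m₀ = 2 * Nw * k' := by
      apply mul_left_cancel₀ hp0
      rw [h3]; ring
    have hNw : 0 < Nw := by linarith
    rcases le_or_gt k' 0 with hk | hk
    · nlinarith
    · nlinarith

/-- The coefficients of the Frey curve over `K` at a valuation subring over `2`. -/
theorem coeff (P : FreyPackage) (A : ValuationSubring K) :
    (P.freyCurve.baseChange K).a₁ = 1 ∧ (P.freyCurve.baseChange K).a₂ ∈ A ∧
    (P.freyCurve.baseChange K).a₃ = 0 ∧ (P.freyCurve.baseChange K).a₄ ∈ A ∧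
    (P.freyCurve.baseChange K).a₆ = 0 := by
  obtain ⟨n₂, n₄, m, h2, h4, -, -, -⟩ := frey_two P
  refine ⟨?_, ?_, ?_, ?_, ?_⟩
  · show algebraMap ℚ K P.freyCurve.a₁ = 1
    rw [show P.freyCurve.a₁ = 1 from rfl, map_one]
  · show algebraMap ℚ K P.freyCurve.a₂ ∈ A
    rw [h2, map_intCast]
    exact intCast_mem A n₂
  · show algebraMap ℚ K P.freyCurve.a₃ = 0
    rw [show P.freyCurve.a₃ = 0 from rfl, map_zero]
  · show algebraMap ℚ K P.freyCurve.a₄ ∈ A
    rw [h4, map_intCast]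
    exact intCast_mem A n₄
  · show algebraMap ℚ K P.freyCurve.a₆ = 0
    rw [show P.freyCurve.a₆ = 0 from rfl, map_zero]

theorem two_mem_nonunits (A : ValuationSubring K) (hA : A.LiesOverPrime 2) :
    (2 : K) ∈ A.nonunits := by
  have h : ((2 : ℕ) : K) ∈ A.nonunits := hA
  simpa using h

/-- The kernel of reduction has no `p`-torsion. -/
theorem x_mem (P : FreyPackage) (A : ValuationSubring K) (hA : A.LiesOverPrime 2)
    {x y : K} (h : (P.freyCurve⁄K).Nonsingular x y)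
    (hT : P.p • Point.some x y h = 0) : x ∈ A := by
  obtain ⟨h1, h2, h3, h4, h6⟩ := coeff P A
  have hpK : ((P.p : ℕ) : K) ∉ A.nonunits :=
    CaseG.natCast_notMem_nonunits A Nat.prime_two hA
      (fun hd => by
        have := P.hp_odd
        rw [← Nat.not_even_iff_odd] at this
        exact this (even_iff_two_dvd.mpr hd))
  exact KerRedX.x_mem_of_nsmul_eq_zero A (P.freyCurve.baseChange K) (h1 ▸ A.one_mem) h2
    (h3 ▸ A.zero_mem) h4 (h6 ▸ A.zero_mem) P.p hpK h hT

attribute [local instance] QVal.isAlgebraic_Qbar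

/-- The node data of the Frey curve at a valuation subring over `2`. -/
theorem exists_nodeCurve (P : FreyPackage) (A : ValuationSubring K) (hA : A.LiesOverPrime 2) :
    ∃ (α α' : K) (Nw : ℤ),
      Trop.NodeCurve (FoldCase.ratVal A Nat.prime_two hA) (P.freyCurve⁄K) α α' ∧ α ∈ A ∧
      wval A 2 (P.freyCurve.baseChange K).a₄ = Nw ∧ 0 < Nw ∧ ¬ (P.p : ℤ) ∣ 2 * Nw := by
  obtain ⟨n₂, n₄, m, h2, h4, hn₄, hm, hval⟩ := frey_two P
  obtain ⟨δ, hδ⟩ := IsAlgClosed.exists_pow_nat_eq (((1 + 4 * n₂ : ℤ) : K)) (n := 2) (by norm_num)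
  push_cast at hδ
  have ha₁ : (P.freyCurve.baseChange K).a₁ = 1 := (coeff P A).1
  have ha₂ : (P.freyCurve.baseChange K).a₂ = (n₂ : K) := by
    show algebraMap ℚ K P.freyCurve.a₂ = _
    rw [h2, map_intCast]
  have ha₃ : (P.freyCurve.baseChange K).a₃ = 0 := (coeff P A).2.2.1
  have ha₆ : (P.freyCurve.baseChange K).a₆ = 0 := (coeff P A).2.2.2.2
  have ha₄0 : P.freyCurve.a₄ ≠ 0 := by
    rw [h4]; exact_mod_cast hn₄
  have ha₄ : (P.freyCurve.baseChange K).a₄ = algebraMap ℚ K P.freyCurve.a₄ := rfl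
  have hw₄ : wval A 2 (P.freyCurve.baseChange K).a₄ = ((P.p * m - 4 : ℤ) : ℚ) := by
    rw [ha₄, wval_algebraMap_rat A Nat.prime_two hA ha₄0, hval]
  have hp5 := P.hp5
  have hpos : (0 : ℤ) < P.p * m - 4 := by
    have h1 : (5 : ℤ) ≤ P.p := by exact_mod_cast hp5
    have h2 : (1 : ℤ) ≤ m := by exact_mod_cast hm
    nlinarith
  have hδ0 : δ ≠ 0 := by
    rintro rfl
    have h : ((1 + 4 * n₂ : ℤ) : K) = 0 := by push_cast; rw [← hδ]; ring
    have h' : (1 + 4 * n₂ : ℤ) = 0 := by exact_mod_cast h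
    omega
  have hwδ : wval A 2 δ = 0 := by
    have h1 : wval A 2 (δ ^ 2) = 0 := by
      have h : δ ^ 2 = ((1 + 4 * n₂ : ℤ) : K) := by push_cast; exact hδ
      rw [h]
      apply wval_intCast_of_not_dvd A Nat.prime_two hA
      intro hd
      have : ((2 : ℕ) : ℤ) = 2 := rfl
      rw [this] at hd
      omega
    rw [wval_pow A Nat.prime_two hA] at h1
    simpa using h1
  refine ⟨(-1 + δ) / 2, (-1 - δ) / 2, P.p * m - 4, ?_, ?_, hw₄, hpos, ?_⟩
  · refine ⟨ha₃, ha₆, ?_, ?_, ?_, ?_, ?_⟩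
    · show (-1 + δ) / 2 * ((-1 - δ) / 2) = -(P.freyCurve.baseChange K).a₂
      rw [ha₂]
      field_simp
      linear_combination -hδ
    · show (-1 + δ) / 2 + (-1 - δ) / 2 = -(P.freyCurve.baseChange K).a₁
      rw [ha₁]; ring
    · have e : (-1 + δ) / 2 - (-1 - δ) / 2 = δ := by ring
      rw [e]
      exact ⟨hδ0, hwδ⟩
    · show 0 < wval A 2 (P.freyCurve.baseChange K).a₄
      rw [hw₄]; exact_mod_cast hpos
    · show (P.freyCurve.baseChange K).a₄ ≠ 0
      rw [ha₄]; exact (map_ne_zero _).mpr ha₄0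
  · -- integrality of `α`
    set α : K := (-1 + δ) / 2 with hα
    have hquad : α ^ 2 + α = (n₂ : K) := by
      rw [hα]; field_simp; linear_combination hδ
    rcases eq_or_ne α 0 with h0 | hα0
    · rw [h0]; exact A.zero_mem
    rcases A.mem_or_inv_mem α with h | h
    · exact h
    · have e : α = (n₂ : K) * α⁻¹ - 1 := by
        rw [← hquad]; field_simp; ring
      rw [e]
      exact sub_mem (mul_mem (intCast_mem A n₂) h) A.one_mem
  · intro hd
    have h8 : (P.p : ℤ) ∣ 8 := by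
      have h1 : (P.p : ℤ) ∣ P.p * (2 * m) := dvd_mul_right _ _
      have h2 := dvd_sub h1 hd
      have e : (P.p : ℤ) * (2 * m) - 2 * (P.p * m - 4) = 8 := by ring
      rwa [e] at h2
    have h8' : P.p ∣ 8 := by exact_mod_cast h8
    have hle : P.p ≤ 8 := Nat.le_of_dvd (by norm_num) h8'
    have key : ∀ q : ℕ, 5 ≤ q → q ≤ 8 → q ∣ 8 → q = 8 := by
      intro q h1 h2 h3
      interval_cases q <;> omega
    have h88 := key P.p hp5 hle h8'
    have hpp := P.pp
    rw [h88] at hpp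
    exact absurd hpp (by norm_num)

/-- Elements of `ℚ / 2 β ℤ` killed by `p`, in terms of representatives. -/
theorem exists_int_of_nsmul_mk {β : ℚ} {p : ℕ} (r : ℚ)
    (h : p • ((r : ℚ) : ℚ ⧸ AddSubgroup.zmultiples (2 * β)) = 0) :
    ∃ j : ℤ, (p : ℚ) * r = 2 * β * j := by
  rw [← QuotientAddGroup.mk_nsmul, QuotientAddGroup.eq_zero_iff,
    AddSubgroup.mem_zmultiples_iff] at h
  obtain ⟨n, hn⟩ := h
  rw [zsmul_eq_mul, nsmul_eq_mul] at hn
  exact ⟨n, by rw [← hn]; ring⟩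

/-- **The local structure at `2`.**  For a valuation subring `A` over `2` there is a subgroup
`E₀` of the points of the Frey curve (the points not reducing to the node) such that
(1) an affine point lies in `E₀` iff its `x`-coordinate is not in the maximal ideal;
(2) a `p`-torsion point outside `E₀` has an `x`-coordinate of non-integral valuation;
(3) inertia acts trivially modulo `E₀`. -/
theorem local_pack (P : FreyPackage) (A : ValuationSubring K) (hA : A.LiesOverPrime 2) :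
    ∃ E0 : AddSubgroup (P.freyCurve⁄K).Point,
      (∀ {x y : K} (h : (P.freyCurve⁄K).Nonsingular x y),
        Point.some x y h ∈ E0 ↔ x ∉ A.nonunits) ∧
      (∀ T : (P.freyCurve⁄K).Point, P.p • T = 0 → T ∉ E0 →
        ∃ (x y : K) (h : (P.freyCurve⁄K).Nonsingular x y), T = Point.some x y h ∧ x ≠ 0 ∧
          ∀ m : ℤ, wval A 2 x ≠ m) ∧
      (∀ σ ∈ A.inertiaSubgroupIn ℚ, ∀ T : (P.freyCurve⁄K).Point, σ • T - T ∈ E0) := by
  obtain ⟨α, α', Nw, C, hαA, hw₄, hNw, hpN⟩ := exists_nodeCurve P A hA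
  have hw : ∀ z : K, (FoldCase.ratVal A Nat.prime_two hA).w z = wval A 2 z := fun _ => rfl
  have hβ : (FoldCase.ratVal A Nat.prime_two hA).w (P.freyCurve⁄K).a₄ = (Nw : ℚ) := hw₄
  refine ⟨Trop.E0 C, ?_, ?_, ?_⟩
  · intro x y h
    rw [Trop.some_mem_E0_iff C h, hw]
    constructor
    · rintro ⟨hx0, hle⟩ hmem
      have := (wval_pos_iff A Nat.prime_two hA hx0).mpr hmem
      linarith
    · intro hx
      have hx0 : x ≠ 0 := by
        rintro rfl
        exact hx (S54.zero_mem_nonunits A)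
      refine ⟨hx0, ?_⟩
      by_contra hcon
      push Not at hcon
      exact hx ((wval_pos_iff A Nat.prime_two hA hx0).mp hcon)
  · intro T hT hT0
    have hpl : P.p • Trop.lam C T = 0 := by rw [← map_nsmul, hT, map_zero]
    have key : ∀ (x y : K) (h : (P.freyCurve⁄K).Nonsingular x y), x ≠ 0 →
        0 < (FoldCase.ratVal A Nat.prime_two hA).w x →
        (FoldCase.ratVal A Nat.prime_two hA).w x < (FoldCase.ratVal A Nat.prime_two hA).w
          (P.freyCurve⁄K).a₄ →
        P.p • (((FoldCase.ratVal A Nat.prime_two hA).w x : ℚ) : ℚ ⧸ AddSubgroup.zmultiples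
          (2 * (FoldCase.ratVal A Nat.prime_two hA).w (P.freyCurve⁄K).a₄)) = 0 →
        ∀ m : ℤ, wval A 2 x ≠ m := by
      intro x y h hx0 h1 h2 h3 m₀ hm
      obtain ⟨j, hj⟩ := exists_int_of_nsmul_mk _ h3
      rw [hβ] at h2 hj
      rw [hw, hm] at h1 h2 hj
      have h1' : 0 < m₀ := by exact_mod_cast h1
      have h2' : m₀ < Nw := by exact_mod_cast h2
      have h3' : (P.p : ℤ) * m₀ = 2 * Nw * j := by exact_mod_cast hj
      exact arith_false P.pp hpN h1' h2' h3'
    rcases Trop.lam_cases C T with h | ⟨x, y, h, rfl, hx0, h1, h2, -, hval⟩ |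
      ⟨x, y, h, rfl, hx0, h1, h2, -, hval⟩ | hval
    · exact absurd h hT0
    · rw [hval] at hpl
      exact ⟨x, y, h, rfl, hx0, key x y h hx0 h1 h2 hpl⟩
    · rw [hval, smul_neg, neg_eq_zero] at hpl
      exact ⟨x, y, h, rfl, hx0, key x y h hx0 h1 h2 hpl⟩
    · exfalso
      rw [hval] at hpl
      obtain ⟨j, hj⟩ := exists_int_of_nsmul_mk _ hpl
      rw [hβ] at hj
      have hNw0 : (Nw : ℚ) ≠ 0 := by exact_mod_cast hNw.ne'
      have h3 : (P.p : ℚ) = 2 * j := by
        apply mul_right_cancel₀ hNw0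
        rw [hj]; ring
      have h3' : (P.p : ℤ) = 2 * j := by exact_mod_cast h3
      have hodd := P.hp_odd
      obtain ⟨t, ht⟩ := hodd
      rw [ht] at h3'
      push_cast at h3'
      omega
  · intro σ hσ T
    have hdec := QVal.mem_decomposition_of_mem_inertia A hσ
    have hσw : ∀ z, (FoldCase.ratVal A Nat.prime_two hA).w (σ.toRingEquiv.toRingHom z) =
        (FoldCase.ratVal A Nat.prime_two hA).w z := fun z =>
      wval_algEquiv A Nat.prime_two hA hdec z
    have hσ₁ : σ.toRingEquiv.toRingHom (P.freyCurve⁄K).a₁ = (P.freyCurve⁄K).a₁ :=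
      σ.commutes P.freyCurve.a₁
    have hσ₂ : σ.toRingEquiv.toRingHom (P.freyCurve⁄K).a₂ = (P.freyCurve⁄K).a₂ :=
      σ.commutes P.freyCurve.a₂
    have hI : Trop.Gt (FoldCase.ratVal A Nat.prime_two hA) (σ.toRingEquiv.toRingHom α - α) 0 := by
      by_cases h0 : σ.toRingEquiv.toRingHom α - α = 0
      · exact Or.inl h0
      · right
        rw [hw]
        exact (wval_pos_iff A Nat.prime_two hA h0).mpr
          (QVal.sub_mem_nonunits_of_mem_inertia A hσ hαA)
    have hσα := (Trop.map_alpha_of_inertia C σ.toRingEquiv.toRingHom hσ₁ hσ₂ hI).1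
    rw [Trop.E0, AddMonoidHom.mem_ker, map_sub, sub_eq_zero]
    rcases T with _ | ⟨x, y, h⟩
    · rfl
    · have h' : (P.freyCurve⁄K).Nonsingular (σ x) (σ y) :=
        (WeierstrassCurve.Affine.baseChange_nonsingular P.freyCurve σ.toAlgHom.injective ..).mpr h
      exact Trop.lam_map_of_fix C σ.toRingEquiv.toRingHom hσw hσα h h'

/-- Inertia at `2` fixes the `p`-torsion points whose `x`-coordinate is a unit. -/
theorem inertia_fix (P : FreyPackage) (A : ValuationSubring K) (hA : A.LiesOverPrime 2)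
    (σ : K ≃ₐ[ℚ] K) (hσ : σ ∈ A.inertiaSubgroupIn ℚ) (T : (P.freyCurve⁄K).Point)
    (hT : P.p • T = 0)
    (hE : ∀ {x y : K} (h : (P.freyCurve⁄K).Nonsingular x y), T = Point.some x y h →
      x ∉ A.nonunits) : σ • T = T := by
  obtain ⟨h1, h2, h3, h4, h6⟩ := coeff P A
  rcases T with _ | ⟨x, y, h⟩
  · rfl
  · have hxu : x ∉ A.nonunits := hE h rfl
    have h' : (P.freyCurve⁄K).Nonsingular (σ x) (σ y) :=
      (WeierstrassCurve.Affine.baseChange_nonsingular P.freyCurve σ.toAlgHom.injective ..).mpr h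
    have hmap : Point.map σ.toAlgHom (Point.some x y h) = Point.some (σ x) (σ y) h' := rfl
    have hT' : P.p • Point.some (σ x) (σ y) h' = 0 := by
      rw [← hmap, ← map_nsmul, hT, map_zero]
    have hx : x ∈ A := x_mem P A hA h hT
    have ha₁ : (P.freyCurve.baseChange K).a₁ ∈ A := h1 ▸ A.one_mem
    have ha₃ : (P.freyCurve.baseChange K).a₃ ∈ A := h3 ▸ A.zero_mem
    have ha₆ : (P.freyCurve.baseChange K).a₆ ∈ A := h6 ▸ A.zero_mem
    have hy : y ∈ A := NonsingRed.y_mem_of_x_mem A (P.freyCurve.baseChange K) ha₁ h2 ha₃ h4 ha₆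
      h.1 hx
    have hns : 2 * y + (P.freyCurve.baseChange K).a₁ * x + (P.freyCurve.baseChange K).a₃ ∉
        A.nonunits :=
      L2X.two_mul_add_notMem_nonunits A (P.freyCurve.baseChange K) (two_mem_nonunits A hA)
        (h3 ▸ S54.zero_mem_nonunits A) hy (by rw [h1, one_mul]; exact hxu)
    obtain ⟨e1, e2⟩ := L2X.map_eq_of_torsion A (P.freyCurve.baseChange K) ha₁ h2 ha₃ h4 ha₆
      σ.toRingEquiv (fun z hz => QVal.sub_mem_nonunits_of_mem_inertia A hσ hz)
      (fun h h0 => x_mem P A hA h h0) h h' hT hT' hns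
    show Point.map σ.toAlgHom (Point.some x y h) = Point.some x y h
    rw [hmap]
    have e1' : σ x = x := e1
    have e2' : σ y = y := e2
    simp only [Point.some.injEq]
    exact ⟨e1', e2'⟩

theorem eq_zero_of_nsmul {G : Type*} [AddGroup G] {p k : ℕ} (hp : p.Prime) (hk : ¬ p ∣ k)
    {T : G} (h1 : p • T = 0) (h2 : k • T = 0) : T = 0 := by
  have h3 := addOrderOf_dvd_of_nsmul_eq_zero h1
  have h4 := addOrderOf_dvd_of_nsmul_eq_zero h2
  rcases (Nat.dvd_prime hp).mp h3 with h | h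
  · exact AddMonoid.addOrderOf_eq_one_iff.mp h
  · rw [h] at h4
    exact absurd h4 hk

/-- A nonzero `p`-torsion point with unit `x`-coordinate fixed by a Frobenius element at `2` has
coordinates reducing into the prime field. -/
theorem frob_coords (P : FreyPackage) (A : ValuationSubring K) (hA : A.LiesOverPrime 2)
    (σ : K ≃ₐ[ℚ] K) (hσ : A.IsFrobeniusAt σ 2)
    (E0 : AddSubgroup (P.freyCurve⁄K).Point)
    (hE0 : ∀ {x y : K} (h : (P.freyCurve⁄K).Nonsingular x y),
      Point.some x y h ∈ E0 ↔ x ∉ A.nonunits)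
    (T : (P.freyCurve⁄K).Point) (hT : P.p • T = 0) (hT0 : T ≠ 0) (hTE : T ∈ E0)
    (hfix : σ • T = T) :
    ∃ (x y : K) (h : (P.freyCurve⁄K).Nonsingular x y), T = Point.some x y h ∧ x ∈ A ∧
      x ∉ A.nonunits ∧ x - x ^ 2 ∈ A.nonunits ∧ y - y ^ 2 ∈ A.nonunits := by
  obtain ⟨h1, h2, h3, h4, h6⟩ := coeff P A
  rcases T with _ | ⟨x, y, h⟩
  · exact absurd rfl hT0
  · have hxu : x ∉ A.nonunits := (hE0 h).mp hTE
    have hx : x ∈ A := x_mem P A hA h hT
    have ha₁ : (P.freyCurve.baseChange K).a₁ ∈ A := h1 ▸ A.one_mem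
    have ha₃ : (P.freyCurve.baseChange K).a₃ ∈ A := h3 ▸ A.zero_mem
    have ha₆ : (P.freyCurve.baseChange K).a₆ ∈ A := h6 ▸ A.zero_mem
    have hy : y ∈ A := NonsingRed.y_mem_of_x_mem A (P.freyCurve.baseChange K) ha₁ h2 ha₃ h4 ha₆
      h.1 hx
    have h' : (P.freyCurve⁄K).Nonsingular (σ x) (σ y) :=
      (WeierstrassCurve.Affine.baseChange_nonsingular P.freyCurve σ.toAlgHom.injective ..).mpr h
    have hmap : σ • Point.some x y h = Point.some (σ x) (σ y) h' := rfl
    rw [hmap] at hfix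
    obtain ⟨e1, e2⟩ := Point.some.inj hfix
    have f1 := Cyclo.sub_pow_mem_nonunits_of_isFrobeniusAt A hσ hx
    have f2 := Cyclo.sub_pow_mem_nonunits_of_isFrobeniusAt A hσ hy
    rw [e1] at f1
    rw [e2] at f2
    exact ⟨x, y, h, rfl, hx, hxu, f1, f2⟩

/-- A Frobenius element at `2` moves every nonzero `p`-torsion point of `E₀`. -/
theorem frob_ne (P : FreyPackage) (A : ValuationSubring K) (hA : A.LiesOverPrime 2)
    (σ : K ≃ₐ[ℚ] K) (hσ : A.IsFrobeniusAt σ 2)
    (E0 : AddSubgroup (P.freyCurve⁄K).Point)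
    (hE0 : ∀ {x y : K} (h : (P.freyCurve⁄K).Nonsingular x y),
      Point.some x y h ∈ E0 ↔ x ∉ A.nonunits)
    (T : (P.freyCurve⁄K).Point) (hT : P.p • T = 0) (hT0 : T ≠ 0) (hTE : T ∈ E0) :
    σ • T ≠ T := by
  intro hfix
  obtain ⟨h1, h2, h3, h4, h6⟩ := coeff P A
  have hp5 := P.hp5
  have hnd2 : ¬ P.p ∣ 2 := fun hd => by
    have := Nat.le_of_dvd (by norm_num) hd
    omega
  have hnd3 : ¬ P.p ∣ 3 := fun hd => by
    have := Nat.le_of_dvd (by norm_num) hd
    omega
  -- the point `2 T`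
  have hT2 : P.p • (2 • T) = 0 := by rw [smul_comm, hT, nsmul_zero]
  have hT20 : 2 • T ≠ 0 := fun h => hT0 (eq_zero_of_nsmul P.pp hnd2 hT h)
  have hT2E : 2 • T ∈ E0 := E0.nsmul_mem hTE 2
  have hfix2 : σ • (2 • T) = 2 • T := by
    show Point.map σ.toAlgHom (2 • T) = 2 • T
    rw [map_nsmul]
    exact congrArg (fun Q => 2 • Q) hfix
  obtain ⟨x, y, h, rfl, hx, hxu, hFx, hFy⟩ := frob_coords P A hA σ hσ E0 hE0 T hT hT0 hTE hfix
  obtain ⟨x₂, y₂, h₂, e₂, hx₂, hx₂u, hFx₂, hFy₂⟩ :=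
    frob_coords P A hA σ hσ E0 hE0 _ hT2 hT20 hT2E hfix2
  have hne : Point.some x₂ y₂ h₂ ≠ Point.some x y h := by
    rw [← e₂]
    intro hh
    apply hT0
    have : Point.some x y h + Point.some x y h = Point.some x y h + 0 := by
      rw [← two_nsmul, hh, add_zero]
    exact add_left_cancel this
  have hne' : Point.some x₂ y₂ h₂ ≠ -Point.some x y h := by
    rw [← e₂]
    intro hh
    apply hT0
    apply eq_zero_of_nsmul P.pp hnd3 hT
    rw [show (3 : ℕ) = 2 + 1 from rfl, add_nsmul, one_nsmul, hh, neg_add_cancel]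
  rcases L2X.sub_or_add_x_notMem A (P.freyCurve.baseChange K) h1 h2 h3 h4 (h6 ▸ A.zero_mem)
    (two_mem_nonunits A hA) h h₂ hx hxu hx₂ hx₂u hFx hFy hFx₂ hFy₂ hne hne' with
    ⟨x₃, y₃, h₃, hsub, hx₃⟩ | ⟨x₃, y₃, h₃, hadd, hx₃⟩
  · apply hx₃
    apply x_mem P A hA h₃
    rw [← hsub, nsmul_sub, ← e₂, hT2, hT, sub_zero]
  · apply hx₃
    apply x_mem P A hA h₃
    rw [← hadd, nsmul_add, ← e₂, hT2, hT, add_zero]

/-- A subgroup of a group of order `p ^ 2` which is neither trivial nor everything has order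
`p`. -/
theorem card_line {G : Type*} [AddGroup G] {p : ℕ} (hp : p.Prime) (hG : Nat.card G = p ^ 2)
    {H : AddSubgroup G} (h0 : H ≠ ⊥) (h1 : H ≠ ⊤) : Nat.card H = p := by
  have hfin : Finite G := Nat.finite_of_card_ne_zero (by rw [hG]; exact pow_ne_zero _ hp.ne_zero)
  have hdvd : Nat.card H ∣ p ^ 2 := hG ▸ H.card_addSubgroup_dvd_card
  obtain ⟨m, hm, hcard⟩ := (Nat.dvd_prime_pow hp).mp hdvd
  interval_cases m
  · exact absurd (AddSubgroup.card_eq_one.mp (by rw [hcard, pow_zero])) h0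
  · rw [hcard, pow_one]
  · exact absurd (H.eq_top_of_le_card (by rw [hcard, hG])) h1

/-- **Local analysis at `2`**, at a given valuation subring `A` over `2`: for a Galois-stable
line `N` in the `p`-torsion `V` of the Frey curve, inertia at `A` acts trivially on `N` and on
`V / N`, and every Frobenius element at `A` moves a point of `N`. -/
theorem local_at_two (P : FreyPackage)
    (hcard : Nat.card (Submodule.torsionBy ℤ (P.freyCurve⁄K).Point P.p) = P.p ^ 2)
    (A : ValuationSubring K) (hA : A.LiesOverPrime 2)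
    (N : Submodule (ZMod P.p) (Submodule.torsionBy ℤ (P.freyCurve⁄K).Point P.p))
    (hN : Point.IsGaloisStable ℚ N) (h0 : N ≠ ⊥) (h1 : N ≠ ⊤) :
    (∀ σ ∈ A.inertiaSubgroupIn ℚ, (∀ x ∈ N, σ • x = x) ∧
      (∀ x : Submodule.torsionBy ℤ (P.freyCurve⁄K).Point P.p, σ • x - x ∈ N)) ∧
    (∀ σ : K ≃ₐ[ℚ] K, A.IsFrobeniusAt σ 2 → ∃ x ∈ N, σ • x ≠ x) := by
  classical
  obtain ⟨E0, hE0, hc, he⟩ := local_pack P A hA
  have hfin : Finite (Submodule.torsionBy ℤ (P.freyCurve⁄K).Point P.p) :=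
    Nat.finite_of_card_ne_zero (by rw [hcard]; exact pow_ne_zero _ P.pp.ne_zero)
  have htors : ∀ x : Submodule.torsionBy ℤ (P.freyCurve⁄K).Point P.p,
      P.p • (x : (P.freyCurve⁄K).Point) = 0 := by
    intro x
    have hx := x.2
    rw [Submodule.mem_torsionBy_iff] at hx
    rwa [natCast_zsmul] at hx
  -- the subgroups
  obtain ⟨V0, hV0⟩ : ∃ V0 : AddSubgroup (Submodule.torsionBy ℤ (P.freyCurve⁄K).Point P.p),
      ∀ x : Submodule.torsionBy ℤ (P.freyCurve⁄K).Point P.p,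
        x ∈ V0 ↔ (x : (P.freyCurve⁄K).Point) ∈ E0 :=
    ⟨E0.comap (Submodule.torsionBy ℤ (P.freyCurve⁄K).Point P.p).subtype.toAddMonoidHom,
      fun x => Iff.rfl⟩
  have hN0 : N.toAddSubgroup ≠ ⊥ := by
    intro h
    apply h0
    apply Submodule.toAddSubgroup_injective
    rw [h]; rfl
  have hN1 : N.toAddSubgroup ≠ ⊤ := by
    intro h
    apply h1
    apply Submodule.toAddSubgroup_injective
    rw [h]; rfl
  have hNcard : Nat.card N.toAddSubgroup = P.p := card_line P.pp hcard hN0 hN1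
  -- inertia modulo `E₀`, in `V`
  have heV : ∀ σ ∈ A.inertiaSubgroupIn ℚ,
      ∀ x : Submodule.torsionBy ℤ (P.freyCurve⁄K).Point P.p, σ • x - x ∈ V0 := by
    intro σ hσ x
    rw [hV0]
    exact he σ hσ (x : (P.freyCurve⁄K).Point)
  -- inertia fixes `V0`
  have hfixV0 : ∀ σ ∈ A.inertiaSubgroupIn ℚ,
      ∀ x : Submodule.torsionBy ℤ (P.freyCurve⁄K).Point P.p, x ∈ V0 → σ • x = x := by
    intro σ hσ x hx
    apply Subtype.ext
    show σ • (x : (P.freyCurve⁄K).Point) = x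
    rw [hV0] at hx
    exact inertia_fix P A hA σ hσ _ (htors x) (fun h e => (hE0 h).mp (e ▸ hx))
  -- step 1: `N ≤ V0`
  have hNV0 : N.toAddSubgroup ≤ V0 := by
    by_contra hcon
    obtain ⟨T, hTN, hTV0⟩ := SetLike.not_le_iff_exists.mp hcon
    have hbot : N.toAddSubgroup ⊓ V0 = ⊥ := by
      have hd := AddSubgroup.card_dvd_of_le (inf_le_left : N.toAddSubgroup ⊓ V0 ≤ N.toAddSubgroup)
      rw [hNcard] at hd
      rcases (Nat.dvd_prime P.pp).mp hd with h | h
      · exact AddSubgroup.card_eq_one.mp h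
      · exfalso
        have heq : N.toAddSubgroup ⊓ V0 = N.toAddSubgroup :=
          AddSubgroup.eq_of_le_of_card_ge inf_le_left (by rw [h, hNcard])
        have : T ∈ N.toAddSubgroup ⊓ V0 := by rw [heq]; exact hTN
        exact hTV0 this.2
    have hfixT : ∀ σ ∈ A.inertiaSubgroupIn ℚ, σ • T = T := by
      intro σ hσ
      have h1 : σ • T - T ∈ N.toAddSubgroup ⊓ V0 :=
        ⟨N.sub_mem (hN σ T hTN) hTN, heV σ hσ T⟩
      rw [hbot, AddSubgroup.mem_bot, sub_eq_zero] at h1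
      exact h1
    have hTE0 : (T : (P.freyCurve⁄K).Point) ∉ E0 := fun hmem => hTV0 ((hV0 T).mpr hmem)
    obtain ⟨x, y, h, hTe, hx0, hnonint⟩ := hc (T : (P.freyCurve⁄K).Point) (htors T) hTE0
    have hfixx : ∀ σ ∈ A.inertiaSubgroupIn ℚ, σ x = x := by
      intro σ hσ
      have h2 : σ • (T : (P.freyCurve⁄K).Point) = T := congrArg Subtype.val (hfixT σ hσ)
      rw [hTe] at h2
      have h' : (P.freyCurve⁄K).Nonsingular (σ x) (σ y) :=
        (WeierstrassCurve.Affine.baseChange_nonsingular P.freyCurve σ.toAlgHom.injective ..).mpr h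
      have hmap : σ • Point.some x y h = Point.some (σ x) (σ y) h' := rfl
      rw [hmap] at h2
      exact (Point.some.inj h2).1
    obtain ⟨m, u, hu, hu', hxe⟩ := exists_unit_of_inertia_fixed A Nat.prime_two hA hx0 hfixx
    have hu0 : u ≠ 0 := by
      rintro rfl
      rw [mul_zero] at hxe
      exact hx0 hxe
    have h2K : ((2 : ℕ) : K) ≠ 0 := by norm_num
    apply hnonint m
    rw [hxe, wval_mul A Nat.prime_two hA (zpow_ne_zero _ h2K) hu0, wval_zpow A Nat.prime_two hA,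
      wval_q A Nat.prime_two hA, (wval_eq_zero_iff A Nat.prime_two hA hu0).mpr ⟨hu, hu'⟩]
    ring
  refine ⟨fun σ hσ => ⟨fun x hx => hfixV0 σ hσ x (hNV0 hx), fun x => ?_⟩, fun σ hσ => ?_⟩
  · by_cases hV0top : V0 = ⊤
    · have hx : x ∈ V0 := hV0top ▸ AddSubgroup.mem_top x
      rw [hfixV0 σ hσ x hx, sub_self]
      exact N.zero_mem
    · have hV0bot : V0 ≠ ⊥ := by
        intro h
        apply hN0
        rw [eq_bot_iff, ← h]
        exact hNV0
      have hV0card : Nat.card V0 = P.p := card_line P.pp hcard hV0bot hV0top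
      have heq : N.toAddSubgroup = V0 :=
        AddSubgroup.eq_of_le_of_card_ge hNV0 (by rw [hV0card, hNcard])
      have h2 : σ • x - x ∈ V0 := heV σ hσ x
      rw [← heq] at h2
      exact h2
  · obtain ⟨x, hxN, hx0⟩ := (Submodule.ne_bot_iff N).mp h0
    refine ⟨x, hxN, fun hfix => ?_⟩
    have hx0' : (x : (P.freyCurve⁄K).Point) ≠ 0 := fun h => hx0 (Subtype.ext h)
    have hxE : (x : (P.freyCurve⁄K).Point) ∈ E0 := (hV0 x).mp (hNV0 hxN)
    exact frob_ne P A hA σ hσ E0 hE0 _ (htors x) hx0' hxE (congrArg Subtype.val hfix)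

/-- **`h2a`**: inertia at some valuation subring over `2` acts trivially on a Galois-stable line
`N` and on `V / N`. -/
theorem l2a (P : FreyPackage)
    (hcard : Nat.card (Submodule.torsionBy ℤ (P.freyCurve⁄K).Point P.p) = P.p ^ 2)
    (N : Submodule (ZMod P.p) (Submodule.torsionBy ℤ (P.freyCurve⁄K).Point P.p))
    (hN : Point.IsGaloisStable ℚ N) (h0 : N ≠ ⊥) (h1 : N ≠ ⊤) :
    ∃ A : ValuationSubring K, A.LiesOverPrime 2 ∧
      ∀ σ ∈ A.inertiaSubgroupIn ℚ, (∀ x ∈ N, σ • x = x) ∧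
        (∀ x : Submodule.torsionBy ℤ (P.freyCurve⁄K).Point P.p, σ • x - x ∈ N) := by
  obtain ⟨A, hA⟩ := S54.exists_liesOverPrime (L := K) Nat.prime_two
  exact ⟨A, hA, (local_at_two P hcard A hA N hN h0 h1).1⟩

/-- **`h2b`**: some Galois element moves a point of a Galois-stable line `N`. -/
theorem l2b (P : FreyPackage)
    (hcard : Nat.card (Submodule.torsionBy ℤ (P.freyCurve⁄K).Point P.p) = P.p ^ 2)
    (N : Submodule (ZMod P.p) (Submodule.torsionBy ℤ (P.freyCurve⁄K).Point P.p))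
    (hN : Point.IsGaloisStable ℚ N) (h0 : N ≠ ⊥) (h1 : N ≠ ⊤) :
    ∃ σ : K ≃ₐ[ℚ] K, ∃ x ∈ N, σ • x ≠ x := by
  obtain ⟨A, hA⟩ := S54.exists_liesOverPrime (L := K) Nat.prime_two
  obtain ⟨σ, hσ⟩ := S54.exists_isFrobeniusAt A Nat.prime_two hA
  exact ⟨σ, (local_at_two P hcard A hA N hN h0 h1).2 σ hσ⟩

end L2Alt

end Fermat.Agent.S13
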