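import Mathlib
import Fermat.Agent.S05.KerRedX

/-!
# S13 / DivBound (helper6): the `p`-division bound, x-coordinate only

Replaces the formal group at `p`.  On top of helper8's abstract x-only data `KerRedX.XData`
(product formula + duplication formula), we build by strong induction universal polynomials
`N_k, D_k ∈ A[X]` with `N_k(0) = k ^ 2`, `D_k(0) = 1` and

  `x(k • T) * (u * N_k(u)) = D_k(u)`   (`u = 1 / x(T)`; `N_k(u) = 0` if `k • T = 0`).

For odd `p = 2 b + 1` the polynomial `G = N_(b+1) * D_b - N_b * D_(b+1)` has constant term `p`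
and vanishes at `1 / x(T)` for every `p`-torsion point `T` with `x(T) ≠ 0`.  Hence for finitely
many distinct such values `u ∈ A`, the product of the `u` divides `p` in `A`.
-/

namespace Fermat.Agent.S13.DivBound

open Polynomial Fermat.Agent.S05.KerRedX

section Core

variable {F : Type*} [Field F] {A : ValuationSubring F}
variable {G : Type*} [AddCommGroup G] {xc : G → F} {b₂ b₄ b₆ b₈ : A}

/-- The induction predicate: universal polynomials `N`, `D` over `A` with
`x(k • T) * (u * N(u)) = D(u)` for `u = 1 / x(T)`. -/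
def PGood (xc : G → F) (k : ℕ) (N D : A[X]) : Prop :=
  N.eval 0 = (k : A) ^ 2 ∧ D.eval 0 = 1 ∧
    ∀ (T : G) (u : A), T ≠ 0 → xc T * (u : F) = 1 →
      (k • T = 0 → ((N.eval u : A) : F) = 0) ∧
      (k • T ≠ 0 → xc (k • T) * ((u : F) * ((N.eval u : A) : F)) = ((D.eval u : A) : F))

theorem pgood_zero : PGood (A := A) xc 0 0 1 := by
  refine ⟨by simp, by simp, fun T u _ _ => ⟨fun _ => by simp, fun h => absurd (zero_nsmul T) h⟩⟩

theorem pgood_one : PGood (A := A) xc 1 1 1 := by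
  refine ⟨by simp, by simp, fun T u hT hxu => ⟨fun h => absurd (by rwa [one_nsmul] at h) hT,
    fun _ => ?_⟩⟩
  rw [one_nsmul]
  simpa using hxu

/-- numerator for `2 a` -/
noncomputable def dblN (b₂ b₄ b₆ : A) (N D : A[X]) : A[X] :=
  N * (4 * D ^ 3 + C b₂ * X * N * D ^ 2 + 2 * C b₄ * X ^ 2 * N ^ 2 * D + C b₆ * X ^ 3 * N ^ 3)

/-- denominator for `2 a` -/
noncomputable def dblD (b₄ b₆ b₈ : A) (N D : A[X]) : A[X] :=
  D ^ 4 - C b₄ * X ^ 2 * N ^ 2 * D ^ 2 - 2 * C b₆ * X ^ 3 * N ^ 3 * D - C b₈ * X ^ 4 * N ^ 4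

/-- numerator for `2 b + 1` -/
noncomputable def oddN (Na Da Nb Db : A[X]) : A[X] :=
  (Na * Db - Nb * Da) ^ 2

/-- denominator for `2 b + 1` -/
noncomputable def oddD (b₄ b₆ b₈ : A) (Na Da Nb Db : A[X]) : A[X] :=
  Da ^ 2 * Db ^ 2 - C b₄ * X ^ 2 * Na * Nb * Da * Db
    - C b₆ * X ^ 3 * Na * Nb * (Na * Db + Nb * Da) - C b₈ * X ^ 4 * Na ^ 2 * Nb ^ 2

theorem pgood_double (hX : XData A xc b₂ b₄ b₆ b₈) (a : ℕ) {N D : A[X]}
    (h : PGood xc a N D) : PGood xc (2 * a) (dblN b₂ b₄ b₆ N D) (dblD b₄ b₆ b₈ N D) := by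
  obtain ⟨hN0, hD0, hT⟩ := h
  refine ⟨?_, ?_, ?_⟩
  · simp only [dblN, eval_mul, eval_add, eval_pow, eval_X, eval_C, eval_ofNat, hN0, hD0]
    push_cast
    ring
  · simp only [dblD, eval_mul, eval_sub, eval_pow, eval_X, eval_C, eval_ofNat, hN0, hD0]
    ring
  · intro T u hT0 hxu
    obtain ⟨h0, h1⟩ := hT T u hT0 hxu
    have e2 : (2 * a) • T = 2 • a • T := mul_nsmul' T 2 a
    have evN : ((eval u (dblN b₂ b₄ b₆ N D) : A) : F) =
        (eval u N : A) * (4 * (eval u D : A) ^ 3 + (b₂ : F) * u * (eval u N : A) * (eval u D : A) ^ 2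
          + 2 * (b₄ : F) * (u : F) ^ 2 * (eval u N : A) ^ 2 * (eval u D : A)
          + (b₆ : F) * (u : F) ^ 3 * (eval u N : A) ^ 3) := by
      simp only [dblN, eval_mul, eval_add, eval_pow, eval_X, eval_C, eval_ofNat]
      push_cast
      simp only [coe_two', coe_four']
    have evD : ((eval u (dblD b₄ b₆ b₈ N D) : A) : F) =
        ((eval u D : A) : F) ^ 4 - (b₄ : F) * (u : F) ^ 2 * (eval u N : A) ^ 2 * (eval u D : A) ^ 2
          - 2 * (b₆ : F) * (u : F) ^ 3 * (eval u N : A) ^ 3 * (eval u D : A)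
          - (b₈ : F) * (u : F) ^ 4 * (eval u N : A) ^ 4 := by
      simp only [dblD, eval_mul, eval_sub, eval_pow, eval_X, eval_C, eval_ofNat]
      push_cast
      simp only [coe_two']
    by_cases hP : a • T = 0
    · refine ⟨fun _ => ?_, fun h => absurd (by rw [e2, hP, nsmul_zero]) h⟩
      rw [evN, h0 hP, zero_mul]
    · have hx := h1 hP
      by_cases h2 : 2 • a • T = 0
      · refine ⟨fun _ => ?_, fun h => absurd (by rw [e2, h2]) h⟩
        have hd := hX.hdbl0 _ hP h2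
        rw [evN, ← hx]
        linear_combination ((eval u N : A) : F) * ((u : F) * ((eval u N : A) : F)) ^ 3 * hd
      · refine ⟨fun h => absurd (by rwa [e2] at h) h2, fun _ => ?_⟩
        have hd := hX.hdbl _ hP h2
        rw [e2, evN, evD, ← hx]
        linear_combination ((u : F) * ((eval u N : A) : F)) ^ 4 * hd

theorem pgood_odd (hX : XData A xc b₂ b₄ b₆ b₈) (b : ℕ) {Na Da Nb Db : A[X]}
    (hb : PGood xc b Nb Db) (ha : PGood xc (b + 1) Na Da) :
    PGood xc (2 * b + 1) (oddN Na Da Nb Db) (oddD b₄ b₆ b₈ Na Da Nb Db) := by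
  obtain ⟨hNb0, hDb0, hTb⟩ := hb
  obtain ⟨hNa0, hDa0, hTa⟩ := ha
  refine ⟨?_, ?_, ?_⟩
  · simp only [oddN, eval_mul, eval_sub, eval_pow, hNa0, hDa0, hNb0, hDb0]
    push_cast
    ring
  · simp only [oddD, eval_mul, eval_sub, eval_add, eval_pow, eval_X, eval_C, hNa0, hDa0, hNb0, hDb0]
    ring
  · intro T u hT0 hxu
    obtain ⟨hb0, hb1⟩ := hTb T u hT0 hxu
    obtain ⟨ha0, ha1⟩ := hTa T u hT0 hxu
    have hsum : (2 * b + 1) • T = (b + 1) • T + b • T := by
      rw [← add_nsmul]; congr 1; ring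
    have hdiff : (b + 1) • T - b • T = T := by
      rw [add_nsmul, one_nsmul]; abel
    have evN : ((eval u (oddN Na Da Nb Db) : A) : F) =
        (((eval u Na : A) : F) * (eval u Db : A) - (eval u Nb : A) * (eval u Da : A)) ^ 2 := by
      simp only [oddN, eval_mul, eval_sub, eval_pow]
      push_cast
      rfl
    have evD : ((eval u (oddD b₄ b₆ b₈ Na Da Nb Db) : A) : F) =
        ((eval u Da : A) : F) ^ 2 * (eval u Db : A) ^ 2
          - (b₄ : F) * (u : F) ^ 2 * (eval u Na : A) * (eval u Nb : A) * (eval u Da : A) * (eval u Db : A)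
          - (b₆ : F) * (u : F) ^ 3 * (eval u Na : A) * (eval u Nb : A) *
              (((eval u Na : A) : F) * (eval u Db : A) + (eval u Nb : A) * (eval u Da : A))
          - (b₈ : F) * (u : F) ^ 4 * (eval u Na : A) ^ 2 * (eval u Nb : A) ^ 2 := by
      simp only [oddD, eval_mul, eval_sub, eval_add, eval_pow, eval_X, eval_C]
      push_cast
      rfl
    by_cases hQ : b • T = 0
    · -- then `(b+1) • T = T`
      have hP : (b + 1) • T = T := by rw [add_nsmul, hQ, zero_add, one_nsmul]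
      have hk : (2 * b + 1) • T = T := by rw [hsum, hP, hQ, add_zero]
      have hnb := hb0 hQ
      have hxa := ha1 (by rw [hP]; exact hT0)
      rw [hP] at hxa
      refine ⟨fun h => absurd (hk ▸ h) hT0, fun _ => ?_⟩
      rw [hk, evN, evD, hnb, ← hxa]
      linear_combination (-(xc T * (u : F) * ((eval u Na : A) : F) ^ 2
        * ((eval u Db : A) : F) ^ 2)) * hxu
    · by_cases hP : (b + 1) • T = 0
      · have hQ' : b • T = -T := by
          have := hdiff
          rw [hP, zero_sub] at this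
          exact neg_eq_iff_eq_neg.mp this
        have hk : (2 * b + 1) • T = -T := by rw [hsum, hP, hQ', zero_add]
        have hna := ha0 hP
        have hxb := hb1 hQ
        rw [hQ', hX.hneg] at hxb
        refine ⟨fun h => absurd (neg_eq_zero.mp (hk ▸ h)) hT0, fun _ => ?_⟩
        rw [hk, hX.hneg, evN, evD, hna, ← hxb]
        linear_combination (-(xc T * (u : F) * ((eval u Nb : A) : F) ^ 2
          * ((eval u Da : A) : F) ^ 2)) * hxu
      · have hxa := ha1 hP
        have hxb := hb1 hQ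
        by_cases hxx : xc ((b + 1) • T) = xc (b • T)
        · have hPQ : (b + 1) • T = -(b • T) := by
            rcases hX.hinj _ _ hP hQ hxx with h | h
            · exact absurd (by rw [← hdiff, h, sub_self]) hT0
            · exact h
          have hk : (2 * b + 1) • T = 0 := by rw [hsum, hPQ, neg_add_cancel]
          refine ⟨fun _ => ?_, fun h => absurd hk h⟩
          rw [evN, ← hxa, ← hxb, hxx]
          ring
        · have hk : (2 * b + 1) • T ≠ 0 := by
            intro h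
            rw [hsum] at h
            have : (b + 1) • T = -(b • T) := eq_neg_of_add_eq_zero_left h
            exact hxx (by rw [this, hX.hneg])
          have hadd := hX.hadd _ _ hP hQ hxx
          rw [hdiff, ← hsum] at hadd
          refine ⟨fun h => absurd h hk, fun _ => ?_⟩
          rw [evN, evD, ← hxa, ← hxb]
          linear_combination ((u : F) ^ 4 * ((eval u Na : A) : F) ^ 2 * ((eval u Nb : A) : F) ^ 2) * hadd
            - (xc ((2 * b + 1) • T) * (u : F) ^ 3 * ((eval u Na : A) : F) ^ 2 * ((eval u Nb : A) : F) ^ 2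
              * (xc ((b + 1) • T) - xc (b • T)) ^ 2) * hxu

theorem exists_pgood (hX : XData A xc b₂ b₄ b₆ b₈) (k : ℕ) : ∃ N D : A[X], PGood xc k N D := by
  induction k using Nat.strong_induction_on with
  | _ k ih =>
    rcases Nat.even_or_odd' k with ⟨m, rfl | rfl⟩
    · rcases Nat.eq_zero_or_pos m with rfl | hm
      · exact ⟨0, 1, pgood_zero⟩
      · obtain ⟨N, D, h⟩ := ih m (by omega)
        exact ⟨_, _, pgood_double hX m h⟩
    · rcases Nat.eq_zero_or_pos m with rfl | hm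
      · exact ⟨1, 1, pgood_one⟩
      · obtain ⟨Nb, Db, hb⟩ := ih m (by omega)
        obtain ⟨Na, Da, ha⟩ := ih (m + 1) (by omega)
        exact ⟨_, _, pgood_odd hX m hb ha⟩

/-- **The division polynomial, abstract form.**  For odd `p = 2 b + 1` there is `P ∈ A[X]` with
constant term `p` vanishing at `u = 1 / x(T)` for every `T ≠ 0` with `p • T = 0`. -/
theorem exists_poly (hX : XData A xc b₂ b₄ b₆ b₈) (b : ℕ) :
    ∃ P : A[X], P.eval 0 = ((2 * b + 1 : ℕ) : A) ∧
      ∀ (T : G) (u : A), T ≠ 0 → xc T * (u : F) = 1 → (2 * b + 1) • T = 0 →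
        P.eval u = 0 := by
  obtain ⟨Nb, Db, hNb0, hDb0, hTb⟩ := exists_pgood hX b
  obtain ⟨Na, Da, hNa0, hDa0, hTa⟩ := exists_pgood hX (b + 1)
  refine ⟨Na * Db - Nb * Da, ?_, ?_⟩
  · simp only [eval_mul, eval_sub, hNa0, hDa0, hNb0, hDb0]
    push_cast
    ring
  · intro T u hT0 hxu hk
    obtain ⟨hb0, hb1⟩ := hTb T u hT0 hxu
    obtain ⟨ha0, ha1⟩ := hTa T u hT0 hxu
    have hsum : (2 * b + 1) • T = (b + 1) • T + b • T := by
      rw [← add_nsmul]; congr 1; ring
    have hdiff : (b + 1) • T - b • T = T := by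
      rw [add_nsmul, one_nsmul]; abel
    have hPQ : (b + 1) • T = -(b • T) := eq_neg_of_add_eq_zero_left (hsum ▸ hk)
    have hQ : b • T ≠ 0 := by
      intro hQ
      rw [hQ, neg_zero] at hPQ
      exact hT0 (by rw [← hdiff, hPQ, hQ, sub_zero])
    have hP : (b + 1) • T ≠ 0 := by
      rw [hPQ]; exact neg_ne_zero.mpr hQ
    have hxa := ha1 hP
    have hxb := hb1 hQ
    rw [hPQ, hX.hneg] at hxa
    apply Subtype.ext
    simp only [eval_mul, eval_sub]
    push_cast
    rw [← hxa, ← hxb]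
    ring

end Core

section Roots

/-- distinct roots: the product of the roots divides the constant term. -/
theorem exists_mul_prod_eq_eval_zero {R : Type*} [CommRing R] [IsDomain R] (P : R[X])
    (s : Finset R) (hs : ∀ u ∈ s, P.eval u = 0) : ∃ c : R, P.eval 0 = c * ∏ u ∈ s, u := by
  by_cases hP : P = 0
  · exact ⟨0, by simp [hP]⟩
  · have hle : s.val ≤ P.roots := by
      rw [Multiset.le_iff_subset s.nodup]
      intro u hu
      exact (mem_roots hP).mpr (hs u hu)
    obtain ⟨Q, hQ⟩ := (Multiset.prod_X_sub_C_dvd_iff_le_roots hP s.val).mpr hle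
    refine ⟨(-1) ^ s.card * Q.eval 0, ?_⟩
    have h1 : (Multiset.map (fun a => X - C a) s.val).prod = ∏ u ∈ s, (X - C u : R[X]) := rfl
    rw [hQ, h1, eval_mul, eval_prod]
    simp only [eval_sub, eval_X, eval_C, zero_sub]
    rw [Finset.prod_neg]
    ring

end Roots

section Concrete

open WeierstrassCurve

variable {F : Type*} [Field F] [DecidableEq F] (A : ValuationSubring F) (W : WeierstrassCurve F)

/-- **The division polynomial.**  For odd `p` there is `P ∈ A[X]` with constant term `p`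
vanishing at `1 / x(T)` for every affine `p`-torsion point `T` with `x(T) ≠ 0`
(given in the form `x * u = 1`, `u ∈ A`). -/
theorem exists_divPoly (hb₂ : W.b₂ ∈ A) (hb₄ : W.b₄ ∈ A) (hb₆ : W.b₆ ∈ A) (hb₈ : W.b₈ ∈ A)
    (p : ℕ) (hp : Odd p) :
    ∃ P : A[X], P.eval 0 = (p : A) ∧
      ∀ (x y : F) (h : W.toAffine.Nonsingular x y) (u : A), x * (u : F) = 1 →
        p • Affine.Point.some x y h = 0 → P.eval u = 0 := by
  obtain ⟨b, rfl⟩ := hp
  obtain ⟨P, hP0, hP⟩ := exists_poly (xData W A hb₂ hb₄ hb₆ hb₈) b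
  exact ⟨P, hP0, fun x y h u hxu hT =>
    hP (Affine.Point.some x y h) u (Affine.Point.some_ne_zero h) hxu hT⟩

/-- **DivBound.**  For finitely many distinct values `u = 1 / x(T)`, `T` an affine `p`-torsion
point in the kernel of reduction (`x(T) ∉ A`), the product of the `u` divides `p` in `A`. -/
theorem exists_mul_prod_eq (hb₂ : W.b₂ ∈ A) (hb₄ : W.b₄ ∈ A) (hb₆ : W.b₆ ∈ A) (hb₈ : W.b₈ ∈ A)
    (p : ℕ) (hp : Odd p) (s : Finset F)
    (hs : ∀ u ∈ s, ∃ x y, ∃ h : W.toAffine.Nonsingular x y,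
      x ∉ A ∧ u = x⁻¹ ∧ p • Affine.Point.some x y h = 0) :
    ∃ c ∈ A, (p : F) = c * ∏ u ∈ s, u := by
  classical
  obtain ⟨P, hP0, hP⟩ := exists_divPoly A W hb₂ hb₄ hb₆ hb₈ p hp
  have hsA : ∀ u ∈ s, u ∈ A := by
    intro u hu
    obtain ⟨x, y, h, hx, rfl, -⟩ := hs u hu
    exact (A.mem_or_inv_mem x).resolve_left hx
  let s' : Finset A := s.subtype (· ∈ A)
  have hs' : ∀ u ∈ s', P.eval u = 0 := by
    intro u hu
    have hu' : (u : F) ∈ s := Finset.mem_subtype.mp hu
    obtain ⟨x, y, h, hx, hux, hT⟩ := hs u hu'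
    have hx0 : x ≠ 0 := fun h0 => hx (h0 ▸ A.zero_mem)
    exact hP x y h u (by rw [hux]; exact mul_inv_cancel₀ hx0) hT
  obtain ⟨c, hc⟩ := exists_mul_prod_eq_eval_zero P s' hs'
  refine ⟨c, c.2, ?_⟩
  have hmap : s'.map (Function.Embedding.subtype _) = s := by
    rw [Finset.subtype_map]
    exact Finset.filter_true_of_mem hsA
  have hprod : ∏ u ∈ s, u = ((∏ u ∈ s', u : A) : F) := by
    rw [← hmap, Finset.prod_map]
    push_cast
    rfl
  rw [hprod]
  have := congrArg (Subtype.val) hc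
  rw [hP0] at this
  push_cast at this
  exact_mod_cast this

/-- `exists_mul_prod_eq` in the consumer shape of `Lp.lean` (helper21's (R4)): hypotheses on the
`a`-invariants, conjuncts in the order `x ∉ A ∧ p • T = 0 ∧ u = x⁻¹`. -/
theorem natCast_eq_mul_prod (ha₁ : W.a₁ ∈ A) (ha₂ : W.a₂ ∈ A) (ha₃ : W.a₃ ∈ A) (ha₄ : W.a₄ ∈ A)
    (ha₆ : W.a₆ ∈ A) {p : ℕ} (hp : Odd p) (s : Finset F)
    (hs : ∀ u ∈ s, ∃ x y, ∃ h : W.toAffine.Nonsingular x y,
      x ∉ A ∧ p • Affine.Point.some x y h = 0 ∧ u = x⁻¹) :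
    ∃ c ∈ A, (p : F) = c * ∏ u ∈ s, u :=
  exists_mul_prod_eq A W (b₂_mem W A ha₁ ha₂) (b₄_mem W A ha₁ ha₃ ha₄) (b₆_mem W A ha₃ ha₆)
    (b₈_mem W A ha₁ ha₂ ha₃ ha₄ ha₆) p hp s fun u hu => by
      obtain ⟨x, y, h, hx, hT, hu'⟩ := hs u hu
      exact ⟨x, y, h, hx, hu', hT⟩

omit [DecidableEq F] in
theorem mul_mem_nonunits {a b : F} (ha : a ∈ A.nonunits) (hb : b ∈ A) : a * b ∈ A.nonunits := by
  rw [ValuationSubring.mem_nonunits_iff] at ha ⊢
  rw [map_mul]
  have hb' := (A.valuation_le_one_iff b).mpr hb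
  calc A.valuation a * A.valuation b ≤ A.valuation a * 1 := by gcongr
    _ < 1 := by simpa using ha

omit [DecidableEq F] in
theorem prod_mem_nonunits {s : Finset F} (hne : s.Nonempty) (hs : ∀ u ∈ s, u ∈ A.nonunits) :
    ∏ u ∈ s, u ∈ A.nonunits := by
  classical
  obtain ⟨u0, hu0⟩ := hne
  rw [← Finset.mul_prod_erase s _ hu0]
  exact mul_mem_nonunits A (hs u0 hu0)
    (prod_mem fun u hu => A.nonunits_subset (hs u (Finset.mem_of_mem_erase hu)))

omit [DecidableEq F] in
theorem not_mem_nonunits_of_mul_eq_one {a b : F} (hb : b ∈ A) (hab : a * b = 1) :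
    a ∉ A.nonunits := by
  intro ha
  have h := mul_mem_nonunits A ha hb
  rw [hab, ValuationSubring.mem_nonunits_iff, map_one] at h
  exact lt_irrefl _ h

/-- **Kernel case.**  `s ⊆ t` finite sets of values `1 / x(T)`, `T` affine `p`-torsion in the
kernel of reduction.  If `s ≠ ∅` and `∏ s = p ^ m * e` with `e` a unit of `A` (e.g. because the
product is rational, or inertia-fixed), then `s = t`. -/
theorem eq_of_prod_eq_zpow_mul (hb₂ : W.b₂ ∈ A) (hb₄ : W.b₄ ∈ A) (hb₆ : W.b₆ ∈ A)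
    (hb₈ : W.b₈ ∈ A) (p : ℕ) (hp : Odd p) (hp0 : (p : F) ≠ 0) (s t : Finset F) (hst : s ⊆ t)
    (hne : s.Nonempty)
    (ht : ∀ u ∈ t, ∃ x y, ∃ h : W.toAffine.Nonsingular x y,
      x ∉ A ∧ u = x⁻¹ ∧ p • Affine.Point.some x y h = 0)
    (m : ℤ) (e : F) (he : e ∈ A) (he' : e⁻¹ ∈ A) (hprod : ∏ u ∈ s, u = (p : F) ^ m * e) :
    s = t := by
  classical
  have hnu : ∀ u ∈ t, u ∈ A.nonunits := by
    intro u hu
    obtain ⟨x, y, h, hx, rfl, -⟩ := ht u hu
    exact A.inv_mem_nonunits_iff.mpr (Or.inr hx)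
  obtain ⟨c, hc, hpc⟩ := exists_mul_prod_eq A W hb₂ hb₄ hb₆ hb₈ p hp t ht
  have hS : ∏ u ∈ s, u ∈ A.nonunits := prod_mem_nonunits A hne fun u hu => hnu u (hst hu)
  have hsplit : ∏ u ∈ t, u = (∏ u ∈ t \ s, u) * ∏ u ∈ s, u := (Finset.prod_sdiff hst).symm
  have hpA : (p : F) ∈ A := natCast_mem A p
  have he0 : e ≠ 0 := by
    rintro rfl
    rw [mul_zero] at hprod
    rw [hsplit, hprod, mul_zero, mul_zero] at hpc
    exact hp0 hpc
  by_contra hne'
  have hR : ∏ u ∈ t \ s, u ∈ A.nonunits := by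
    refine prod_mem_nonunits A ?_ fun u hu => hnu u (Finset.mem_sdiff.mp hu).1
    obtain ⟨u0, hu0, hu0'⟩ := Finset.exists_of_ssubset (hst.ssubset_of_ne hne')
    exact ⟨u0, Finset.mem_sdiff.mpr ⟨hu0, hu0'⟩⟩
  obtain ⟨n, rfl | rfl⟩ := m.eq_nat_or_neg
  · rw [zpow_natCast] at hprod
    rcases Nat.eq_zero_or_pos n with rfl | hn
    · rw [pow_zero, one_mul] at hprod
      exact not_mem_nonunits_of_mul_eq_one A he' (by rw [hprod]; exact mul_inv_cancel₀ he0) hS
    · obtain ⟨k, rfl⟩ : ∃ k, n = k + 1 := ⟨n - 1, by omega⟩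
      refine not_mem_nonunits_of_mul_eq_one A
        (A.mul_mem _ _ (A.mul_mem _ _ hc (pow_mem hpA k)) he) ?_ hR
      rw [hsplit, hprod] at hpc
      have h1 : (p : F) * ((∏ u ∈ t \ s, u) * (c * (p : F) ^ k * e)) = (p : F) * 1 := by
        rw [mul_one]
        conv_rhs => rw [hpc]
        ring
      exact mul_left_cancel₀ hp0 h1
  · rw [zpow_neg, zpow_natCast] at hprod
    refine not_mem_nonunits_of_mul_eq_one A (A.mul_mem _ _ (pow_mem hpA n) he') ?_ hS
    rw [hprod]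
    field_simp

/-- **Kernel case, point form.**  `S` a finite set of nonzero `p`-torsion points in the kernel of
reduction, closed under negation, nonempty, such that the product of the distinct values
`1 / x(T)`, `T ∈ S`, is `p ^ m * unit`.  Then `S` contains EVERY nonzero `p`-torsion point of the
kernel of reduction. -/
theorem mem_of_prod_eq_zpow_mul (hb₂ : W.b₂ ∈ A) (hb₄ : W.b₄ ∈ A) (hb₆ : W.b₆ ∈ A)
    (hb₈ : W.b₈ ∈ A) (p : ℕ) (hp : Odd p) (hp0 : (p : F) ≠ 0)
    (S : Finset W.toAffine.Point) (hSne : S.Nonempty)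
    (hS : ∀ T ∈ S, T ≠ 0 ∧ p • T = 0 ∧ xc W T ∉ A) (hSneg : ∀ T ∈ S, -T ∈ S)
    (m : ℤ) (e : F) (he : e ∈ A) (he' : e⁻¹ ∈ A)
    (hprod : ∏ u ∈ S.image (fun T => (xc W T)⁻¹), u = (p : F) ^ m * e)
    (T : W.toAffine.Point) (hT0 : T ≠ 0) (hTp : p • T = 0) (hTx : xc W T ∉ A) : T ∈ S := by
  classical
  have key : ∀ T : W.toAffine.Point, T ≠ 0 → p • T = 0 → xc W T ∉ A →
      ∃ x y, ∃ h : W.toAffine.Nonsingular x y,
        x ∉ A ∧ (xc W T)⁻¹ = x⁻¹ ∧ p • Affine.Point.some x y h = 0 := by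
    rintro (_ | ⟨x, y, h⟩) h0 hp' hx
    · exact absurd rfl h0
    · exact ⟨x, y, h, hx, rfl, hp'⟩
  have hst : S.image (fun T => (xc W T)⁻¹) ⊆ (insert T S).image (fun T => (xc W T)⁻¹) :=
    Finset.image_subset_image (Finset.subset_insert T S)
  have ht : ∀ u ∈ (insert T S).image (fun T => (xc W T)⁻¹), ∃ x y,
      ∃ h : W.toAffine.Nonsingular x y, x ∉ A ∧ u = x⁻¹ ∧ p • Affine.Point.some x y h = 0 := by
    intro u hu
    obtain ⟨T', hT', rfl⟩ := Finset.mem_image.mp hu
    rcases Finset.mem_insert.mp hT' with rfl | hT'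
    · exact key _ hT0 hTp hTx
    · exact key _ (hS T' hT').1 (hS T' hT').2.1 (hS T' hT').2.2
  have heq := eq_of_prod_eq_zpow_mul A W hb₂ hb₄ hb₆ hb₈ p hp hp0 _ _ hst (hSne.image _) ht
    m e he he' hprod
  have hmem : (xc W T)⁻¹ ∈ S.image (fun T => (xc W T)⁻¹) := by
    rw [heq]
    exact Finset.mem_image_of_mem _ (Finset.mem_insert_self T S)
  obtain ⟨T', hT', hxT'⟩ := Finset.mem_image.mp hmem
  have hxx : xc W T' = xc W T := inv_injective hxT'
  rcases (xData W A hb₂ hb₄ hb₆ hb₈).hinj T' T (hS T' hT').1 hT0 hxx with h | h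
  · exact h ▸ hT'
  · have := hSneg T' hT'
    rw [h, neg_neg] at this
    exact this

end Concrete

end Fermat.Agent.S13.DivBound
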