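/-
S13 / Lp (helper21): abstract layer for the local analysis at `p`.

* `Lp.InKer A W P`: the point `P` lies in the kernel of reduction `E₁` (it is the origin or its
  `x`-coordinate is not integral); closure under negation, addition, multiples.
* `Lp.mem_of_inKer`: the divisibility bound (`DivBound`) together with rationality of the product
  of the `1 / x(T)` over a Galois-stable set `S` of torsion points in `E₁` forces every torsion
  point of `E₁` to lie in `S`.
-/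
import Mathlib
import Fermat.Agent.S54_Frob
import Fermat.Agent.S05.XOnly
import Fermat.Agent.S05.KerRedX
import Fermat.Agent.S05.QVal

set_option autoImplicit false

open WeierstrassCurve

namespace Fermat.Agent.S13

namespace Lp

open Fermat.Agent.S05 Fermat.Agent.S05.KerRedX Fermat.Agent.S54

section Ker

variable {F : Type*} [Field F] (A : ValuationSubring F) (W : WeierstrassCurve F)

/-- The kernel of reduction: the origin and the points with non-integral `x`-coordinate. -/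
def InKer (P : W.toAffine.Point) : Prop := P = 0 ∨ xc W P ∉ A

theorem inKer_zero : InKer A W 0 := Or.inl rfl

theorem inKer_some_iff {x y : F} (h : W.toAffine.Nonsingular x y) :
    InKer A W (Affine.Point.some x y h) ↔ x ∉ A := by
  constructor
  · rintro (h0 | hx)
    · exact absurd h0 (Affine.Point.some_ne_zero h)
    · exact hx
  · intro hx; exact Or.inr hx

theorem inKer_neg {P : W.toAffine.Point} (hP : InKer A W P) : InKer A W (-P) := by
  rcases hP with rfl | hx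
  · exact Or.inl rfl
  · right; rwa [xc_neg]

theorem inv_mem_nonunits_of_notMem {x : F} (hx : x ∉ A) : x⁻¹ ∈ A.nonunits :=
  A.inv_mem_nonunits_iff.mpr (Or.inr hx)

theorem ne_zero_of_notMem {x : F} (hx : x ∉ A) : x ≠ 0 := fun h => hx (h ▸ A.zero_mem)

variable [DecidableEq F]

/-- `E₁` is closed under addition (coordinate form). -/
theorem x_notMem_of_add_eq_some (hb₂ : W.b₂ ∈ A) (hb₄ : W.b₄ ∈ A) (hb₆ : W.b₆ ∈ A)
    (hb₈ : W.b₈ ∈ A) {x₁ y₁ x₂ y₂ x₃ y₃ : F} (h₁ : W.toAffine.Nonsingular x₁ y₁)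
    (h₂ : W.toAffine.Nonsingular x₂ y₂) (h₃ : W.toAffine.Nonsingular x₃ y₃)
    (hx₁ : x₁ ∉ A) (hx₂ : x₂ ∉ A)
    (hadd : Affine.Point.some x₁ y₁ h₁ + Affine.Point.some x₂ y₂ h₂ =
      Affine.Point.some x₃ y₃ h₃) : x₃ ∉ A := by
  intro hx₃
  have hu₁ : x₁⁻¹ ∈ A.nonunits := inv_mem_nonunits_of_notMem A hx₁
  have hu₂ : x₂⁻¹ ∈ A.nonunits := inv_mem_nonunits_of_notMem A hx₂
  have hx₁0 : x₁ ≠ 0 := ne_zero_of_notMem A hx₁
  have hx₂0 : x₂ ≠ 0 := ne_zero_of_notMem A hx₂
  have hu₁A : x₁⁻¹ ∈ A := A.nonunits_subset hu₁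
  have hu₂A : x₂⁻¹ ∈ A := A.nonunits_subset hu₂
  have h2A : (2 : F) ∈ A := ofNat_mem A 2
  have h4A : (4 : F) ∈ A := ofNat_mem A 4
  apply one_not_mem_nonunits A
  by_cases hx : x₁ = x₂
  · subst hx
    rcases Affine.Y_eq_of_X_eq h₁.1 h₂.1 rfl with hy | hy
    · subst hy
      have hdbl := XOnly.x_add_self W hadd
      have key : (1 : F) = x₁⁻¹ * (x₃ * (4 + W.b₂ * x₁⁻¹ + 2 * W.b₄ * x₁⁻¹ ^ 2 + W.b₆ * x₁⁻¹ ^ 3)
          + W.b₄ * x₁⁻¹ + 2 * W.b₆ * x₁⁻¹ ^ 2 + W.b₈ * x₁⁻¹ ^ 3) := by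
        field_simp
        linear_combination (-1 : F) * hdbl
      rw [key, mul_comm]
      refine mul_mem_nonunits A ?_ hu₁
      refine A.add_mem _ _ (A.add_mem _ _ (A.add_mem _ _ (A.mul_mem _ _ hx₃ ?_) ?_) ?_) ?_
      · exact A.add_mem _ _ (A.add_mem _ _ (A.add_mem _ _ h4A (A.mul_mem _ _ hb₂ hu₁A))
          (A.mul_mem _ _ (A.mul_mem _ _ h2A hb₄) (pow_mem hu₁A 2)))
          (A.mul_mem _ _ hb₆ (pow_mem hu₁A 3))
      · exact A.mul_mem _ _ hb₄ hu₁A
      · exact A.mul_mem _ _ (A.mul_mem _ _ h2A hb₆) (pow_mem hu₁A 2)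
      · exact A.mul_mem _ _ hb₈ (pow_mem hu₁A 3)
    · exfalso
      rw [Affine.Point.add_of_Y_eq rfl hy] at hadd
      exact Affine.Point.some_ne_zero h₃ hadd.symm
  · obtain ⟨x₃', y₃', x₄, y₄, h₃', h₄, hadd', hsub, hprod, hsum⟩ :=
      XOnly.add_sub_x_formulas W h₁ h₂ hx
    rw [hadd] at hadd'
    obtain ⟨rfl, rfl⟩ := Affine.Point.some.inj hadd'
    have key : (1 : F) =
        x₃ * (2 * (x₁⁻¹ + x₂⁻¹) + W.b₂ * x₁⁻¹ * x₂⁻¹ + W.b₄ * x₁⁻¹ * x₂⁻¹ * (x₁⁻¹ + x₂⁻¹)
          + W.b₆ * x₁⁻¹ ^ 2 * x₂⁻¹ ^ 2)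
        - x₃ ^ 2 * (x₁⁻¹ - x₂⁻¹) ^ 2 + W.b₄ * x₁⁻¹ * x₂⁻¹
        + W.b₆ * x₁⁻¹ * x₂⁻¹ * (x₁⁻¹ + x₂⁻¹) + W.b₈ * x₁⁻¹ ^ 2 * x₂⁻¹ ^ 2 := by
      field_simp
      linear_combination (-1 : F) * hprod + x₃ * hsum
    rw [key]
    have hs : x₁⁻¹ + x₂⁻¹ ∈ A.nonunits := add_mem_nonunits A hu₁ hu₂
    have hsA : x₁⁻¹ + x₂⁻¹ ∈ A := A.nonunits_subset hs
    have hd : x₁⁻¹ - x₂⁻¹ ∈ A.nonunits := by
      rw [sub_eq_add_neg]
      exact add_mem_nonunits A hu₁ (by rw [A.mem_nonunits_iff, Valuation.map_neg]; exact A.mem_nonunits_iff.1 hu₂)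
    have hm : ∀ {a b : F}, a ∈ A.nonunits → b ∈ A → a * b ∈ A.nonunits := fun ha hb => by
      rw [mul_comm]; exact mul_mem_nonunits A hb ha
    refine add_mem_nonunits A (add_mem_nonunits A (add_mem_nonunits A ?_ ?_) ?_) ?_
    · rw [sub_eq_add_neg]
      refine add_mem_nonunits A ?_ ?_
      · refine mul_mem_nonunits A hx₃ ?_
        refine add_mem_nonunits A (add_mem_nonunits A (add_mem_nonunits A ?_ ?_) ?_) ?_
        · exact mul_mem_nonunits A h2A hs
        · exact mul_mem_nonunits A (A.mul_mem _ _ hb₂ hu₁A) hu₂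
        · exact mul_mem_nonunits A (A.mul_mem _ _ (A.mul_mem _ _ hb₄ hu₁A) hu₂A) hs
        · exact mul_mem_nonunits A (A.mul_mem _ _ hb₆ (pow_mem hu₁A 2)) (by
            rw [pow_two]; exact mul_mem_nonunits A hu₂A hu₂)
      · rw [A.mem_nonunits_iff, Valuation.map_neg, ← A.mem_nonunits_iff]
        exact mul_mem_nonunits A (pow_mem hx₃ 2) (by
          rw [pow_two]; exact mul_mem_nonunits A (A.nonunits_subset hd) hd)
    · exact mul_mem_nonunits A (A.mul_mem _ _ hb₄ hu₁A) hu₂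
    · exact mul_mem_nonunits A (A.mul_mem _ _ (A.mul_mem _ _ hb₆ hu₁A) hu₂A) hs
    · exact mul_mem_nonunits A (A.mul_mem _ _ hb₈ (pow_mem hu₁A 2)) (by
        rw [pow_two]; exact mul_mem_nonunits A hu₂A hu₂)

/-- `E₁` is closed under addition. -/
theorem inKer_add (hb₂ : W.b₂ ∈ A) (hb₄ : W.b₄ ∈ A) (hb₆ : W.b₆ ∈ A) (hb₈ : W.b₈ ∈ A)
    {P Q : W.toAffine.Point} (hP : InKer A W P) (hQ : InKer A W Q) : InKer A W (P + Q) := by
  rcases hP with rfl | hxP
  · rwa [zero_add]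
  rcases hQ with rfl | hxQ
  · rw [add_zero]; exact Or.inr hxP
  by_cases h0 : P + Q = 0
  · exact Or.inl h0
  right
  cases P with
  | zero => exact absurd A.zero_mem hxP
  | some x₁ y₁ h₁ =>
    cases Q with
    | zero => exact absurd A.zero_mem hxQ
    | some x₂ y₂ h₂ =>
      cases hPQ : (Affine.Point.some x₁ y₁ h₁ + Affine.Point.some x₂ y₂ h₂) with
      | zero => exact absurd hPQ h0
      | some x₃ y₃ h₃ =>
        exact x_notMem_of_add_eq_some A W hb₂ hb₄ hb₆ hb₈ h₁ h₂ h₃ hxP hxQ hPQ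

theorem inKer_sub (hb₂ : W.b₂ ∈ A) (hb₄ : W.b₄ ∈ A) (hb₆ : W.b₆ ∈ A) (hb₈ : W.b₈ ∈ A)
    {P Q : W.toAffine.Point} (hP : InKer A W P) (hQ : InKer A W Q) : InKer A W (P - Q) := by
  rw [sub_eq_add_neg]
  exact inKer_add A W hb₂ hb₄ hb₆ hb₈ hP (inKer_neg A W hQ)

/-- `E₁` is closed under multiples. -/
theorem inKer_nsmul (hb₂ : W.b₂ ∈ A) (hb₄ : W.b₄ ∈ A) (hb₆ : W.b₆ ∈ A) (hb₈ : W.b₈ ∈ A)
    {P : W.toAffine.Point} (hP : InKer A W P) (k : ℕ) : InKer A W (k • P) := by
  induction k with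
  | zero => rw [zero_nsmul]; exact inKer_zero A W
  | succ k ih => rw [succ_nsmul]; exact inKer_add A W hb₂ hb₄ hb₆ hb₈ ih hP

end Ker

section Div

variable {L : Type*} [Field L]

/-- A nonempty product of elements of the maximal ideal lies in the maximal ideal. -/
theorem prod_mem_nonunits (A : ValuationSubring L) (U : Finset L) (hU : U.Nonempty)
    (h : ∀ u ∈ U, u ∈ A.nonunits) : ∏ u ∈ U, u ∈ A.nonunits := by
  classical
  induction hU using Finset.Nonempty.cons_induction with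
  | singleton a => simpa using h a (Finset.mem_singleton_self a)
  | cons a s ha hs ih =>
    rw [Finset.prod_cons]
    exact mul_mem_nonunits A (A.nonunits_subset (h a (Finset.mem_cons_self a s)))
      (ih fun u hu => h u (Finset.mem_cons.2 (Or.inr hu)))

/-- If a map permutes (maps into itself) the finite set `S` of points compatibly with a field
automorphism `σ` on `x`-coordinates, then `σ` fixes the product of the `1 / x(T)`, `T ∈ S`. -/
theorem prod_inv_xc_fixed [DecidableEq L] (W : WeierstrassCurve L) (σ : L ≃+* L)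
    (S : Finset W.toAffine.Point) (m : W.toAffine.Point → W.toAffine.Point)
    (hm : ∀ P ∈ S, m P ∈ S) (hx : ∀ P ∈ S, xc W (m P) = σ (xc W P)) :
    σ (∏ u ∈ S.image (fun P => (xc W P)⁻¹), u) = ∏ u ∈ S.image (fun P => (xc W P)⁻¹), u := by
  set U := S.image (fun P => (xc W P)⁻¹) with hU
  have hsub : U.image σ ⊆ U := by
    intro v hv
    obtain ⟨u, hu, rfl⟩ := Finset.mem_image.1 hv
    obtain ⟨P, hP, rfl⟩ := Finset.mem_image.1 hu
    rw [map_inv₀, ← hx P hP]
    exact Finset.mem_image.2 ⟨m P, hm P hP, rfl⟩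
  have hcard : U.card ≤ (U.image σ).card := by
    rw [Finset.card_image_of_injective _ σ.injective]
  have heq : U.image σ = U := Finset.eq_of_subset_of_card_le hsub hcard
  rw [map_prod]
  conv_rhs => rw [← heq]
  rw [Finset.prod_image (fun a _ b _ hab => σ.injective hab)]

variable [Algebra ℚ L] [Algebra.IsAlgebraic ℚ L] [DecidableEq L]
  (A : ValuationSubring L) (W : WeierstrassCurve L)

/-- **Step (D).**  Let `S` be a finite nonempty set of nonzero `p`-torsion points in the kernel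
of reduction, stable under negation, such that the product of the `1 / x(T)`, `T ∈ S`, is a
rational number.  If the divisibility bound holds, then every nonzero `p`-torsion point in the
kernel of reduction belongs to `S`. -/
theorem mem_of_inKer {p : ℕ} (hp : p.Prime) (hA : (p : L) ∈ A.nonunits)
    (hdiv : ∀ s : Finset L, (∀ u ∈ s, ∃ x y, ∃ h : W.toAffine.Nonsingular x y,
      x ∉ A ∧ p • Affine.Point.some x y h = 0 ∧ u = x⁻¹) → ∃ c ∈ A, (p : L) = c * ∏ u ∈ s, u)
    (S : Finset W.toAffine.Point) (hS : S.Nonempty)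
    (hS0 : ∀ P ∈ S, P ≠ 0) (hSt : ∀ P ∈ S, p • P = 0) (hSk : ∀ P ∈ S, InKer A W P)
    (hSneg : ∀ P ∈ S, -P ∈ S)
    (hrat : (∏ u ∈ S.image (fun P => (xc W P)⁻¹), u) ∈ Set.range (algebraMap ℚ L))
    {T : W.toAffine.Point} (hT0 : T ≠ 0) (hTt : p • T = 0) (hTk : InKer A W T) : T ∈ S := by
  by_contra hTS
  have hp0 : (p : L) ≠ 0 := QVal.natCast_ne_zero hp
  cases T with
  | zero => exact hT0 rfl
  | some x y h =>
    have hx : x ∉ A := (inKer_some_iff A W h).1 hTk
    set U := S.image (fun P => (xc W P)⁻¹) with hUdef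
    have hU : ∀ u ∈ U, ∃ x y, ∃ h : W.toAffine.Nonsingular x y,
        x ∉ A ∧ p • Affine.Point.some x y h = 0 ∧ u = x⁻¹ := by
      intro u hu
      obtain ⟨P, hP, rfl⟩ := Finset.mem_image.1 hu
      cases P with
      | zero => exact absurd rfl (hS0 _ hP)
      | some x' y' h' => exact ⟨x', y', h', (inKer_some_iff A W h').1 (hSk _ hP), hSt _ hP, rfl⟩
    have hnot : x⁻¹ ∉ U := by
      intro hmem
      obtain ⟨P, hP, hPx⟩ := Finset.mem_image.1 hmem
      cases P with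
      | zero => exact absurd rfl (hS0 _ hP)
      | some x' y' h' =>
        have hxx : x' = x := inv_injective hPx
        rcases XOnly.some_eq_or_eq_neg_of_x_eq W h' h hxx with heq | heq
        · exact hTS (heq ▸ hP)
        · exact hTS (heq ▸ hSneg _ hP)
    obtain ⟨c, hc, hpc⟩ := hdiv (insert x⁻¹ U) (by
      intro u hu
      rcases Finset.mem_insert.1 hu with rfl | hu
      · exact ⟨x, y, h, hx, hTt, rfl⟩
      · exact hU u hu)
    rw [Finset.prod_insert hnot] at hpc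
    obtain ⟨r, hr⟩ := hrat
    have hUne : U.Nonempty := hS.image _
    have hUm : ∏ u ∈ U, u ∈ A.nonunits := prod_mem_nonunits A U hUne (fun u hu => by
      obtain ⟨x', y', h', hx', -, rfl⟩ := hU u hu
      exact inv_mem_nonunits_of_notMem A hx')
    have hc0 : c ≠ 0 := by
      rintro rfl
      rw [zero_mul] at hpc
      exact hp0 hpc
    have hxU0 : x⁻¹ * ∏ u ∈ U, u ≠ 0 := by
      intro h0
      rw [h0, mul_zero] at hpc
      exact hp0 hpc
    have hxi0 : x⁻¹ ≠ 0 := left_ne_zero_of_mul hxU0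
    have hP0 : ∏ u ∈ U, u ≠ 0 := right_ne_zero_of_mul hxU0
    have hr0 : r ≠ 0 := by
      rintro rfl
      rw [map_zero] at hr
      exact hP0 hr.symm
    have h1 : wval A p (p : L) = 1 := wval_q A hp hA
    have h2 : wval A p (p : L) = wval A p c + (wval A p x⁻¹ + wval A p (∏ u ∈ U, u)) := by
      conv_lhs => rw [hpc]
      rw [wval_mul A hp hA hc0 hxU0, wval_mul A hp hA hxi0 hP0]
    have h3 : 0 ≤ wval A p c := (wval_nonneg_iff A hp hA hc0).2 hc
    have h4 : 0 < wval A p x⁻¹ := (wval_pos_iff A hp hA hxi0).2 (inv_mem_nonunits_of_notMem A hx)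
    have h5 : 0 < wval A p (∏ u ∈ U, u) := (wval_pos_iff A hp hA hP0).2 hUm
    have h6 : wval A p (∏ u ∈ U, u) = padicValRat p r := by
      rw [← hr]; exact wval_algebraMap_rat A hp hA hr0
    have h7 : (1 : ℚ) ≤ wval A p (∏ u ∈ U, u) := by
      rw [h6] at h5 ⊢
      have : (0 : ℤ) < padicValRat p r := by exact_mod_cast h5
      exact_mod_cast this
    linarith

end Div

end Lp

end Fermat.Agent.S13
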