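/-
S13 / RedP (helper7): the reduction input of the local analysis at `p` for the Frey curve.

For a valuation subring `A` of `AlgebraicClosure ℚ` over the prime `p = P.p`, `σ` in the inertia
group of `A` and a `p`-torsion point `T` of the Frey curve: `σ T - T` lies in the kernel of
reduction `E1 = {O} ∪ {x ∉ A}`.  Both reduction types at `p`:
* `p ∤ abc` (good reduction): `CaseG.map_eq_or_sub_x_notMem` (helper12);
* `p ∣ abc` (multiplicative reduction): `frey_caseM` (helper2) + `torsion_hcase` (helper19) +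
  the pre-G1 inertia step `inertia_sub_mem_ker_of_torsion` (helper22).
-/
import Mathlib
import Fermat.Prelude.Def_FLTPrelim_Ramification
import Fermat.Agent.S05.CaseG
import Fermat.Agent.S05.FoldCase
import Fermat.Agent.S05.KerRedLin
import Fermat.Agent.S05.InertiaPre

set_option autoImplicit false

open WeierstrassCurve WeierstrassCurve.Affine

namespace Fermat.Agent.S13

open Fermat.Agent.S05

local notation "K" => AlgebraicClosure ℚ

namespace RedP

/-- The kernel-of-reduction predicate in the shape used by the consumers. -/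
theorem inE1_iff (A : ValuationSubring K) (W : WeierstrassCurve K) (T : W.toAffine.Point) :
    KerRedLin.InE1 A W T ↔
      T = 0 ∨ ∃ (x y : K) (h : W.toAffine.Nonsingular x y), T = Point.some x y h ∧ x ∉ A := by
  rcases T with _ | ⟨x, y, h⟩
  · exact ⟨fun _ => Or.inl rfl, fun _ => trivial⟩
  · constructor
    · intro hx
      exact Or.inr ⟨x, y, h, rfl, hx⟩
    · rintro (h0 | ⟨x', y', h', heq, hx'⟩)
      · exact absurd h0 (Point.some_ne_zero h)
      · obtain ⟨rfl, rfl⟩ := Point.some.inj heq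
        exact hx'

end RedP

/-- **Reduction at `p`.**  For `A` over `p = P.p`, `σ` in the inertia group of `A` and `T` a
`p`-torsion point of the Frey curve, `σ T - T` is `0` or an affine point with non-integral
`x`-coordinate. -/
theorem inertia_sub_mem_E1 (P : FreyPackage) (A : ValuationSubring K)
    (hA : A.LiesOverPrime P.p) (σ : K ≃ₐ[ℚ] K) (hσ : σ ∈ A.inertiaSubgroupIn ℚ)
    (T : (P.freyCurve⁄K).Point) (hT : P.p • T = 0) :
    σ • T - T = 0 ∨ ∃ (x y : K) (h : (P.freyCurve⁄K).Nonsingular x y),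
      σ • T - T = Point.some x y h ∧ x ∉ A := by
  have := QVal.isAlgebraic_Qbar
  have hq : P.p.Prime := P.pp
  have hq2 : P.p ≠ 2 := by have := P.hp5; omega
  obtain ⟨ha₁, ha₂, ha₃, ha₄, ha₆⟩ := CaseG.freyCurve_coeff_mem P hq hq2 A hA
  set W : WeierstrassCurve K := P.freyCurve.baseChange K with hW
  obtain ⟨hB₂, hB₄, hB₆, hB₈⟩ := KerRedLin.b_mem A W ha₁ ha₂ ha₃ ha₄ ha₆
  have hσA : ∀ z ∈ A, σ.toRingEquiv z - z ∈ A.nonunits :=
    fun z hz => QVal.sub_mem_nonunits_of_mem_inertia A hσ hz
  have hσmem : ∀ z, z ∈ A ↔ σ z ∈ A :=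
    QVal.mem_iff_of_mem_decomposition A (QVal.mem_decomposition_of_mem_inertia A hσ)
  rcases T with _ | ⟨x, y, h⟩
  · left
    show Point.map σ.toAlgHom (0 : (P.freyCurve⁄K).Point) - 0 = 0
    rw [map_zero, sub_zero]
  · have h' : (P.freyCurve⁄K).Nonsingular (σ x) (σ y) :=
      (WeierstrassCurve.Affine.baseChange_nonsingular P.freyCurve σ.toAlgHom.injective ..).mpr h
    have hmap : σ • (Point.some x y h : (P.freyCurve⁄K).Point) = Point.some (σ x) (σ y) h' := rfl
    have hP : P.p • Point.some x y h = 0 := hT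
    rw [hmap]
    -- the conclusion from the coordinate form
    have hfin : ((σ x = x ∧ σ y = y) ∨ ∃ x₃ y₃, ∃ h₃ : W.toAffine.Nonsingular x₃ y₃,
        Point.some (σ x) (σ y) h' - Point.some x y h = Point.some x₃ y₃ h₃ ∧ x₃ ∉ A) →
        (Point.some (σ x) (σ y) h' - Point.some x y h = 0 ∨
          ∃ (x₃ y₃ : K) (h₃ : (P.freyCurve⁄K).Nonsingular x₃ y₃),
            Point.some (σ x) (σ y) h' - Point.some x y h = Point.some x₃ y₃ h₃ ∧ x₃ ∉ A) := by
      rintro (⟨h1, h2⟩ | hr)
      · left
        have h1' : σ x = x := h1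
        have h2' : σ y = y := h2
        have : Point.some (σ x) (σ y) h' = Point.some x y h := by congr
        rw [this, sub_self]
      · exact Or.inr hr
    by_cases hx : x ∈ A
    · by_cases hdvd : ((P.p : ℕ) : ℤ) ∣ P.a * P.b * P.c
      · -- multiplicative reduction
        obtain ⟨e, u, β, n₀, hn₀, hβ0, hβv, hu0, huv, he, hb2, hb4, hb6⟩ :=
          frey_caseM P hq hq2 hdvd
        set φ := algebraMap ℚ K with hφ
        have hWa₁ : W.a₁ = φ P.freyCurve.a₁ := rfl
        have hWa₃ : W.a₃ = φ P.freyCurve.a₃ := rfl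
        have hWb₂ : W.b₂ = φ P.freyCurve.b₂ := WeierstrassCurve.map_b₂ _ _
        have hWb₄ : W.b₄ = φ P.freyCurve.b₄ := WeierstrassCurve.map_b₄ _ _
        have hWb₆ : W.b₆ = φ P.freyCurve.b₆ := WeierstrassCurve.map_b₆ _ _
        have h2 : (2 : K) ∉ A.nonunits := by
          have hnd : ¬ P.p ∣ 2 :=
            fun hd => hq2 ((Nat.prime_dvd_prime_iff_eq hq Nat.prime_two).mp hd)
          have := CaseG.natCast_notMem_nonunits A hq hA hnd
          simpa using this
        have heA : φ e ∈ A := by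
          rcases he with rfl | he
          · rw [map_zero]; exact A.zero_mem
          · exact CaseG.algebraMap_mem A hq hA he.ge
        have huA : φ u ∈ A := CaseG.algebraMap_mem A hq hA huv.ge
        have huA' : φ u ∉ A.nonunits := CaseG.algebraMap_notMem_nonunits A hq hA hu0 huv
        have hβK0 : φ β ≠ 0 := (map_ne_zero _).mpr hβ0
        have hwβ : wval A P.p (φ β) = (P.p : ℚ) * n₀ := by
          rw [wval_algebraMap_rat A hq hA hβ0, hβv]
          push_cast
          ring
        have hβA : φ β ∈ A.nonunits := by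
          apply (wval_pos_iff A hq hA hβK0).mp
          rw [hwβ]
          have h1 : (0 : ℚ) < P.p := by exact_mod_cast P.hppos
          have h2 : (0 : ℚ) < n₀ := by exact_mod_cast hn₀
          positivity
        have hb₂ : W.b₂ + 12 * φ e = φ u := by
          rw [hWb₂, ← hb2]; simp
        have hb₄ : W.b₄ + φ e * W.b₂ + 6 * φ e ^ 2 = 2 * φ β := by
          have := congrArg φ hb4
          rw [hWb₂, hWb₄]
          simpa using this
        have hb₆ : W.b₆ + 2 * φ e * W.b₄ + φ e ^ 2 * W.b₂ + 4 * φ e ^ 3 = 0 := by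
          have := congrArg φ hb6
          rw [hWb₂, hWb₄, hWb₆]
          simpa using this
        have hσφ : ∀ r : ℚ, σ.toRingEquiv (φ r) = φ r := fun r => σ.commutes r
        have hcase := torsion_hcase A hq hA hq2 W huA huA' hβK0 P.p n₀ P.hp_odd hn₀ hwβ
          hb₂ hb₄ hb₆ h hP σ.toRingEquiv
        exact hfin (inertia_sub_mem_ker_of_torsion A W ha₁ ha₂ ha₃ ha₄ ha₆ h2 heA huA huA' hβA
          hb₂ hb₄ hb₆ σ.toRingEquiv hσA (by rw [hWa₁]; exact hσφ _) (by rw [hWa₃]; exact hσφ _)
          (hσφ e) (fun z hz => (hσmem z).mpr hz) P.hp_odd h h' hP (fun _ => hcase))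
      · -- good reduction
        have hΔ := CaseG.freyCurve_Δ_notMem_nonunits P hq hq2 hdvd A hA
        exact hfin (CaseG.map_eq_or_sub_x_notMem A W ha₁ ha₂ ha₃ ha₄ ha₆ hΔ σ.toRingEquiv hσA
          h h' hx)
    · -- `T` itself lies in the kernel of reduction
      have hx' : σ x ∉ A := fun hmem => hx ((hσmem x).mpr hmem)
      have h1 : KerRedLin.InE1 A W (Point.some (σ x) (σ y) h' - Point.some x y h) :=
        KerRedLin.inE1_sub A W hB₂ hB₄ hB₆ hB₈ (P := Point.some (σ x) (σ y) h')
          (Q := Point.some x y h) hx' hx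
      exact (RedP.inE1_iff A W _).mp h1

/-- `inertia_sub_mem_E1` in terms of the kernel-of-reduction predicate `KerRedLin.InE1`
(`InE1 A W 0 ↔ True`, `InE1 A W (some x y h) ↔ x ∉ A`). -/
theorem inertia_sub_inE1 (P : FreyPackage) (A : ValuationSubring K)
    (hA : A.LiesOverPrime P.p) (σ : K ≃ₐ[ℚ] K) (hσ : σ ∈ A.inertiaSubgroupIn ℚ)
    (T : (P.freyCurve⁄K).Point) (hT : P.p • T = 0) :
    KerRedLin.InE1 A (P.freyCurve.baseChange K) (σ • T - T) :=
  (RedP.inE1_iff A (P.freyCurve.baseChange K) _).mpr (inertia_sub_mem_E1 P A hA σ hσ T hT)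

/-- The same for elements of the `p`-torsion module `V = E[p]` of the frozen statements:
inertia at `p` acts trivially on `V / (V ∩ E1)`. -/
theorem inertia_sub_inE1_torsionBy (P : FreyPackage) (A : ValuationSubring K)
    (hA : A.LiesOverPrime P.p) (σ : K ≃ₐ[ℚ] K) (hσ : σ ∈ A.inertiaSubgroupIn ℚ)
    (x : Submodule.torsionBy ℤ (P.freyCurve⁄K).Point P.p) :
    KerRedLin.InE1 A (P.freyCurve.baseChange K)
      ((σ • x - x : Submodule.torsionBy ℤ (P.freyCurve⁄K).Point P.p) : (P.freyCurve⁄K).Point) := by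
  have hx := x.2
  rw [Submodule.mem_torsionBy_iff, natCast_zsmul] at hx
  exact inertia_sub_inE1 P A hA σ hσ x.1 hx

end Fermat.Agent.S13
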