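/-
S13 / Lp (helper21): the local analysis at `p` for the Frey curve.

`lp`: for a Galois-stable line `N` in `V = E[p](Q̄)` there is a place `A` over `p` whose inertia
group acts trivially on `N` or on `V / N`.

Proof: `E₁` := kernel of reduction at `A`.  By `inertia_sub_mem_E1` (helper7, `RedP.lean`),
`σ T - T ∈ E₁` for all inertia elements `σ` and all `T ∈ V`.  If `N ∩ E₁ = 0`, inertia fixes `N`
pointwise.  Otherwise `N ⊆ E₁` (`N` is cyclic of order `p`), and the divisibility bound
(helper6, `DivBound.lean`) together with the rationality of the `G_ℚ`-invariant product of the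
`1 / x(T)`, `T ∈ N - 0`, gives `V ∩ E₁ ⊆ N`; hence `σ T - T ∈ N` for all `T ∈ V`.
-/
import Mathlib
import Fermat.Prelude.Def_FLTPrelim_Ramification
import Fermat.Prelude.Def_FLTPrelim_CofixedLine
import Fermat.Agent.S54_Frob
import Fermat.Agent.S05.QValGal
import Fermat.Agent.S05.CaseG
import Fermat.Agent.S13.LpAbs
import Fermat.Agent.S13.DivBound
import Fermat.Agent.S13.RedP

set_option autoImplicit false

open WeierstrassCurve WeierstrassCurve.Affine WeierstrassCurve.Affine.Point

namespace Fermat.Agent.S13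

open Fermat.Agent.S05 Fermat.Agent.S05.KerRedX

namespace Lp

local notation "K" => AlgebraicClosure ℚ

/-- The coercion of the Galois action on the torsion subgroup. -/
theorem coe_smul_torsion (P : FreyPackage) (σ : K ≃ₐ[ℚ] K)
    (x : Submodule.torsionBy ℤ (P.freyCurve⁄K).Point P.p) :
    ((σ • x : Submodule.torsionBy ℤ (P.freyCurve⁄K).Point P.p) : (P.freyCurve⁄K).Point)
      = σ • (x : (P.freyCurve⁄K).Point) := rfl

theorem nsmul_coe_torsion (P : FreyPackage)
    (x : Submodule.torsionBy ℤ (P.freyCurve⁄K).Point P.p) :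
    P.p • (x : (P.freyCurve⁄K).Point) = 0 := by
  have hx := x.2
  rw [Submodule.mem_torsionBy_iff] at hx
  rwa [natCast_zsmul] at hx

theorem xc_smul (P : FreyPackage) (σ : K ≃ₐ[ℚ] K) (T : (P.freyCurve⁄K).Point) :
    xc (P.freyCurve⁄K) (σ • T) = σ (xc (P.freyCurve⁄K) T) := by
  rcases T with _ | ⟨x, y, h⟩
  · exact (map_zero σ).symm
  · rfl

/-- Step (K) in terms of `InKer`. -/
theorem inKer_smul_sub (P : FreyPackage) (A : ValuationSubring K) (hA : A.LiesOverPrime P.p)
    (σ : K ≃ₐ[ℚ] K) (hσ : σ ∈ A.inertiaSubgroupIn ℚ)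
    (x : Submodule.torsionBy ℤ (P.freyCurve⁄K).Point P.p) :
    InKer A (P.freyCurve⁄K) ((σ • x - x : Submodule.torsionBy ℤ (P.freyCurve⁄K).Point P.p) :
      (P.freyCurve⁄K).Point) := by
  rw [Submodule.coe_sub, coe_smul_torsion]
  rcases inertia_sub_mem_E1 P A hA σ hσ (x : (P.freyCurve⁄K).Point) (nsmul_coe_torsion P x) with
    h0 | ⟨a, b, h, heq, ha⟩
  · rw [h0]; exact inKer_zero A _
  · rw [heq]; exact (inKer_some_iff A _ h).2 ha

end Lp

open Lp

/-- **Local analysis at `p`.**  For a Galois-stable line `N` of the `p`-torsion of the Frey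
curve there is a place over `p` whose inertia group acts trivially on `N` or on the quotient
by `N`. -/
theorem lp (P : FreyPackage)
    (hcard : Nat.card (Submodule.torsionBy ℤ (P.freyCurve⁄(AlgebraicClosure ℚ)).Point P.p)
      = P.p ^ 2)
    (N : Submodule (ZMod P.p)
      (Submodule.torsionBy ℤ (P.freyCurve⁄(AlgebraicClosure ℚ)).Point P.p))
    (hN : IsGaloisStable ℚ N) (h0 : N ≠ ⊥) (h1 : N ≠ ⊤) :
    ∃ A : ValuationSubring (AlgebraicClosure ℚ), A.LiesOverPrime P.p ∧
      ((∀ σ ∈ A.inertiaSubgroupIn ℚ, ∀ x ∈ N, σ • x = x) ∨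
        (∀ σ ∈ A.inertiaSubgroupIn ℚ,
          ∀ x : Submodule.torsionBy ℤ (P.freyCurve⁄(AlgebraicClosure ℚ)).Point P.p,
            σ • x - x ∈ N)) := by
  have : Algebra.IsAlgebraic ℚ (AlgebraicClosure ℚ) := QVal.isAlgebraic_Qbar
  obtain ⟨A, hA⟩ := Fermat.Agent.S54.exists_liesOverPrime (L := AlgebraicClosure ℚ) P.pp
  refine ⟨A, hA, ?_⟩
  have hp2 : P.p ≠ 2 := by have := P.hp5; omega
  have hpp : P.p.Prime := P.pp
  obtain ⟨hc₁, hc₂, hc₃, hc₄, hc₆⟩ := CaseG.freyCurve_coeff_mem P hpp hp2 A hA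
  set W : WeierstrassCurve (AlgebraicClosure ℚ) := P.freyCurve⁄(AlgebraicClosure ℚ) with hW
  have hb₂ := b₂_mem W A hc₁ hc₂
  have hb₄ := b₄_mem W A hc₁ hc₃ hc₄
  have hb₆ := b₆_mem W A hc₃ hc₆
  have hb₈ := b₈_mem W A hc₁ hc₂ hc₃ hc₄ hc₆
  have hfin : Finite (Submodule.torsionBy ℤ W.toAffine.Point P.p) :=
    Nat.finite_of_card_ne_zero (by rw [hcard]; exact pow_ne_zero _ P.hp0)
  -- `N` has `p` elements
  have hNcard : Nat.card N = P.p := by
    have hdvd : Nat.card N ∣ P.p ^ 2 := by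
      rw [← hcard]
      exact AddSubgroup.card_addSubgroup_dvd_card N.toAddSubgroup
    obtain ⟨m, hm, hmeq⟩ := (Nat.dvd_prime_pow hpp).1 hdvd
    interval_cases m
    · exfalso
      apply h0
      rw [pow_zero] at hmeq
      have hsub : Subsingleton N := (Nat.card_eq_one_iff_unique.1 hmeq).1
      rw [Submodule.eq_bot_iff]
      intro x hx
      have := Subsingleton.elim (⟨x, hx⟩ : N) 0
      exact congrArg Subtype.val this
    · rw [pow_one] at hmeq; exact hmeq
    · exfalso
      apply h1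
      have htop : N.toAddSubgroup = ⊤ :=
        AddSubgroup.eq_top_of_card_eq N.toAddSubgroup (hmeq.trans hcard.symm)
      rw [Submodule.eq_top_iff']
      intro x
      have : x ∈ N.toAddSubgroup := by rw [htop]; exact AddSubgroup.mem_top x
      exact this
  by_cases hex : ∃ x ∈ N, x ≠ 0 ∧ InKer A W (x : W.toAffine.Point)
  · -- `N ⊆ E₁`
    right
    obtain ⟨T0, hT0N, hT00, hT0k⟩ := hex
    have : Fact P.p.Prime := ⟨hpp⟩
    -- every element of `N` is a multiple of `T0`
    have hgen : ∀ x ∈ N, ∃ k : ℕ, x = k • T0 := by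
      intro x hx
      have hT0' : (⟨T0, hT0N⟩ : N) ≠ 0 := fun h => hT00 (congrArg Subtype.val h)
      have hmem : (⟨x, hx⟩ : N) ∈ AddSubmonoid.multiples (⟨T0, hT0N⟩ : N) :=
        mem_multiples_of_prime_card hNcard hT0'
      obtain ⟨k, hk⟩ := (AddSubmonoid.mem_multiples_iff _ _).1 hmem
      exact ⟨k, by simpa using (congrArg Subtype.val hk).symm⟩
    have hNk : ∀ x ∈ N, InKer A W (x : W.toAffine.Point) := by
      intro x hx
      obtain ⟨k, rfl⟩ := hgen x hx
      have hcoe : ((k • T0 : Submodule.torsionBy ℤ W.toAffine.Point P.p) : W.toAffine.Point)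
          = k • (T0 : W.toAffine.Point) := by simp
      rw [hcoe]
      exact inKer_nsmul A W hb₂ hb₄ hb₆ hb₈ hT0k k
    -- the finite set of nonzero points of `N`
    let S : Finset W.toAffine.Point :=
      (Set.toFinite {x : Submodule.torsionBy ℤ W.toAffine.Point P.p | x ∈ N ∧ x ≠ 0}).toFinset.image
        (fun x : Submodule.torsionBy ℤ W.toAffine.Point P.p => (x : W.toAffine.Point))
    have hSmem : ∀ T : W.toAffine.Point, T ∈ S ↔
        ∃ x : Submodule.torsionBy ℤ W.toAffine.Point P.p, x ∈ N ∧ x ≠ 0 ∧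
          (x : W.toAffine.Point) = T := by
      intro T
      simp only [S, Finset.mem_image, Set.Finite.mem_toFinset, Set.mem_ofPred_eq, and_assoc]
    have hkey : ∀ T : W.toAffine.Point, T ≠ 0 → P.p • T = 0 → InKer A W T → T ∈ S := by
      intro T hT0 hTt hTk
      refine mem_of_inKer A W hpp hA
        (fun s hs => DivBound.natCast_eq_mul_prod A W hc₁ hc₂ hc₃ hc₄ hc₆ P.hp_odd s hs) S
        ⟨(T0 : W.toAffine.Point), (hSmem _).2 ⟨T0, hT0N, hT00, rfl⟩⟩ ?_ ?_ ?_ ?_ ?_ hT0 hTt hTk
      · rintro Q hQ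
        obtain ⟨x, -, hx0, rfl⟩ := (hSmem Q).1 hQ
        exact fun h => hx0 (Subtype.ext h)
      · rintro Q hQ
        obtain ⟨x, -, -, rfl⟩ := (hSmem Q).1 hQ
        exact nsmul_coe_torsion P x
      · rintro Q hQ
        obtain ⟨x, hx, -, rfl⟩ := (hSmem Q).1 hQ
        exact hNk x hx
      · rintro Q hQ
        obtain ⟨x, hx, hx0, rfl⟩ := (hSmem Q).1 hQ
        exact (hSmem _).2 ⟨-x, N.neg_mem hx, neg_ne_zero.2 hx0, rfl⟩
      · -- rationality
        rw [InfiniteGalois.mem_range_algebraMap_iff_fixed]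
        intro σ
        refine prod_inv_xc_fixed W σ.toRingEquiv S (fun Q => σ • Q) ?_ ?_
        · rintro Q hQ
          obtain ⟨x, hx, hx0, rfl⟩ := (hSmem Q).1 hQ
          refine (hSmem _).2 ⟨σ • x, hN σ x hx, ?_, rfl⟩
          intro h
          apply hx0
          have := congrArg (fun z => σ⁻¹ • z) h
          simpa using this
        · intro Q _
          exact xc_smul P σ Q
    intro σ hσ x
    have hk := inKer_smul_sub P A hA σ hσ x
    by_cases hy0 : σ • x - x = 0
    · rw [hy0]; exact N.zero_mem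
    · have hyS := hkey ((σ • x - x : Submodule.torsionBy ℤ W.toAffine.Point P.p) :
        W.toAffine.Point) (fun h => hy0 (Subtype.ext h)) (nsmul_coe_torsion P _) hk
      obtain ⟨z, hz, -, hzeq⟩ := (hSmem _).1 hyS
      have : z = σ • x - x := Subtype.ext hzeq
      rw [← this]; exact hz
  · -- `N ∩ E₁ = 0`
    left
    intro σ hσ x hx
    have hy : σ • x - x ∈ N := N.sub_mem (hN σ x hx) hx
    have hk := inKer_smul_sub P A hA σ hσ x
    by_contra hne
    exact hex ⟨σ • x - x, hy, fun h => hne (sub_eq_zero.1 h), hk⟩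

end Fermat.Agent.S13
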