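/-
S13, abstract final assembly.

`Fermat.Agent.S13.hasCofixedLine_of_local`: if the `p`-torsion `V` of the Frey curve over
`AlgebraicClosure ℚ` has `p ^ 2` elements and the local statements `h2a`, `h2b` (at `2`),
`hq` (at odd `q ≠ p`), `hp` (at `p`) hold, together with the global statement `hGl`
(a proper normal subgroup with nonempty interior misses some inertia group), then a reducible
`V` has a Galois-stable cofixed line.

No cyclotomic character is used: with `N` the stable line, `H₁` the pointwise stabiliser of `N`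
and `H₂` the subgroup acting trivially on `V / N`, either `H₂` contains an inertia group at
every prime (then `H₂ = ⊤`), or `H₁` does (then `H₁ = ⊤`, which `h2b` excludes).
-/
import Fermat.Statements.S13
import Fermat.Agent.S54_Frob

set_option autoImplicit false
open WeierstrassCurve WeierstrassCurve.Affine WeierstrassCurve.Affine.Point
open FreyPackage

namespace Fermat.Agent.S13

namespace MainAbs

/-- The set of coordinates of a point (empty for the point at infinity). -/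
def coords {F : Type*} [Field F] {W : Affine F} : W.Point → Set F
  | .zero => ∅
  | .some x y _ => {x, y}

theorem coords_finite {F : Type*} [Field F] {W : Affine F} (T : W.Point) :
    (coords T).Finite := by
  cases T with
  | zero => exact Set.finite_empty
  | some x y h => exact (Set.finite_singleton y).insert x

/-- An automorphism fixing the coordinates of a point fixes the point. -/
theorem smul_eq_self_of_coords (P : FreyPackage)
    (σ : AlgebraicClosure ℚ ≃ₐ[ℚ] AlgebraicClosure ℚ)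
    (T : (P.freyCurve⁄(AlgebraicClosure ℚ)).Point) (hT : ∀ c ∈ coords T, σ c = c) :
    σ • T = T := by
  cases T with
  | zero => rfl
  | some x y h =>
    have hx : σ x = x := hT x (by simp [coords])
    have hy : σ y = y := hT y (by simp [coords])
    show Point.map σ.toAlgHom (Point.some x y h) = Point.some x y h
    rw [Point.map_some]
    simp only [Point.some.injEq]
    exact ⟨hx, hy⟩

/-- The kernel of the Galois action on the `p`-torsion contains a subgroup with nonempty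
interior (it is a finite set of algebraic points). -/
theorem exists_isOpen_fixing (P : FreyPackage)
    [Finite (Submodule.torsionBy ℤ (P.freyCurve⁄(AlgebraicClosure ℚ)).Point P.p)] :
    ∃ U : Subgroup (AlgebraicClosure ℚ ≃ₐ[ℚ] AlgebraicClosure ℚ),
      IsOpen (U : Set (AlgebraicClosure ℚ ≃ₐ[ℚ] AlgebraicClosure ℚ)) ∧
      ∀ σ ∈ U, ∀ x : Submodule.torsionBy ℤ (P.freyCurve⁄(AlgebraicClosure ℚ)).Point P.p,
        σ • x = x := by
  classical
  let S : Set (AlgebraicClosure ℚ) :=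
    ⋃ v : Submodule.torsionBy ℤ (P.freyCurve⁄(AlgebraicClosure ℚ)).Point P.p,
      coords (v : (P.freyCurve⁄(AlgebraicClosure ℚ)).Point)
  have hS : S.Finite := Set.finite_iUnion fun v => coords_finite _
  have : Finite S := hS
  have : Algebra.IsAlgebraic ℚ (AlgebraicClosure ℚ) := IsAlgClosure.isAlgebraic
  have : FiniteDimensional ℚ (IntermediateField.adjoin ℚ S) :=
    IntermediateField.finiteDimensional_adjoin
      (fun x _ => (Algebra.IsAlgebraic.isAlgebraic x).isIntegral)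
  refine ⟨(IntermediateField.adjoin ℚ S).fixingSubgroup,
    IntermediateField.fixingSubgroup_isOpen _, fun σ hσ x => ?_⟩
  apply Subtype.ext
  show σ • (x : (P.freyCurve⁄(AlgebraicClosure ℚ)).Point) = x
  apply smul_eq_self_of_coords
  intro c hc
  have hcS : c ∈ S := Set.mem_iUnion.mpr ⟨x, hc⟩
  exact (IntermediateField.mem_fixingSubgroup_iff _ σ).mp hσ c
    (IntermediateField.subset_adjoin ℚ S hcS)

/-- A normal subgroup with nonempty interior containing an inertia group at every prime is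
everything (given the global input `hGl`). -/
theorem eq_top_of_inertia
    (hGl : ∀ H : Subgroup (AlgebraicClosure ℚ ≃ₐ[ℚ] AlgebraicClosure ℚ), H.Normal →
      IsOpen (H : Set (AlgebraicClosure ℚ ≃ₐ[ℚ] AlgebraicClosure ℚ)) → H ≠ ⊤ →
      ∃ ℓ : ℕ, ℓ.Prime ∧ ∀ A : ValuationSubring (AlgebraicClosure ℚ), A.LiesOverPrime ℓ →
        ∃ σ ∈ A.inertiaSubgroupIn ℚ, σ ∉ H)
    (H : Subgroup (AlgebraicClosure ℚ ≃ₐ[ℚ] AlgebraicClosure ℚ)) (hn : H.Normal)
    (ho : IsOpen (H : Set (AlgebraicClosure ℚ ≃ₐ[ℚ] AlgebraicClosure ℚ)))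
    (hI : ∀ ℓ : ℕ, ℓ.Prime → ∃ A : ValuationSubring (AlgebraicClosure ℚ),
      A.LiesOverPrime ℓ ∧ ∀ σ ∈ A.inertiaSubgroupIn ℚ, σ ∈ H) : H = ⊤ := by
  by_contra hne
  obtain ⟨ℓ, hℓ, hA⟩ := hGl H hn ho hne
  obtain ⟨A, hAℓ, hAH⟩ := hI ℓ hℓ
  obtain ⟨σ, hσ, hσH⟩ := hA A hAℓ
  exact hσH (hAH σ hσ)

end MainAbs

/-- **Abstract final assembly of S13.**  See the file header. -/
theorem hasCofixedLine_of_local (P : FreyPackage)
    (hcard : Nat.card (Submodule.torsionBy ℤ (P.freyCurve⁄(AlgebraicClosure ℚ)).Point P.p)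
      = P.p ^ 2)
    (hGl : ∀ H : Subgroup (AlgebraicClosure ℚ ≃ₐ[ℚ] AlgebraicClosure ℚ), H.Normal →
      IsOpen (H : Set (AlgebraicClosure ℚ ≃ₐ[ℚ] AlgebraicClosure ℚ)) → H ≠ ⊤ →
      ∃ ℓ : ℕ, ℓ.Prime ∧ ∀ A : ValuationSubring (AlgebraicClosure ℚ), A.LiesOverPrime ℓ →
        ∃ σ ∈ A.inertiaSubgroupIn ℚ, σ ∉ H)
    (h2a : ∀ N : Submodule (ZMod P.p)
        (Submodule.torsionBy ℤ (P.freyCurve⁄(AlgebraicClosure ℚ)).Point P.p),
      IsGaloisStable ℚ N → N ≠ ⊥ → N ≠ ⊤ →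
      ∃ A : ValuationSubring (AlgebraicClosure ℚ), A.LiesOverPrime 2 ∧
        ∀ σ ∈ A.inertiaSubgroupIn ℚ, (∀ x ∈ N, σ • x = x) ∧
          (∀ x : Submodule.torsionBy ℤ (P.freyCurve⁄(AlgebraicClosure ℚ)).Point P.p,
            σ • x - x ∈ N))
    (h2b : ∀ N : Submodule (ZMod P.p)
        (Submodule.torsionBy ℤ (P.freyCurve⁄(AlgebraicClosure ℚ)).Point P.p),
      IsGaloisStable ℚ N → N ≠ ⊥ → N ≠ ⊤ →
      ∃ σ : AlgebraicClosure ℚ ≃ₐ[ℚ] AlgebraicClosure ℚ, ∃ x ∈ N, σ • x ≠ x)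
    (hq : ∀ q : ℕ, q.Prime → q ≠ 2 → q ≠ P.p → P.GaloisRepUnramifiedAt q)
    (hp : ∀ N : Submodule (ZMod P.p)
        (Submodule.torsionBy ℤ (P.freyCurve⁄(AlgebraicClosure ℚ)).Point P.p),
      IsGaloisStable ℚ N → N ≠ ⊥ → N ≠ ⊤ →
      ∃ A : ValuationSubring (AlgebraicClosure ℚ), A.LiesOverPrime P.p ∧
        ((∀ σ ∈ A.inertiaSubgroupIn ℚ, ∀ x ∈ N, σ • x = x) ∨
          (∀ σ ∈ A.inertiaSubgroupIn ℚ,
            ∀ x : Submodule.torsionBy ℤ (P.freyCurve⁄(AlgebraicClosure ℚ)).Point P.p,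
              σ • x - x ∈ N)))
    (hred : ¬ GaloisRepIsIrreducible (K := AlgebraicClosure ℚ) ℚ P.freyCurve P.p) :
    HasGaloisStableCofixedLine (K := AlgebraicClosure ℚ) ℚ P.freyCurve P.p := by
  classical
  have hp2 : 2 ≤ P.p := P.pp.two_le
  have hcard1 : 1 < Nat.card
      (Submodule.torsionBy ℤ (P.freyCurve⁄(AlgebraicClosure ℚ)).Point P.p) := by
    rw [hcard]; nlinarith
  have hfin : Finite (Submodule.torsionBy ℤ (P.freyCurve⁄(AlgebraicClosure ℚ)).Point P.p) :=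
    Nat.finite_of_card_ne_zero (by omega)
  have hnt : Nontrivial (Submodule.torsionBy ℤ (P.freyCurve⁄(AlgebraicClosure ℚ)).Point P.p) :=
    Finite.one_lt_card_iff_nontrivial.mp hcard1
  -- the stable line
  obtain ⟨N, hN, hbot, htop⟩ : ∃ N : Submodule (ZMod P.p)
      (Submodule.torsionBy ℤ (P.freyCurve⁄(AlgebraicClosure ℚ)).Point P.p),
      IsGaloisStable ℚ N ∧ N ≠ ⊥ ∧ N ≠ ⊤ := by
    by_contra hcon
    apply hred
    refine ⟨hnt, fun N hN => ?_⟩
    by_contra h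
    rw [not_or] at h
    exact hcon ⟨N, hN, h.1, h.2⟩
  obtain ⟨U, hUo, hU⟩ := MainAbs.exists_isOpen_fixing P
  -- the two subgroups
  let H₁ : Subgroup (AlgebraicClosure ℚ ≃ₐ[ℚ] AlgebraicClosure ℚ) :=
    { carrier := {σ | ∀ x ∈ N, σ • x = x}
      one_mem' := fun x _ => one_smul _ x
      mul_mem' := fun {σ τ} hσ hτ x hx => by
        rw [mul_smul, hτ x hx, hσ x hx]
      inv_mem' := fun {σ} hσ x hx => by
        conv_lhs => rw [← hσ x hx]
        rw [inv_smul_smul] }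
  let H₂ : Subgroup (AlgebraicClosure ℚ ≃ₐ[ℚ] AlgebraicClosure ℚ) :=
    { carrier := {σ | ∀ x, σ • x - x ∈ N}
      one_mem' := fun x => by rw [one_smul, sub_self]; exact N.zero_mem
      mul_mem' := fun {σ τ} hσ hτ x => by
        have h1 : (σ * τ) • x - x = σ • (τ • x - x) + (σ • x - x) := by
          rw [mul_smul, smul_sub]; abel
        rw [h1]
        exact N.add_mem (hN σ _ (hτ x)) (hσ x)
      inv_mem' := fun {σ} hσ x => by
        have h1 : σ⁻¹ • x - x = -(σ⁻¹ • (σ • x - x)) := by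
          rw [smul_sub, inv_smul_smul]; abel
        rw [h1]
        exact N.neg_mem (hN σ⁻¹ _ (hσ x)) }
  have hH₁n : H₁.Normal := ⟨fun σ hσ τ x hx => by
    show (τ * σ * τ⁻¹) • x = x
    rw [mul_smul, mul_smul, hσ _ (hN τ⁻¹ x hx), smul_inv_smul]⟩
  have hH₂n : H₂.Normal := ⟨fun σ hσ τ x => by
    show (τ * σ * τ⁻¹) • x - x ∈ N
    have h1 : (τ * σ * τ⁻¹) • x - x = τ • (σ • (τ⁻¹ • x) - τ⁻¹ • x) := by
      rw [mul_smul, mul_smul, smul_sub, smul_inv_smul]
    rw [h1]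
    exact hN τ _ (hσ _)⟩
  have hUH₁ : U ≤ H₁ := fun σ hσ x _ => hU σ hσ x
  have hUH₂ : U ≤ H₂ := fun σ hσ x => by
    show σ • x - x ∈ N
    rw [hU σ hσ x, sub_self]; exact N.zero_mem
  have hH₁o : IsOpen (H₁ : Set (AlgebraicClosure ℚ ≃ₐ[ℚ] AlgebraicClosure ℚ)) :=
    Subgroup.isOpen_mono hUH₁ hUo
  have hH₂o : IsOpen (H₂ : Set (AlgebraicClosure ℚ ≃ₐ[ℚ] AlgebraicClosure ℚ)) :=
    Subgroup.isOpen_mono hUH₂ hUo
  -- local data
  obtain ⟨A₂, hA₂, hI₂⟩ := h2a N hN hbot htop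
  obtain ⟨Ap, hAp, hIp⟩ := hp N hN hbot htop
  have hodd : ∀ ℓ : ℕ, ℓ.Prime → ℓ ≠ 2 → ℓ ≠ P.p →
      ∃ A : ValuationSubring (AlgebraicClosure ℚ), A.LiesOverPrime ℓ ∧
        ∀ σ ∈ A.inertiaSubgroupIn ℚ,
          ∀ x : Submodule.torsionBy ℤ (P.freyCurve⁄(AlgebraicClosure ℚ)).Point P.p,
            σ • x = x := by
    intro ℓ hℓ h2 hℓp
    obtain ⟨A, hA⟩ := S54.exists_liesOverPrime (L := AlgebraicClosure ℚ) hℓ
    exact ⟨A, hA, fun σ hσ x => hq ℓ hℓ h2 hℓp A hA σ hσ x⟩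
  rcases hIp with hIp | hIp
  · -- inertia at `p` fixes `N` pointwise: then everything does, contradicting `h2b`
    exfalso
    have htop₁ : H₁ = ⊤ := by
      apply MainAbs.eq_top_of_inertia hGl H₁ hH₁n hH₁o
      intro ℓ hℓ
      by_cases h2 : ℓ = 2
      · subst h2
        exact ⟨A₂, hA₂, fun σ hσ => (hI₂ σ hσ).1⟩
      by_cases hℓp : ℓ = P.p
      · subst hℓp
        exact ⟨Ap, hAp, fun σ hσ => hIp σ hσ⟩
      obtain ⟨A, hA, hAI⟩ := hodd ℓ hℓ h2 hℓp
      exact ⟨A, hA, fun σ hσ x _ => hAI σ hσ x⟩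
    obtain ⟨σ, x, hx, hσx⟩ := h2b N hN hbot htop
    have hσ : σ ∈ H₁ := htop₁ ▸ Subgroup.mem_top σ
    exact hσx (hσ x hx)
  · -- inertia at `p` acts trivially on `V / N`: then everything does
    have htop₂ : H₂ = ⊤ := by
      apply MainAbs.eq_top_of_inertia hGl H₂ hH₂n hH₂o
      intro ℓ hℓ
      by_cases h2 : ℓ = 2
      · subst h2
        exact ⟨A₂, hA₂, fun σ hσ => (hI₂ σ hσ).2⟩
      by_cases hℓp : ℓ = P.p
      · subst hℓp
        exact ⟨Ap, hAp, fun σ hσ => hIp σ hσ⟩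
      obtain ⟨A, hA, hAI⟩ := hodd ℓ hℓ h2 hℓp
      refine ⟨A, hA, fun σ hσ x => ?_⟩
      show σ • x - x ∈ N
      rw [hAI σ hσ x, sub_self]; exact N.zero_mem
    refine ⟨N, hN, hbot, htop, fun σ x => ?_⟩
    have hσ : σ ∈ H₂ := htop₂ ▸ Subgroup.mem_top σ
    exact hσ x

end Fermat.Agent.S13
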