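/-
S13 / Branch (helper22): the branch chord lemma at a node.

Model `y² + a₁ x y = x³ + a₂ x² + a₄ x` over a field with a valuation subring `A`, `a₁, a₂ ∈ A`,
`b₂ = a₁² + 4 a₂` a unit.  Two points `P₁, P₂` with `0 < v(x_i) < v(a₄)` (additively), the same
`v(x)` and congruent `w = y / x` either coincide, or `x(P₁ - P₂)` is not in the maximal ideal.
Any residue characteristic.
-/
import Mathlib

set_option autoImplicit false

open WeierstrassCurve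

namespace Fermat.Agent.S13

namespace Branch

variable {F : Type*} [Field F] (A : ValuationSubring F) (W : WeierstrassCurve F)

lemma vle {x : F} (h : x ∈ A) : A.valuation x ≤ 1 := (A.valuation_le_one_iff x).2 h

lemma vlt {x : F} (h : x ∈ A.nonunits) : A.valuation x < 1 := A.mem_nonunits_iff.1 h

/-- `g(w) = x + a₄ / x` for `w = y / x`. -/
theorem g_w_eq (ha₃ : W.a₃ = 0) (ha₆ : W.a₆ = 0) {x y : F} (h : W.toAffine.Equation x y)
    (hx0 : x ≠ 0) : (y / x) ^ 2 + W.a₁ * (y / x) - W.a₂ = x + W.a₄ / x := by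
  rw [Affine.equation_iff] at h
  have h3 : W.toAffine.a₃ = 0 := ha₃
  have h6 : W.toAffine.a₆ = 0 := ha₆
  rw [h3, h6] at h
  field_simp
  linear_combination h

/-- `w = y / x` is integral. -/
theorem w_mem (ha₁ : W.a₁ ∈ A) (ha₂ : W.a₂ ∈ A) (ha₃ : W.a₃ = 0) (ha₆ : W.a₆ = 0) {x y : F}
    (h : W.toAffine.Equation x y) (hx0 : x ≠ 0) (hx : x ∈ A) (h₄ : W.a₄ / x ∈ A) :
    y / x ∈ A := by
  by_contra hw
  have hw1 : 1 < A.valuation (y / x) :=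
    not_le.1 fun hle => hw ((A.valuation_le_one_iff _).1 hle)
  have hg := g_w_eq W ha₃ ha₆ h hx0
  have hfac : (y / x) * (y / x + W.a₁) = x + W.a₄ / x + W.a₂ := by linear_combination hg
  have hv : A.valuation (y / x + W.a₁) = A.valuation (y / x) :=
    A.valuation.map_add_eq_of_lt_left (lt_of_le_of_lt (vle A ha₁) hw1)
  have hlhs : A.valuation ((y / x) * (y / x + W.a₁)) =
      A.valuation (y / x) * A.valuation (y / x) := by rw [map_mul, hv]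
  have hrhs : A.valuation (x + W.a₄ / x + W.a₂) ≤ 1 :=
    vle A (A.add_mem _ _ (A.add_mem _ _ hx h₄) ha₂)
  rw [hfac] at hlhs
  rw [hlhs] at hrhs
  have h2 : A.valuation (y / x) * 1 ≤ A.valuation (y / x) * A.valuation (y / x) :=
    mul_le_mul_right hw1.le _
  rw [mul_one] at h2
  exact absurd (lt_of_lt_of_le hw1 h2) (not_lt.2 hrhs)

end Branch

open Branch

variable {F : Type*} [Field F] [DecidableEq F] (A : ValuationSubring F) (W : WeierstrassCurve F)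

/-- **Branch chord lemma.** -/
theorem branch_sub_x_notMem (ha₁ : W.a₁ ∈ A) (ha₂ : W.a₂ ∈ A) (ha₃ : W.a₃ = 0) (ha₆ : W.a₆ = 0)
    (hb₂ : W.b₂ ∉ A.nonunits) {x₁ y₁ x₂ y₂ : F} (h₁ : W.toAffine.Nonsingular x₁ y₁)
    (h₂ : W.toAffine.Nonsingular x₂ y₂) (hx₁0 : x₁ ≠ 0) (hx₂0 : x₂ ≠ 0)
    (hx₁ : x₁ ∈ A.nonunits) (hx₂ : x₂ ∈ A.nonunits)
    (h₄₁ : W.a₄ / x₁ ∈ A.nonunits) (h₄₂ : W.a₄ / x₂ ∈ A.nonunits)
    (hv : A.valuation x₁ = A.valuation x₂) (hw : y₁ / x₁ - y₂ / x₂ ∈ A.nonunits) :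
    Affine.Point.some x₁ y₁ h₁ = Affine.Point.some x₂ y₂ h₂ ∨
      ∃ x₃ y₃, ∃ h₃ : W.toAffine.Nonsingular x₃ y₃,
        Affine.Point.some x₁ y₁ h₁ - Affine.Point.some x₂ y₂ h₂ = Affine.Point.some x₃ y₃ h₃ ∧
          x₃ ∉ A.nonunits := by
  have h2A : (2 : F) ∈ A := by
    have : ((2 : ℕ) : F) ∈ A := natCast_mem A 2
    exact_mod_cast this
  have h4A : (4 : F) ∈ A := by
    have : ((4 : ℕ) : F) ∈ A := natCast_mem A 4
    exact_mod_cast this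
  have hx₁A : x₁ ∈ A := A.nonunits_subset hx₁
  have hx₂A : x₂ ∈ A := A.nonunits_subset hx₂
  -- the slopes at the origin
  obtain ⟨w₁, hw₁⟩ : ∃ w₁ : F, w₁ = y₁ / x₁ := ⟨_, rfl⟩
  obtain ⟨w₂, hw₂⟩ : ∃ w₂ : F, w₂ = y₂ / x₂ := ⟨_, rfl⟩
  have hy₁ : y₁ = w₁ * x₁ := by rw [hw₁, div_mul_cancel₀ _ hx₁0]
  have hy₂ : y₂ = w₂ * x₂ := by rw [hw₂, div_mul_cancel₀ _ hx₂0]
  have hw₁A : w₁ ∈ A := by
    rw [hw₁]; exact w_mem A W ha₁ ha₂ ha₃ ha₆ h₁.1 hx₁0 hx₁A (A.nonunits_subset h₄₁)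
  have hw₂A : w₂ ∈ A := by
    rw [hw₂]; exact w_mem A W ha₁ ha₂ ha₃ ha₆ h₂.1 hx₂0 hx₂A (A.nonunits_subset h₄₂)
  have hg₁ : w₁ ^ 2 + W.a₁ * w₁ - W.a₂ = x₁ + W.a₄ / x₁ := by
    rw [hw₁]; exact g_w_eq W ha₃ ha₆ h₁.1 hx₁0
  have hg₂ : w₂ ^ 2 + W.a₁ * w₂ - W.a₂ = x₂ + W.a₄ / x₂ := by
    rw [hw₂]; exact g_w_eq W ha₃ ha₆ h₂.1 hx₂0
  have hvg₁ : A.valuation (w₁ ^ 2 + W.a₁ * w₁ - W.a₂) < 1 := by
    rw [hg₁]; exact A.valuation.map_add_lt (vlt A hx₁) (vlt A h₄₁)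
  have hvg₂ : A.valuation (w₂ ^ 2 + W.a₁ * w₂ - W.a₂) < 1 := by
    rw [hg₂]; exact A.valuation.map_add_lt (vlt A hx₂) (vlt A h₄₂)
  have hww : A.valuation (w₁ - w₂) < 1 := by rw [hw₁, hw₂]; exact vlt A hw
  have hb₂A : W.b₂ ∈ A := by
    rw [WeierstrassCurve.b₂]
    exact A.add_mem _ _ (pow_mem ha₁ 2) (A.mul_mem _ _ h4A ha₂)
  have hvb₂ : A.valuation W.b₂ = 1 :=
    le_antisymm (vle A hb₂A) (not_lt.1 fun hlt => hb₂ (A.mem_nonunits_iff.2 hlt))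
  have hmulA : ∀ {m a : F}, A.valuation m < 1 → a ∈ A → A.valuation (m * a) < 1 := by
    intro m a hm ha
    rw [map_mul]
    calc A.valuation m * A.valuation a ≤ A.valuation m * 1 := mul_le_mul_right (vle A ha) _
      _ = A.valuation m := mul_one _
      _ < 1 := hm
  by_cases hx : x₁ = x₂
  · left
    rcases Affine.Y_eq_of_X_eq h₁.1 h₂.1 hx with hy | hy
    · subst hx; subst hy; rfl
    · exfalso
      -- `w₁ = -w₂ - a₁`, so `2 w₂ + a₁ ∈ 𝔪` and `b₂ ∈ 𝔪`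
      have h3 : W.toAffine.a₃ = 0 := ha₃
      have hw12 : w₁ = -w₂ - W.a₁ := by
        have hy' : y₁ = -y₂ - W.a₁ * x₂ := by
          rw [hy, Affine.negY, h3]; ring
        rw [hw₁, hy', ← hx, hy₂, ← hx]
        field_simp
      have h1 : A.valuation (2 * w₂ + W.a₁) < 1 := by
        have : 2 * w₂ + W.a₁ = -(w₁ - w₂) := by rw [hw12]; ring
        rw [this, Valuation.map_neg]; exact hww
      have hb : W.b₂ = (2 * w₂ + W.a₁) * (2 * w₂ + W.a₁)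
          - (w₂ ^ 2 + W.a₁ * w₂ - W.a₂) * 4 := by
        rw [WeierstrassCurve.b₂]; ring
      have : A.valuation W.b₂ < 1 := by
        rw [hb]
        exact A.valuation.map_sub_lt
          (hmulA h1 (A.add_mem _ _ (A.mul_mem _ _ h2A hw₂A) ha₁)) (hmulA hvg₂ h4A)
      rw [hvb₂] at this
      exact lt_irrefl _ this
  · right
    have hneg : -(Affine.Point.some x₂ y₂ h₂) =
        Affine.Point.some x₂ (W.toAffine.negY x₂ y₂) ((Affine.nonsingular_neg ..).mpr h₂) :=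
      Affine.Point.neg_some h₂
    rw [sub_eq_add_neg, hneg, Affine.Point.add_of_X_ne hx]
    refine ⟨_, _, _, rfl, ?_⟩
    rw [Affine.slope_of_X_ne hx, Affine.addX]
    have hd0 : x₁ - x₂ ≠ 0 := sub_ne_zero.2 hx
    have h3 : W.toAffine.a₃ = 0 := ha₃
    -- the key identity
    have hnum : y₁ - W.toAffine.negY x₂ y₂ = w₁ * x₁ + (w₂ + W.a₁) * x₂ := by
      rw [Affine.negY, h3, hy₁, hy₂]; ring
    obtain ⟨l, hl⟩ : ∃ l : F, l = (y₁ - W.toAffine.negY x₂ y₂) / (x₁ - x₂) := ⟨_, rfl⟩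
    rw [← hl]
    have hld : l * (x₁ - x₂) = w₁ * x₁ + (w₂ + W.a₁) * x₂ := by
      rw [hl, div_mul_cancel₀ _ hd0, hnum]
    have hkey : (l ^ 2 + W.a₁ * l - W.a₂) * (x₁ - x₂) ^ 2 =
        x₁ ^ 2 * (w₁ ^ 2 + W.a₁ * w₁ - W.a₂) + x₂ ^ 2 * (w₂ ^ 2 + W.a₁ * w₂ - W.a₂)
          + x₁ * x₂ * (2 * w₁ * w₂ + W.a₁ * (w₁ + w₂) + W.a₁ ^ 2 + 2 * W.a₂) := by
      linear_combination (l * (x₁ - x₂) + (w₁ * x₁ + (w₂ + W.a₁) * x₂) + W.a₁ * (x₁ - x₂)) * hld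
    -- `Bp ≡ b₂` is a unit
    have hBp : A.valuation (2 * w₁ * w₂ + W.a₁ * (w₁ + w₂) + W.a₁ ^ 2 + 2 * W.a₂) = 1 := by
      have : 2 * w₁ * w₂ + W.a₁ * (w₁ + w₂) + W.a₁ ^ 2 + 2 * W.a₂ =
          W.b₂ + ((w₂ ^ 2 + W.a₁ * w₂ - W.a₂) * 2 + (w₁ - w₂) * (2 * w₂ + W.a₁)) := by
        rw [WeierstrassCurve.b₂]; ring
      rw [this, A.valuation.map_add_eq_of_lt_left, hvb₂]
      rw [hvb₂]
      exact A.valuation.map_add_lt (hmulA hvg₂ h2A)
        (hmulA hww (A.add_mem _ _ (A.mul_mem _ _ h2A hw₂A) ha₁))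
    have hvx₁0 : A.valuation x₁ ≠ 0 := (A.valuation.ne_zero_iff).2 hx₁0
    have hvx₁pos : 0 < A.valuation x₁ := zero_lt_iff.2 hvx₁0
    have hsqpos : 0 < A.valuation x₁ * A.valuation x₁ := mul_pos hvx₁pos hvx₁pos
    -- valuation of the right-hand side is `v(x₁)²`
    have hmain : A.valuation (x₁ * x₂ * (2 * w₁ * w₂ + W.a₁ * (w₁ + w₂) + W.a₁ ^ 2 + 2 * W.a₂))
        = A.valuation x₁ * A.valuation x₁ := by
      rw [map_mul, map_mul, hBp, mul_one, ← hv]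
    have hsmall₁ : A.valuation (x₁ ^ 2 * (w₁ ^ 2 + W.a₁ * w₁ - W.a₂)) <
        A.valuation x₁ * A.valuation x₁ := by
      rw [map_mul, map_pow, pow_two]
      calc A.valuation x₁ * A.valuation x₁ * A.valuation (w₁ ^ 2 + W.a₁ * w₁ - W.a₂)
          < A.valuation x₁ * A.valuation x₁ * 1 := mul_lt_mul_of_pos_left hvg₁ hsqpos
        _ = A.valuation x₁ * A.valuation x₁ := mul_one _
    have hsmall₂ : A.valuation (x₂ ^ 2 * (w₂ ^ 2 + W.a₁ * w₂ - W.a₂)) <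
        A.valuation x₁ * A.valuation x₁ := by
      rw [map_mul, map_pow, pow_two, ← hv]
      calc A.valuation x₁ * A.valuation x₁ * A.valuation (w₂ ^ 2 + W.a₁ * w₂ - W.a₂)
          < A.valuation x₁ * A.valuation x₁ * 1 := mul_lt_mul_of_pos_left hvg₂ hsqpos
        _ = A.valuation x₁ * A.valuation x₁ := mul_one _
    have hrhs : A.valuation ((l ^ 2 + W.a₁ * l - W.a₂) * (x₁ - x₂) ^ 2) =
        A.valuation x₁ * A.valuation x₁ := by
      rw [hkey, A.valuation.map_add_eq_of_lt_right, hmain]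
      rw [hmain]
      exact A.valuation.map_add_lt hsmall₁ hsmall₂
    -- `v(d) ≤ v(x₁)`
    have hvd : A.valuation (x₁ - x₂) ≤ A.valuation x₁ :=
      A.valuation.map_sub_le le_rfl hv.symm.le
    have hvd0 : A.valuation (x₁ - x₂) ≠ 0 := (A.valuation.ne_zero_iff).2 hd0
    have hvdpos : 0 < A.valuation (x₁ - x₂) := zero_lt_iff.2 hvd0
    -- hence `1 ≤ v(g(l))`
    have hgl : 1 ≤ A.valuation (l ^ 2 + W.a₁ * l - W.a₂) := by
      by_contra hcon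
      have hlt : A.valuation (l ^ 2 + W.a₁ * l - W.a₂) < 1 := not_le.1 hcon
      have hd2 : A.valuation ((x₁ - x₂) ^ 2) ≤ A.valuation x₁ * A.valuation x₁ := by
        rw [map_pow, pow_two]
        exact mul_le_mul' hvd hvd
      have hd2pos : 0 < A.valuation ((x₁ - x₂) ^ 2) := by
        rw [map_pow]; exact pow_pos hvdpos 2
      have : A.valuation ((l ^ 2 + W.a₁ * l - W.a₂) * (x₁ - x₂) ^ 2) <
          A.valuation x₁ * A.valuation x₁ := by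
        rw [map_mul]
        calc A.valuation (l ^ 2 + W.a₁ * l - W.a₂) * A.valuation ((x₁ - x₂) ^ 2)
            < 1 * A.valuation ((x₁ - x₂) ^ 2) := mul_lt_mul_of_pos_right hlt hd2pos
          _ = A.valuation ((x₁ - x₂) ^ 2) := one_mul _
          _ ≤ A.valuation x₁ * A.valuation x₁ := hd2
      rw [hrhs] at this
      exact lt_irrefl _ this
    -- conclusion
    have hform : l ^ 2 + W.toAffine.a₁ * l - W.toAffine.a₂ - x₁ - x₂ =
        (l ^ 2 + W.a₁ * l - W.a₂) - (x₁ + x₂) := by ring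
    have hsum : A.valuation (x₁ + x₂) < 1 := A.valuation.map_add_lt (vlt A hx₁) (vlt A hx₂)
    intro hmem
    have hlt := vlt A hmem
    rw [hform, A.valuation.map_sub_eq_of_lt_left (lt_of_lt_of_le hsum hgl)] at hlt
    exact absurd hgl (not_le.2 hlt)

/-- **Branch lemma, inertia form.**  For `σ` acting trivially on the residue field and a point
`T = (x, y)` with `0 < v(x) < v(a₄)` and `v(σ x) = v(x)`: `σ T = T` or `x(σ T - T) ∉ 𝔪`. -/
theorem branch_inertia (ha₁ : W.a₁ ∈ A) (ha₂ : W.a₂ ∈ A) (ha₃ : W.a₃ = 0) (ha₆ : W.a₆ = 0)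
    (hb₂ : W.b₂ ∉ A.nonunits) (σ : F ≃+* F) (hσA : ∀ z ∈ A, σ z - z ∈ A.nonunits)
    {x y : F} (h : W.toAffine.Nonsingular x y) (h' : W.toAffine.Nonsingular (σ x) (σ y))
    (hx0 : x ≠ 0) (hx : x ∈ A.nonunits) (h₄ : W.a₄ / x ∈ A.nonunits)
    (hvσ : A.valuation (σ x) = A.valuation x) :
    (σ x = x ∧ σ y = y) ∨ ∃ x₃ y₃, ∃ h₃ : W.toAffine.Nonsingular x₃ y₃,
      Affine.Point.some (σ x) (σ y) h' - Affine.Point.some x y h =
        Affine.Point.some x₃ y₃ h₃ ∧ x₃ ∉ A.nonunits := by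
  have hσx0 : σ x ≠ 0 := fun h0 => hx0 ((map_eq_zero_iff σ σ.injective).1 h0)
  have hσx : σ x ∈ A.nonunits := by
    rw [A.mem_nonunits_iff, hvσ]; exact vlt A hx
  have h₄σ : W.a₄ / σ x ∈ A.nonunits := by
    rw [A.mem_nonunits_iff, map_div₀, hvσ, ← map_div₀]; exact vlt A h₄
  have hwA : y / x ∈ A :=
    w_mem A W ha₁ ha₂ ha₃ ha₆ h.1 hx0 (A.nonunits_subset hx) (A.nonunits_subset h₄)
  have hw : σ y / σ x - y / x ∈ A.nonunits := by
    have := hσA (y / x) hwA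
    rwa [map_div₀] at this
  rcases branch_sub_x_notMem A W ha₁ ha₂ ha₃ ha₆ hb₂ h' h hσx0 hx0 hσx hx h₄σ h₄ hvσ hw with
    heq | hex
  · have := Affine.Point.some.inj heq
    exact Or.inl ⟨this.1, this.2⟩
  · exact Or.inr hex

end Fermat.Agent.S13
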