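/-
S13 / DegVal: Galois descent to `ℚ` inside `AlgebraicClosure ℚ` (for the default `ℚ`-algebra
structure used by the frozen statements) and the "degree bounds the denominator of the valuation"
lemma:

* `exists_rat_of_fixed`      : an element fixed by all of `Gal(ℚ̄/ℚ)` is rational.
* `exists_poly_of_stable`    : a finite Galois-stable set is the root set of a monic rational
                               polynomial of degree its cardinality.
* `prod_mem_rat`             : the product of a finite Galois-stable set is rational.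
* `exists_mul_wval_int`      : a nonzero root `x` of a nonzero rational polynomial `f` has
                               `k * wval x ∈ ℤ` for some `0 < k ≤ deg f`.
* `exists_mul_wval_int_of_stable` : the two combined.
-/
import Mathlib
import Fermat.Agent.S05.QVal

set_option autoImplicit false

namespace Fermat.Agent.S13.DegVal

open Polynomial Fermat.Agent.S05

/-- `AlgebraicClosure ℚ / ℚ` is Galois (default algebra structure). -/
theorem isGalois_Qbar : IsGalois ℚ (AlgebraicClosure ℚ) := by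
  have h : @IsGalois ℚ _ (AlgebraicClosure ℚ) _ (AlgebraicClosure.instAlgebra ℚ) := inferInstance
  convert h
  exact Subsingleton.elim _ _

/-- An element of `ℚ̄` fixed by the whole Galois group is rational. -/
theorem exists_rat_of_fixed (x : AlgebraicClosure ℚ)
    (h : ∀ σ : AlgebraicClosure ℚ ≃ₐ[ℚ] AlgebraicClosure ℚ, σ x = x) :
    ∃ r : ℚ, algebraMap ℚ (AlgebraicClosure ℚ) r = x := by
  have := isGalois_Qbar
  exact (InfiniteGalois.mem_range_algebraMap_iff_fixed x).mpr h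

open Classical in
/-- A Galois-stable finite set is mapped onto itself by every automorphism. -/
theorem image_eq_of_stable (S : Finset (AlgebraicClosure ℚ))
    (hS : ∀ σ : AlgebraicClosure ℚ ≃ₐ[ℚ] AlgebraicClosure ℚ, ∀ u ∈ S, σ u ∈ S)
    (σ : AlgebraicClosure ℚ ≃ₐ[ℚ] AlgebraicClosure ℚ) : S.image (fun u => σ u) = S := by
  apply Finset.eq_of_subset_of_card_le
  · intro u hu
    obtain ⟨w, hw, rfl⟩ := Finset.mem_image.mp hu
    exact hS σ w hw
  · rw [Finset.card_image_of_injective S σ.injective]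

/-- The product of a Galois-stable finite set is rational. -/
theorem prod_mem_rat (S : Finset (AlgebraicClosure ℚ))
    (hS : ∀ σ : AlgebraicClosure ℚ ≃ₐ[ℚ] AlgebraicClosure ℚ, ∀ u ∈ S, σ u ∈ S) :
    ∃ r : ℚ, algebraMap ℚ (AlgebraicClosure ℚ) r = ∏ u ∈ S, u := by
  classical
  apply exists_rat_of_fixed
  intro σ
  rw [map_prod]
  conv_rhs => rw [← image_eq_of_stable S hS σ]
  rw [Finset.prod_image (fun a _ b _ hab => σ.injective hab)]

/-- A Galois-stable finite set is contained in the root set of a monic rational polynomial of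
degree its cardinality. -/
theorem exists_poly_of_stable (S : Finset (AlgebraicClosure ℚ))
    (hS : ∀ σ : AlgebraicClosure ℚ ≃ₐ[ℚ] AlgebraicClosure ℚ, ∀ u ∈ S, σ u ∈ S) :
    ∃ f : Polynomial ℚ, f.Monic ∧ f.natDegree = S.card ∧ ∀ u ∈ S, Polynomial.aeval u f = 0 := by
  classical
  set g : Polynomial (AlgebraicClosure ℚ) := ∏ u ∈ S, (X - C u) with hg
  have hgm : g.Monic := monic_prod_of_monic _ _ (fun u _ => monic_X_sub_C u)
  have hgdeg : g.natDegree = S.card := by
    rw [hg, natDegree_prod_of_monic _ _ (fun u _ => monic_X_sub_C u)]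
    simp
  have hfix : ∀ σ : AlgebraicClosure ℚ ≃ₐ[ℚ] AlgebraicClosure ℚ,
      g.map (σ : AlgebraicClosure ℚ →+* AlgebraicClosure ℚ) = g := by
    intro σ
    rw [hg, Polynomial.map_prod]
    simp only [Polynomial.map_sub, Polynomial.map_X, Polynomial.map_C, RingHom.coe_coe]
    conv_rhs => rw [← image_eq_of_stable S hS σ]
    rw [Finset.prod_image (fun a _ b _ hab => σ.injective hab)]
  have hlift : g ∈ Polynomial.lifts (algebraMap ℚ (AlgebraicClosure ℚ)) := by
    rw [Polynomial.lifts_iff_coeff_lifts]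
    intro n
    obtain ⟨r, hr⟩ := exists_rat_of_fixed (g.coeff n) (fun σ => by
      have := congrArg (fun p => p.coeff n) (hfix σ)
      simpa [Polynomial.coeff_map] using this)
    exact ⟨r, hr⟩
  obtain ⟨f, hf, hfdeg, hfm⟩ := Polynomial.lifts_and_degree_eq_and_monic hlift hgm
  refine ⟨f, hfm, ?_, ?_⟩
  · rw [← hgdeg]
    exact natDegree_eq_natDegree hfdeg
  · intro u hu
    rw [Polynomial.aeval_def, ← Polynomial.eval_map, hf, hg, Polynomial.eval_prod]
    exact Finset.prod_eq_zero hu (by simp)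

/-- A nonzero root of a nonzero rational polynomial `f` has valuation with denominator at most
`deg f`. -/
theorem exists_mul_wval_int {L : Type*} [Field L] [Algebra ℚ L] (A : ValuationSubring L) {q : ℕ}
    (hq : q.Prime) (hA : (q : L) ∈ A.nonunits) (f : Polynomial ℚ) (hf : f ≠ 0) {x : L}
    (hx : x ≠ 0) (hroot : Polynomial.aeval x f = 0) :
    ∃ k : ℕ, 0 < k ∧ k ≤ f.natDegree ∧ ∃ m : ℤ, (k : ℚ) * wval A q x = m := by
  have hq0 : (q : L) ≠ 0 := QVal.natCast_ne_zero hq
  rw [Polynomial.aeval_def, Polynomial.eval₂_eq_sum, Polynomial.sum_def] at hroot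
  have hne : f.support.Nonempty := Polynomial.support_nonempty.mpr hf
  have hcoeff : ∀ n ∈ f.support, f.coeff n ≠ 0 := fun n hn => Polynomial.mem_support_iff.mp hn
  obtain ⟨i, hi, j, hj, hij, hv⟩ := QVal.exists_ne_valuation_eq A.valuation f.support
    (fun n => algebraMap ℚ L (f.coeff n) * x ^ n)
    (fun n hn => mul_ne_zero ((_root_.map_ne_zero _).mpr (hcoeff n hn)) (pow_ne_zero _ hx)) hne hroot
  wlog hlt : i < j generalizing i j
  · exact this j hj i hi hij.symm hv.symm (lt_of_le_of_ne (not_lt.mp hlt) hij.symm)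
  simp only [map_mul, map_pow] at hv
  rw [QVal.valuation_algebraMap_rat hq hq0 hA (hcoeff i hi),
    QVal.valuation_algebraMap_rat hq hq0 hA (hcoeff j hj)] at hv
  have hvx : A.valuation x ≠ 0 := (Valuation.ne_zero_iff _).mpr hx
  have hvq : A.valuation (q : L) ≠ 0 := QVal.valuation_q_ne_zero hq0
  have hexp : QVal.HasExp A q x (j - i)
      (padicValRat q (f.coeff i) - padicValRat q (f.coeff j)) := by
    refine ⟨Nat.sub_pos_of_lt hlt, ?_⟩
    have hpow : A.valuation x ^ j = A.valuation x ^ (j - i) * A.valuation x ^ i := by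
      rw [← pow_add, Nat.sub_add_cancel hlt.le]
    rw [hpow, ← mul_assoc] at hv
    have h3 := mul_right_cancel₀ (pow_ne_zero i hvx) hv
    rw [zpow_sub₀ hvq, h3, mul_div_cancel_left₀ _ (zpow_ne_zero _ hvq)]
  refine ⟨j - i, Nat.sub_pos_of_lt hlt, ?_,
    padicValRat q (f.coeff i) - padicValRat q (f.coeff j), ?_⟩
  · exact (Nat.sub_le j i).trans (Polynomial.le_natDegree_of_mem_supp j hj)
  · rw [QVal.wval_eq_of_hasExp hq0 hA hx hexp]
    have hji : ((j - i : ℕ) : ℚ) ≠ 0 := by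
      exact_mod_cast (Nat.sub_pos_of_lt hlt).ne'
    field_simp

/-- A nonzero element of a finite Galois-stable set `S` has valuation with denominator at most
`S.card`. -/
theorem exists_mul_wval_int_of_stable (A : ValuationSubring (AlgebraicClosure ℚ)) {q : ℕ}
    (hq : q.Prime) (hA : (q : AlgebraicClosure ℚ) ∈ A.nonunits)
    (S : Finset (AlgebraicClosure ℚ))
    (hS : ∀ σ : AlgebraicClosure ℚ ≃ₐ[ℚ] AlgebraicClosure ℚ, ∀ u ∈ S, σ u ∈ S)
    {x : AlgebraicClosure ℚ} (hxS : x ∈ S) (hx : x ≠ 0) :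
    ∃ k : ℕ, 0 < k ∧ k ≤ S.card ∧ ∃ m : ℤ, (k : ℚ) * wval A q x = m := by
  obtain ⟨f, hfm, hfdeg, hroot⟩ := exists_poly_of_stable S hS
  obtain ⟨k, hk0, hk, m, hm⟩ := exists_mul_wval_int A hq hA f hfm.ne_zero hx (hroot x hxS)
  exact ⟨k, hk0, hfdeg ▸ hk, m, hm⟩

/-- `Set` version of `exists_mul_wval_int_of_stable`. -/
theorem exists_mul_wval_int_of_finite_stable (A : ValuationSubring (AlgebraicClosure ℚ)) {q : ℕ}
    (hq : q.Prime) (hA : (q : AlgebraicClosure ℚ) ∈ A.nonunits)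
    (S : Set (AlgebraicClosure ℚ)) (hfin : S.Finite)
    (hS : ∀ σ : AlgebraicClosure ℚ ≃ₐ[ℚ] AlgebraicClosure ℚ, ∀ u ∈ S, σ u ∈ S)
    {x : AlgebraicClosure ℚ} (hxS : x ∈ S) (hx : x ≠ 0) :
    ∃ k : ℕ, 0 < k ∧ k ≤ S.ncard ∧ ∃ m : ℤ, (k : ℚ) * wval A q x = m := by
  have h := exists_mul_wval_int_of_stable A hq hA hfin.toFinset
    (fun σ u hu => (hfin.mem_toFinset).mpr (hS σ u ((hfin.mem_toFinset).mp hu)))
    ((hfin.mem_toFinset).mpr hxS) hx
  rwa [← Set.ncard_eq_toFinset_card S hfin] at h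

/-- Indexed-family version: if the values of `f : ι → ℚ̄` (`ι` finite) are permuted by the Galois
group, then every nonzero value has valuation with denominator at most `Nat.card ι`. -/
theorem exists_mul_wval_int_of_family (A : ValuationSubring (AlgebraicClosure ℚ)) {q : ℕ}
    (hq : q.Prime) (hA : (q : AlgebraicClosure ℚ) ∈ A.nonunits)
    {ι : Type*} [Finite ι] (f : ι → AlgebraicClosure ℚ)
    (hf : ∀ (σ : AlgebraicClosure ℚ ≃ₐ[ℚ] AlgebraicClosure ℚ) (i : ι), ∃ j, σ (f i) = f j)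
    (i₀ : ι) (hx : f i₀ ≠ 0) :
    ∃ k : ℕ, 0 < k ∧ k ≤ Nat.card ι ∧ ∃ m : ℤ, (k : ℚ) * wval A q (f i₀) = m := by
  obtain ⟨k, hk0, hk, m, hm⟩ := exists_mul_wval_int_of_finite_stable A hq hA (Set.range f)
    (Set.finite_range f)
    (fun σ u hu => by
      obtain ⟨i, rfl⟩ := hu
      obtain ⟨j, hj⟩ := hf σ i
      exact ⟨j, hj.symm⟩)
    (Set.mem_range_self i₀) hx
  refine ⟨k, hk0, hk.trans ?_, m, hm⟩
  rw [← Set.image_univ, ← Nat.card_coe_set_eq]
  exact (Nat.card_image_le Set.finite_univ).trans (by rw [Nat.card_coe_set_eq, Set.ncard_univ])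

/-- Pure arithmetic: a rational number `w` with `0 < w < Nw`, `p * w ∈ 2 * Nw * ℤ` and
`k * w ∈ ℤ` for some `0 < k < p` cannot exist when the prime `p` does not divide `2 * Nw`. -/
theorem false_of_mul_int {p : ℕ} (hp : p.Prime) {Nw j m : ℤ} {k : ℕ} {w : ℚ}
    (hpN : ¬ (p : ℤ) ∣ 2 * Nw) (h1 : 0 < w) (h2 : w < Nw) (h3 : (p : ℚ) * w = 2 * Nw * j)
    (hk0 : 0 < k) (hk : k < p) (hm : (k : ℚ) * w = m) : False := by
  have hpp : Prime (p : ℤ) := Nat.prime_iff_prime_int.mp hp
  have hp0 : (p : ℚ) ≠ 0 := by exact_mod_cast hp.ne_zero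
  have hNw : (0 : ℚ) < Nw := h1.trans h2
  -- `p * m = k * (2 * Nw) * j`
  have e1 : (p : ℤ) * m = (k : ℤ) * ((2 * Nw) * j) := by
    have : ((p : ℤ) : ℚ) * m = ((k : ℤ) : ℚ) * ((2 * Nw) * j) := by
      push_cast
      rw [← hm, ← h3]
      ring
    exact_mod_cast this
  have hpk : ¬ (p : ℤ) ∣ (k : ℤ) := by
    intro h
    have := Int.natCast_dvd_natCast.mp h
    exact absurd (Nat.le_of_dvd hk0 this) (not_le.mpr hk)
  have hdvd : (p : ℤ) ∣ (k : ℤ) * ((2 * Nw) * j) := ⟨m, e1.symm⟩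
  have hpj : (p : ℤ) ∣ j := by
    rcases hpp.dvd_or_dvd hdvd with h | h
    · exact absurd h hpk
    · rcases hpp.dvd_or_dvd h with h' | h'
      · exact absurd h' hpN
      · exact h'
  obtain ⟨j', rfl⟩ := hpj
  -- `w = 2 * Nw * j'`
  have hw : w = 2 * Nw * j' := by
    have : (p : ℚ) * w = (p : ℚ) * (2 * Nw * j') := by
      rw [h3]
      push_cast
      ring
    exact mul_left_cancel₀ hp0 this
  rw [hw] at h1 h2
  have hj1 : (0 : ℚ) < j' := by
    by_contra hneg
    have : (2 : ℚ) * Nw * j' ≤ 0 := mul_nonpos_of_nonneg_of_nonpos (by positivity) (not_lt.mp hneg)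
    exact absurd h1 (not_lt.mpr this)
  have hj1' : (1 : ℤ) ≤ j' := by
    have : (0 : ℤ) < j' := by exact_mod_cast hj1
    omega
  have hj2 : (1 : ℚ) ≤ j' := by exact_mod_cast hj1'
  nlinarith

/-- A member `x` of a Galois-stable finite set with fewer than `p` elements cannot have valuation
strictly between `0` and `Nw` with `p * w ∈ 2 * Nw * ℤ`, when the prime `p` does not divide
`2 * Nw`. (Same shape as `RatPoint.false_of_fixed_of_wval`, with "fixed" weakened to "lies in a
small stable set".) -/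
theorem false_of_stable_of_wval (A : ValuationSubring (AlgebraicClosure ℚ)) {q : ℕ}
    (hq : q.Prime) (hA : (q : AlgebraicClosure ℚ) ∈ A.nonunits)
    (S : Set (AlgebraicClosure ℚ)) (hfin : S.Finite)
    (hS : ∀ σ : AlgebraicClosure ℚ ≃ₐ[ℚ] AlgebraicClosure ℚ, ∀ u ∈ S, σ u ∈ S)
    {x : AlgebraicClosure ℚ} (hxS : x ∈ S)
    {p : ℕ} (hp : p.Prime) (hcard : S.ncard < p) {Nw j : ℤ} (hpN : ¬ (p : ℤ) ∣ 2 * Nw)
    (h1 : 0 < wval A q x) (h2 : wval A q x < Nw)
    (h3 : (p : ℚ) * wval A q x = 2 * Nw * j) : False := by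
  have hx : x ≠ 0 := by
    rintro rfl
    rw [wval_zero] at h1
    exact lt_irrefl _ h1
  obtain ⟨k, hk0, hk, m, hm⟩ := exists_mul_wval_int_of_finite_stable A hq hA S hfin hS hxS hx
  exact false_of_mul_int hp hpN h1 h2 h3 hk0 (hk.trans_lt hcard) hm

/-- Indexed-family form of `false_of_stable_of_wval`. -/
theorem false_of_family_of_wval (A : ValuationSubring (AlgebraicClosure ℚ)) {q : ℕ}
    (hq : q.Prime) (hA : (q : AlgebraicClosure ℚ) ∈ A.nonunits)
    {ι : Type*} [Finite ι] (f : ι → AlgebraicClosure ℚ)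
    (hf : ∀ (σ : AlgebraicClosure ℚ ≃ₐ[ℚ] AlgebraicClosure ℚ) (i : ι), ∃ j, σ (f i) = f j)
    (i₀ : ι) {p : ℕ} (hp : p.Prime) (hcard : Nat.card ι < p) {Nw j : ℤ}
    (hpN : ¬ (p : ℤ) ∣ 2 * Nw)
    (h1 : 0 < wval A q (f i₀)) (h2 : wval A q (f i₀) < Nw)
    (h3 : (p : ℚ) * wval A q (f i₀) = 2 * Nw * j) : False := by
  have hx : f i₀ ≠ 0 := by
    intro h0
    rw [h0, wval_zero] at h1
    exact lt_irrefl _ h1
  obtain ⟨k, hk0, hk, m, hm⟩ := exists_mul_wval_int_of_family A hq hA f hf i₀ hx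
  exact false_of_mul_int hp hpN h1 h2 h3 hk0 (hk.trans_lt hcard) hm

end Fermat.Agent.S13.DegVal
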