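/-
S13, global step: the field `ℚ` has no nontrivial everywhere unramified extension, in the
language of inertia subgroups of valuation subrings of `AlgebraicClosure ℚ`.
-/
import Mathlib
import Fermat.Agent.S54_Frob
import Fermat.Agent.S13.InertiaLift
import Fermat.Prelude.Def_FLTPrelim_Ramification

set_option autoImplicit false

namespace Fermat.Agent.S13

namespace Global

open NumberField

local notation "Qbar" => AlgebraicClosure ℚ
local notation "GQ" => (AlgebraicClosure ℚ ≃ₐ[ℚ] AlgebraicClosure ℚ)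

/-- Number-theoretic core: a finite Galois subextension `M ≠ ℚ` of `Qbar` has a prime `ℓ` such
that for every valuation subring `A` of `Qbar` over `ℓ` the inertia group of `𝔪_A ∩ 𝓞 M` in
`Gal(M/ℚ)` is nontrivial. -/
theorem exists_inertia_ne_one (M : IntermediateField ℚ Qbar) [FiniteDimensional ℚ M]
    [IsGalois ℚ M] (hM : M ≠ ⊥) :
    ∃ ℓ : ℕ, ℓ.Prime ∧ ∀ A : ValuationSubring Qbar, A.LiesOverPrime ℓ →
      ∃ τ : M ≃ₐ[ℚ] M, τ ≠ 1 ∧
        ∀ b : M, IsIntegral ℤ b → ((τ b : M) : Qbar) - (b : Qbar) ∈ A.nonunits := by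
  have hnf : NumberField M := { to_charZero := inferInstance, to_finiteDimensional := inferInstance }
  have hrank : 1 < Module.finrank ℚ M := by
    have h0 : 0 < Module.finrank ℚ M := Module.finrank_pos
    have h1 : Module.finrank ℚ M ≠ 1 := fun h => hM (IntermediateField.finrank_eq_one_iff.mp h)
    omega
  obtain ⟨ℓ, hℓ, hram⟩ :=
    NumberField.exists_not_isUnramifiedAt_int_of_isGalois (K := M) (𝒪 := 𝓞 M) hrank
  refine ⟨ℓ, hℓ, fun A hA => ?_⟩
  have hA' : (ℓ : Qbar) ∈ A.nonunits := hA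
  have hint : ∀ x : 𝓞 M, (((x : M) : Qbar)) ∈ A := fun x =>
    S54.integralClosure_int_le A ⟨((x : M) : Qbar), by
      have h1 : IsIntegral ℤ (x : M) := RingOfIntegers.isIntegral_coe x
      exact h1.map (IsScalarTower.toAlgHom ℤ M Qbar)⟩
  let f : 𝓞 M →+* A :=
    ((algebraMap M Qbar).comp (algebraMap (𝓞 M) M)).codRestrict A.toSubring hint
  let P : Ideal (𝓞 M) := (IsLocalRing.maximalIdeal A).comap f
  have hPmem : ∀ x : 𝓞 M, x ∈ P ↔ (((x : M) : Qbar)) ∈ A.nonunits := by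
    intro x
    rw [Ideal.mem_comap, ← ValuationSubring.coe_mem_nonunits_iff]
    rfl
  have hPprime : P.IsPrime := Ideal.comap_isPrime f _
  have hℓP : ((ℓ : ℕ) : 𝓞 M) ∈ P := by
    rw [hPmem]
    simpa using hA'
  have hnr := hram P hPprime hℓP
  have hGG : IsGaloisGroup (M ≃ₐ[ℚ] M) ℤ (𝓞 M) :=
    IsGaloisGroup.of_isFractionRing (M ≃ₐ[ℚ] M) ℤ (𝓞 M) ℚ M
  have hcard := Ideal.card_inertia_eq_ramificationIdxIn (G := M ≃ₐ[ℚ] M) (P.under ℤ) P
  rw [Ideal.ramificationIdxIn_eq_ramificationIdx (P.under ℤ) P (M ≃ₐ[ℚ] M)] at hcard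
  have hne : P.ramificationIdx ℤ ≠ 1 := fun h => hnr (Ideal.ramificationIdx_eq_one_iff.mp h)
  have hne_bot : Ideal.inertia (M ≃ₐ[ℚ] M) P ≠ ⊥ := fun h =>
    hne (by rw [← hcard]; exact Subgroup.card_eq_one.mpr h)
  obtain ⟨⟨τ, hτ⟩, hτ1⟩ := (Subgroup.ne_bot_iff_exists_ne_one).mp hne_bot
  refine ⟨τ, fun h => hτ1 (Subtype.ext h), fun b hb => ?_⟩
  obtain ⟨x, rfl⟩ := (IsIntegralClosure.isIntegral_iff (R := ℤ) (A := 𝓞 M) (B := M)).mp hb
  have h1 : τ • x - x ∈ P := hτ x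
  have h2 : ((algebraMap (𝓞 M) M (τ • x - x) : M) : Qbar) ∈ A.nonunits := (hPmem _).mp h1
  have h3 : algebraMap (𝓞 M) M (τ • x) = τ (algebraMap (𝓞 M) M x) := rfl
  have h4 : algebraMap (𝓞 M) M (τ • x - x) = τ (algebraMap (𝓞 M) M x) - algebraMap (𝓞 M) M x := by
    rw [map_sub, h3]
  rw [h4] at h2
  simpa using h2

end Global

local notation "Qbar" => AlgebraicClosure ℚ
local notation "GQ" => (AlgebraicClosure ℚ ≃ₐ[ℚ] AlgebraicClosure ℚ)

/-- Every prime number lies under some valuation subring of `AlgebraicClosure ℚ`. -/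
theorem exists_liesOverPrime (ℓ : ℕ) (hℓ : ℓ.Prime) :
    ∃ A : ValuationSubring Qbar, A.LiesOverPrime ℓ :=
  S54.exists_liesOverPrime hℓ

/-- `ℚ` has no nontrivial everywhere unramified extension: a proper open normal subgroup of the
absolute Galois group misses some inertia element at every valuation subring over a suitable
prime `ℓ`. -/
theorem exists_inertia_not_mem (H : Subgroup GQ) [H.Normal] (hopen : IsOpen (H : Set GQ))
    (hH : H ≠ ⊤) :
    ∃ ℓ : ℕ, ℓ.Prime ∧ ∀ A : ValuationSubring Qbar, A.LiesOverPrime ℓ →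
      ∃ σ ∈ A.inertiaSubgroupIn ℚ, σ ∉ H := by
  have hclosed : IsClosed (H : Set GQ) := H.isClosed_of_isOpen hopen
  let Hc : ClosedSubgroup GQ := ⟨H, hclosed⟩
  let M : IntermediateField ℚ Qbar := IntermediateField.fixedField H
  have hfix : M.fixingSubgroup = H := InfiniteGalois.fixingSubgroup_fixedField Hc
  have hfin : FiniteDimensional ℚ M :=
    (InfiniteGalois.isOpen_iff_finite M).mp (by rw [hfix]; exact hopen)
  have hgal : IsGalois ℚ M :=
    (InfiniteGalois.normal_iff_isGalois M).mp (by rw [hfix]; infer_instance)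
  have hM : M ≠ ⊥ := by
    intro h
    apply hH
    rw [← hfix, h, IntermediateField.fixingSubgroup_bot]
  obtain ⟨ℓ, hℓ, hA⟩ := Global.exists_inertia_ne_one M hM
  refine ⟨ℓ, hℓ, fun A hAℓ => ?_⟩
  obtain ⟨τ, hτ1, hτ⟩ := hA A hAℓ
  obtain ⟨σ, hσ, hστ⟩ := exists_mem_inertiaSubgroupIn_restrict A hℓ hAℓ M τ hτ
  refine ⟨σ, hσ, fun hσH => hτ1 ?_⟩
  rw [← hfix, IntermediateField.mem_fixingSubgroup_iff] at hσH
  ext b
  have h1 := hστ b
  rw [hσH b b.2] at h1
  exact h1.symm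

/-- A homomorphism from the absolute Galois group of `ℚ` with open kernel which is trivial on
one inertia group over every prime is trivial. -/
theorem eq_one_of_unramified {G : Type*} [Group G] (ψ : GQ →* G)
    (hopen : IsOpen (ψ.ker : Set GQ))
    (hunr : ∀ ℓ : ℕ, ℓ.Prime → ∃ A : ValuationSubring Qbar, A.LiesOverPrime ℓ ∧
      ∀ σ ∈ A.inertiaSubgroupIn ℚ, ψ σ = 1) (σ : GQ) : ψ σ = 1 := by
  by_contra hσ
  have hH : ψ.ker ≠ ⊤ := fun h => hσ (MonoidHom.mem_ker.mp (h ▸ Subgroup.mem_top σ))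
  obtain ⟨ℓ, hℓ, h⟩ := exists_inertia_not_mem ψ.ker hopen hH
  obtain ⟨A, hA, hAψ⟩ := hunr ℓ hℓ
  obtain ⟨τ, hτ, hτH⟩ := h A hA
  exact hτH (MonoidHom.mem_ker.mpr (hAψ τ hτ))



end Fermat.Agent.S13
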