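/-
Abstract linear-algebra core of the local analysis at `2` (S13).

`V` is a finite-dimensional vector space over `ZMod p` with a subspace `V0` such that `V0` and
`V ⧸ V0` have dimension at most one, and `N` is a proper non-zero subspace.  Then `N` and `V0` are
lines in the plane `V`; every additive map `s` which preserves `N`, fixes `V0` pointwise and acts
trivially on `V ⧸ V0` fixes `N` pointwise and acts trivially on `V ⧸ N`; and if such an `s`
moves some vector, then `N = V0`.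
-/
import Mathlib

set_option autoImplicit false

namespace Fermat.Agent.S13.L2

open Module

variable {p : ℕ} [Fact p.Prime] {V : Type*} [AddCommGroup V] [Module (ZMod p) V]

/-- Dimension count: `N`, `V0` are lines and `V` is a plane. -/
theorem finrank_facts [Module.Finite (ZMod p) V] (V0 N : Submodule (ZMod p) V)
    (h0 : finrank (ZMod p) V0 ≤ 1) (hQ : finrank (ZMod p) (V ⧸ V0) ≤ 1)
    (hN0 : N ≠ ⊥) (hN1 : N ≠ ⊤) :
    finrank (ZMod p) N = 1 ∧ finrank (ZMod p) V0 = 1 ∧ finrank (ZMod p) V = 2 := by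
  have hsum := Submodule.finrank_quotient_add_finrank V0
  have hNpos : 0 < finrank (ZMod p) N := by
    rw [finrank_pos_iff]
    exact (Submodule.nontrivial_iff_ne_bot).2 hN0
  have hNlt : finrank (ZMod p) N < finrank (ZMod p) V :=
    Submodule.finrank_lt hN1
  refine ⟨by omega, by omega, by omega⟩

/-- Either `N = V0`, or `N` and `V0` are complementary. -/
theorem eq_or_compl [Module.Finite (ZMod p) V] (V0 N : Submodule (ZMod p) V)
    (h0 : finrank (ZMod p) V0 ≤ 1) (hQ : finrank (ZMod p) (V ⧸ V0) ≤ 1)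
    (hN0 : N ≠ ⊥) (hN1 : N ≠ ⊤) :
    N = V0 ∨ (N ⊓ V0 = ⊥ ∧ N ⊔ V0 = ⊤) := by
  obtain ⟨hN, hV0, hV⟩ := finrank_facts V0 N h0 hQ hN0 hN1
  by_cases hle : N ≤ V0
  · left
    exact Submodule.eq_of_le_of_finrank_eq hle (by rw [hN, hV0])
  · right
    have hinf : N ⊓ V0 = ⊥ := by
      have hlt : N ⊓ V0 < N := lt_of_le_of_ne inf_le_left (fun h => hle (inf_eq_left.1 h))
      have h1 : finrank (ZMod p) ↥(N ⊓ V0) < finrank (ZMod p) N := Submodule.finrank_lt_finrank_of_lt hlt
      have h2 : finrank (ZMod p) ↥(N ⊓ V0) = 0 := by omega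
      exact (Submodule.finrank_eq_zero).1 h2
    refine ⟨hinf, ?_⟩
    have h3 := Submodule.finrank_sup_add_finrank_inf_eq N V0
    have h4 : finrank (ZMod p) ↥(N ⊓ V0) = 0 := by rw [hinf]; exact finrank_bot _ _
    apply Submodule.eq_top_of_finrank_eq
    omega

/-- A unipotent map (trivial on `V0` and on `V ⧸ V0`) preserving the line `N` fixes `N`
pointwise and is trivial on `V ⧸ N`. -/
theorem unipotent_core [Module.Finite (ZMod p) V] (V0 N : Submodule (ZMod p) V)
    (h0 : finrank (ZMod p) V0 ≤ 1) (hQ : finrank (ZMod p) (V ⧸ V0) ≤ 1)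
    (hN0 : N ≠ ⊥) (hN1 : N ≠ ⊤) (s : V →+ V)
    (hsN : ∀ x ∈ N, s x ∈ N) (hs0 : ∀ x ∈ V0, s x = x) (hsQ : ∀ x, s x - x ∈ V0) :
    (∀ x ∈ N, s x = x) ∧ (∀ x, s x - x ∈ N) := by
  rcases eq_or_compl V0 N h0 hQ hN0 hN1 with h | ⟨hinf, hsup⟩
  · subst h
    exact ⟨hs0, hsQ⟩
  · have hfixN : ∀ x ∈ N, s x = x := by
      intro x hx
      have h1 : s x - x ∈ N ⊓ V0 := ⟨N.sub_mem (hsN x hx) hx, hsQ x⟩
      rw [hinf, Submodule.mem_bot] at h1
      exact sub_eq_zero.1 h1
    have hfix : ∀ x, s x = x := by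
      intro x
      have hx : x ∈ N ⊔ V0 := by rw [hsup]; exact Submodule.mem_top
      obtain ⟨n, hn, v, hv, rfl⟩ := Submodule.mem_sup.1 hx
      rw [map_add, hfixN n hn, hs0 v hv]
    exact ⟨hfixN, fun x => by rw [hfix x, sub_self]; exact N.zero_mem⟩

/-- If moreover `s` moves some vector, then `N = V0`. -/
theorem eq_of_moved [Module.Finite (ZMod p) V] (V0 N : Submodule (ZMod p) V)
    (h0 : finrank (ZMod p) V0 ≤ 1) (hQ : finrank (ZMod p) (V ⧸ V0) ≤ 1)
    (hN0 : N ≠ ⊥) (hN1 : N ≠ ⊤) (s : V →+ V)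
    (hsN : ∀ x ∈ N, s x ∈ N) (hs0 : ∀ x ∈ V0, s x = x) (hsQ : ∀ x, s x - x ∈ V0)
    (hmove : ∃ x, s x ≠ x) : N = V0 := by
  rcases eq_or_compl V0 N h0 hQ hN0 hN1 with h | ⟨hinf, hsup⟩
  · exact h
  · exfalso
    obtain ⟨x, hx⟩ := hmove
    apply hx
    have hfixN : ∀ x ∈ N, s x = x := by
      intro x hx
      have h1 : s x - x ∈ N ⊓ V0 := ⟨N.sub_mem (hsN x hx) hx, hsQ x⟩
      rw [hinf, Submodule.mem_bot] at h1
      exact sub_eq_zero.1 h1
    have hx' : x ∈ N ⊔ V0 := by rw [hsup]; exact Submodule.mem_top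
    obtain ⟨n, hn, v, hv, rfl⟩ := Submodule.mem_sup.1 hx'
    rw [map_add, hfixN n hn, hs0 v hv]

/-- `V0 ≠ ⊤` under the hypotheses (there is a vector outside `V0`). -/
theorem exists_notMem [Module.Finite (ZMod p) V] (V0 N : Submodule (ZMod p) V)
    (h0 : finrank (ZMod p) V0 ≤ 1) (hQ : finrank (ZMod p) (V ⧸ V0) ≤ 1)
    (hN0 : N ≠ ⊥) (hN1 : N ≠ ⊤) : ∃ x : V, x ∉ V0 := by
  obtain ⟨-, hV0, hV⟩ := finrank_facts V0 N h0 hQ hN0 hN1
  by_contra hcon
  push Not at hcon
  have htop : V0 = ⊤ := by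
    rw [eq_top_iff]
    exact fun x _ => hcon x
  rw [htop, finrank_top] at hV0
  omega

/-- A quotient `V ⧸ V0` in which every class is an integer multiple of the class of any
vector outside `V0` has dimension at most one. -/
theorem finrank_quotient_le_one (V0 : Submodule (ZMod p) V)
    (hcyc : ∀ x y : V, x ∉ V0 → ∃ j : ℤ, y - j • x ∈ V0) :
    finrank (ZMod p) (V ⧸ V0) ≤ 1 := by
  by_cases htop : ∀ x : V, x ∈ V0
  · have : Subsingleton (V ⧸ V0) := by
      refine ⟨fun a b => ?_⟩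
      obtain ⟨a, rfl⟩ := Submodule.Quotient.mk_surjective V0 a
      obtain ⟨b, rfl⟩ := Submodule.Quotient.mk_surjective V0 b
      rw [Submodule.Quotient.eq]
      exact htop _
    rw [finrank_zero_of_subsingleton]
    exact Nat.zero_le 1
  · push Not at htop
    obtain ⟨x, hx⟩ := htop
    refine finrank_le_one (Submodule.Quotient.mk x) (fun w => ?_)
    obtain ⟨y, rfl⟩ := Submodule.Quotient.mk_surjective V0 w
    obtain ⟨j, hj⟩ := hcyc x y hx
    refine ⟨(j : ZMod p), ?_⟩
    rw [← Submodule.Quotient.mk_smul, eq_comm, Submodule.Quotient.eq]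
    have : (j : ZMod p) • x = j • x := by
      rw [Int.cast_smul_eq_zsmul]
    rw [this]
    exact hj

/-- A finite `ZMod p`-module with at most `p` elements has dimension at most one. -/
theorem finrank_le_one_of_card_le (W : Type*) [AddCommGroup W] [Module (ZMod p) W] [Finite W]
    (h : Nat.card W ≤ p) : finrank (ZMod p) W ≤ 1 := by
  have h1 : Nat.card W = Nat.card (ZMod p) ^ finrank (ZMod p) W := Module.natCard_eq_pow_finrank
  rw [Nat.card_zmod] at h1
  rw [h1] at h
  by_contra hcon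
  push Not at hcon
  have hp : 1 < p := (Fact.out : p.Prime).one_lt
  have : p ^ 2 ≤ p ^ finrank (ZMod p) W := Nat.pow_le_pow_right (by omega) hcon
  nlinarith

end Fermat.Agent.S13.L2
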