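/-
Arithmetic of the Frey curve at the prime `2` (for S13, local analysis at `2`).

For a Frey package `P` (so `b` is even and `a ≡ 3 mod 4`) the Frey model
`y² + xy = x³ + a₂x² + a₄x` satisfies: `a₂ ∈ ℤ`, `a₁² + 4a₂ = bᵖ - aᵖ` is an odd integer, and
`a₄ = 2ᵉ * m` with `m` an odd integer, `e > 0` and `p ∤ e`.
-/
import Mathlib
import Fermat.Prelude.Def_FLTPrelim_FreyPackage
import Fermat.Agent.S54_Frob

set_option autoImplicit false

namespace Fermat.Agent.S13.L2Frey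

variable (P : FreyPackage)

theorem two_dvd_b : (2 : ℤ) ∣ P.b :=
  (ZMod.intCast_zmod_eq_zero_iff_dvd P.b 2).1 P.hb2

theorem a_pow_mod_four : ((P.a ^ P.p : ℤ) : ZMod 4) = 3 := by
  push_cast
  rw [P.ha4]
  have h3 : (3 : ZMod 4) = -1 := by decide
  rw [h3, P.hp_odd.neg_one_pow]

theorem odd_a : Odd P.a := by
  have h := P.ha4
  rw [Int.odd_iff]
  have h4 : (P.a : ZMod 4) = ((3 : ℤ) : ZMod 4) := by rw [h]; rfl
  rw [ZMod.intCast_eq_intCast_iff_dvd_sub] at h4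
  obtain ⟨k, hk⟩ := h4
  omega

theorem four_dvd_b_pow : (4 : ℤ) ∣ P.b ^ P.p := by
  obtain ⟨k, hk⟩ := two_dvd_b P
  have hp : 2 ≤ P.p := le_trans (by norm_num) P.hp5
  obtain ⟨n, hn⟩ := Nat.exists_eq_add_of_le hp
  rw [hk, hn]
  exact Dvd.intro (k ^ 2 * (2 * k) ^ n) (by ring)

/-- `a₂` of the Frey curve is an integer. -/
theorem exists_a₂_int : ∃ n : ℤ, P.freyCurve.a₂ = (n : ℚ) := by
  have h4 : (4 : ℤ) ∣ P.b ^ P.p - 1 - P.a ^ P.p := by
    have h := (ZMod.intCast_zmod_eq_zero_iff_dvd (P.b ^ P.p - 1 - P.a ^ P.p) 4).1 (by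
      have hb : ((P.b ^ P.p : ℤ) : ZMod 4) = 0 :=
        (ZMod.intCast_zmod_eq_zero_iff_dvd _ 4).2 (four_dvd_b_pow P)
      have ha := a_pow_mod_four P
      rw [Int.cast_sub, Int.cast_sub, hb, ha]
      decide)
    exact h
  obtain ⟨n, hn⟩ := h4
  refine ⟨n, ?_⟩
  change ((P.b : ℚ) ^ P.p - 1 - (P.a : ℚ) ^ P.p) / 4 = n
  have : ((P.b : ℚ) ^ P.p - 1 - (P.a : ℚ) ^ P.p) = 4 * n := by exact_mod_cast hn
  rw [this]
  field_simp

/-- `a₁² + 4a₂ = bᵖ - aᵖ` is an odd integer. -/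
theorem exists_b₂_odd :
    ∃ n : ℤ, Odd n ∧ P.freyCurve.a₁ ^ 2 + 4 * P.freyCurve.a₂ = (n : ℚ) := by
  refine ⟨P.b ^ P.p - P.a ^ P.p, ?_, ?_⟩
  · have hb : Even (P.b ^ P.p) := by
      have := four_dvd_b_pow P
      exact (even_iff_two_dvd).2 (Dvd.dvd.trans (by norm_num) this)
    exact hb.sub_odd ((odd_a P).pow)
  · change (1 : ℚ) ^ 2 + 4 * (((P.b : ℚ) ^ P.p - 1 - (P.a : ℚ) ^ P.p) / 4) = _
    push_cast
    ring

/-- `a₄ = 2ᵉ * m` with `m` odd, `e > 0` and `p ∤ e`. -/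
theorem exists_a₄ :
    ∃ (e : ℕ) (m : ℤ), 0 < e ∧ ¬ P.p ∣ e ∧ Odd m ∧ P.freyCurve.a₄ = 2 ^ e * (m : ℚ) := by
  have hfin : FiniteMultiplicity (2 : ℤ) P.b :=
    Int.finiteMultiplicity_iff.2 ⟨by norm_num, P.hb0⟩
  obtain ⟨b', hb, hb'⟩ := hfin.exists_eq_pow_mul_and_not_dvd
  set s := multiplicity (2 : ℤ) P.b with hs_def
  have hs : 1 ≤ s := by
    rcases Nat.eq_zero_or_pos s with h0 | h0
    · exfalso
      rw [h0, pow_zero, one_mul] at hb
      exact hb' (hb ▸ two_dvd_b P)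
    · exact h0
  have hp5 := P.hp5
  have hps : 5 ≤ P.p * s := by nlinarith
  obtain ⟨e, he⟩ := Nat.exists_eq_add_of_le (show 4 ≤ P.p * s by omega)
  have hb'odd : Odd b' := by
    rw [Int.odd_iff]
    rcases Int.emod_two_eq_zero_or_one b' with h | h
    · exact absurd (Int.dvd_of_emod_eq_zero h) hb'
    · exact h
  refine ⟨e, -(P.a ^ P.p * b' ^ P.p), by omega, ?_, ?_, ?_⟩
  · intro hdvd
    have h4 : P.p ∣ 4 := by
      have h1 : P.p ∣ 4 + e := he ▸ Dvd.intro _ rfl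
      exact (Nat.dvd_add_left hdvd).1 h1
    have := Nat.le_of_dvd (by norm_num) h4
    omega
  · exact ((odd_a P).pow.mul hb'odd.pow).neg
  · change -((P.a : ℚ) ^ P.p) * ((P.b : ℚ) ^ P.p) / 16 = _
    have hbq : (P.b : ℚ) = 2 ^ s * (b' : ℚ) := by exact_mod_cast hb
    rw [hbq, mul_pow, ← pow_mul, mul_comm s P.p, he, pow_add]
    push_cast
    ring

section ValSub

variable {K : Type*} [Field K] [Algebra ℚ K] (A : ValuationSubring K)

theorem algebraMap_int (n : ℤ) : algebraMap ℚ K (n : ℚ) = (n : K) := by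
  simp

theorem a₂_mem : algebraMap ℚ K P.freyCurve.a₂ ∈ A := by
  obtain ⟨n, hn⟩ := exists_a₂_int P
  rw [hn, algebraMap_int]
  exact intCast_mem A n

theorem b₂_notMem_nonunits (hA : (2 : K) ∈ A.nonunits) :
    (algebraMap ℚ K P.freyCurve.a₁) ^ 2 + 4 * algebraMap ℚ K P.freyCurve.a₂ ∉ A.nonunits := by
  obtain ⟨n, hn, h⟩ := exists_b₂_odd P
  have h' : (algebraMap ℚ K P.freyCurve.a₁) ^ 2 + 4 * algebraMap ℚ K P.freyCurve.a₂ = (n : K) := by
    rw [← algebraMap_int (K := K), ← h]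
    simp only [map_add, map_mul, map_pow, map_ofNat]
  rw [h']
  have hA' : ((2 : ℕ) : K) ∈ A.nonunits := by simpa using hA
  rw [Fermat.Agent.S54.int_mem_nonunits_iff A Nat.prime_two hA']
  intro hdvd
  rw [Int.odd_iff] at hn
  have : n % 2 = 0 := Int.emod_eq_zero_of_dvd (by simpa using hdvd)
  omega

omit [Algebra ℚ K] in
theorem odd_notMem_nonunits (hA : (2 : K) ∈ A.nonunits) {m : ℤ} (hm : Odd m) :
    (m : K) ∉ A.nonunits := by
  have hA' : ((2 : ℕ) : K) ∈ A.nonunits := by simpa using hA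
  rw [Fermat.Agent.S54.int_mem_nonunits_iff A Nat.prime_two hA']
  intro hdvd
  rw [Int.odd_iff] at hm
  have : m % 2 = 0 := Int.emod_eq_zero_of_dvd (by simpa using hdvd)
  omega

/-- `a₄ = 2ᵉ * m` in `K`, with `m` an odd integer (a unit of `A`), `e > 0`, `p ∤ e`. -/
theorem exists_a₄_map :
    ∃ (e : ℕ) (m : ℤ), 0 < e ∧ ¬ P.p ∣ e ∧ Odd m ∧
      algebraMap ℚ K P.freyCurve.a₄ = 2 ^ e * (m : K) := by
  obtain ⟨e, m, he, hpe, hm, h⟩ := exists_a₄ P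
  refine ⟨e, m, he, hpe, hm, ?_⟩
  rw [h]
  simp only [map_mul, map_pow, map_ofNat, map_intCast]

end ValSub

end Fermat.Agent.S13.L2Frey
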