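/-
S13, local analysis at `2`: the node data of the Frey curve at a place over `2` and the
consequences of the homomorphism `Λ` (`Fermat.Agent.S05.Trop.lam`) for the `p`-torsion.

For a Frey package `P` and a valuation subring `A` of `K = AlgebraicClosure ℚ` over `2`:
* `nodeCurve`: the Frey model `y² + xy = x³ + a₂x² + a₄x` is a node curve for the valuation
  `wval A 2`, with `w a₄ = e`, `0 < e`, `p ∤ e`;
* `exists_zsmul_sub_mem_E0`: the `p`-torsion modulo `E₀` is cyclic;
* `wval_ne_int_of_notMem_E0`: a `p`-torsion point outside `E₀` has `x ≠ 0` with non-integral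
  valuation;
* `lam_smul`: `Λ` is invariant under the elements of the decomposition group fixing `α`.
-/
import Mathlib
import Fermat.Prelude.Def_FLTPrelim_Ramification
import Fermat.Agent.S05.Trop
import Fermat.Agent.S05.FoldCase
import Fermat.Agent.S05.QValGal
import Fermat.Agent.S05.KerRedX
import Fermat.Agent.S13.L2Frey

set_option autoImplicit false

open WeierstrassCurve WeierstrassCurve.Affine
open Fermat.Agent.S05

namespace Fermat.Agent.S13.L2

local notation "K" => AlgebraicClosure ℚ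

attribute [local instance] QVal.isAlgebraic_Qbar

/-! ### Torsion in `ℚ ⧸ cℤ` -/

/-- The `p`-torsion of `ℚ ⧸ cℤ` is cyclic. -/
theorem exists_zsmul_eq_of_torsion {c : ℚ} {p : ℕ} (hp : p.Prime)
    (g g' : ℚ ⧸ AddSubgroup.zmultiples c) (hg : p • g = 0) (hg' : p • g' = 0) (hg0 : g ≠ 0) :
    ∃ j : ℤ, g' = j • g := by
  obtain ⟨r, rfl⟩ := QuotientAddGroup.mk_surjective g
  obtain ⟨r', rfl⟩ := QuotientAddGroup.mk_surjective g'
  have hpq : (p : ℚ) ≠ 0 := Nat.cast_ne_zero.2 hp.ne_zero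
  rw [← QuotientAddGroup.mk_nsmul, QuotientAddGroup.eq_zero_iff,
    AddSubgroup.mem_zmultiples_iff] at hg hg'
  obtain ⟨k, hk⟩ := hg
  obtain ⟨k', hk'⟩ := hg'
  rw [zsmul_eq_mul, nsmul_eq_mul] at hk hk'
  have hpk : ¬ (p : ℤ) ∣ k := by
    rintro ⟨k0, rfl⟩
    apply hg0
    rw [QuotientAddGroup.eq_zero_iff, AddSubgroup.mem_zmultiples_iff]
    refine ⟨k0, ?_⟩
    rw [zsmul_eq_mul]
    push_cast at hk
    have : (p : ℚ) * (k0 * c) = p * r := by rw [← hk]; ring
    exact mul_left_cancel₀ hpq this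
  have hcop : IsCoprime (p : ℤ) k :=
    (Nat.prime_iff_prime_int.mp hp).coprime_iff_not_dvd.mpr hpk
  obtain ⟨m, j, hmj⟩ := hcop
  -- `k' = j' k + p m'` with `j' = j k'`, `m' = m k'`
  refine ⟨j * k', ?_⟩
  rw [← QuotientAddGroup.mk_zsmul, eq_comm, QuotientAddGroup.eq, AddSubgroup.mem_zmultiples_iff]
  refine ⟨m * k', ?_⟩
  rw [zsmul_eq_mul, zsmul_eq_mul]
  have h1 : (p : ℚ) * ((m * k' : ℤ) * c) = p * (-(((j * k' : ℤ) : ℚ) * r) + r') := by
    have hmj' : (m : ℚ) * p + j * k = 1 := by exact_mod_cast hmj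
    push_cast
    have e1 : (p : ℚ) * r' = k' * c := hk'.symm
    have e2 : (p : ℚ) * r = k * c := hk.symm
    calc (p : ℚ) * ((m : ℚ) * k' * c) = (m * p) * (k' * c) := by ring
      _ = (1 - j * k) * (k' * c) := by rw [← hmj']; ring
      _ = k' * c - j * k' * (k * c) := by ring
      _ = p * r' - j * k' * (p * r) := by rw [e1, e2]
      _ = p * (-((j : ℚ) * k' * r) + r') := by ring
  exact mul_left_cancel₀ hpq h1

/-- If `p • [r] = 0` in `ℚ ⧸ cℤ` then `p * r` is an integer multiple of `c`. -/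
theorem exists_mul_eq_of_nsmul_eq_zero {c r : ℚ} {p : ℕ}
    (h : p • ((r : ℚ) : ℚ ⧸ AddSubgroup.zmultiples c) = 0) : ∃ k : ℤ, (p : ℚ) * r = k * c := by
  rw [← QuotientAddGroup.mk_nsmul, QuotientAddGroup.eq_zero_iff,
    AddSubgroup.mem_zmultiples_iff] at h
  obtain ⟨k, hk⟩ := h
  rw [zsmul_eq_mul, nsmul_eq_mul] at hk
  exact ⟨k, hk.symm⟩

/-! ### The node data of the Frey curve at `2` -/

section Node

variable (P : FreyPackage) (A : ValuationSubring K) (hA : A.LiesOverPrime 2)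

/-- The `ℚ`-valued valuation of `A` normalised by `w 2 = 1`. -/
noncomputable def val2 : RatVal K := FoldCase.ratVal A Nat.prime_two hA

theorem val2_w (x : K) : (val2 A hA).w x = wval A 2 x := rfl

theorem freyCurve_a₁ : (P.freyCurve⁄K).a₁ = 1 := by
  simp [WeierstrassCurve.baseChange, FreyPackage.freyCurve]

theorem freyCurve_a₃ : (P.freyCurve⁄K).a₃ = 0 := by
  simp [WeierstrassCurve.baseChange, FreyPackage.freyCurve]

theorem freyCurve_a₆ : (P.freyCurve⁄K).a₆ = 0 := by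
  simp [WeierstrassCurve.baseChange, FreyPackage.freyCurve]

theorem freyCurve_a₂ : (P.freyCurve⁄K).a₂ = algebraMap ℚ K P.freyCurve.a₂ := rfl

theorem freyCurve_a₄ : (P.freyCurve⁄K).a₄ = algebraMap ℚ K P.freyCurve.a₄ := rfl

include hA in
theorem two_mem_nonunits : (2 : K) ∈ A.nonunits := by
  have h : ((2 : ℕ) : K) ∈ A.nonunits := hA
  simpa using h

include hA in
/-- The coefficients of the Frey curve are integral at `2`. -/
theorem freyCurve_coeff_mem :
    (P.freyCurve⁄K).a₁ ∈ A ∧ (P.freyCurve⁄K).a₂ ∈ A ∧ (P.freyCurve⁄K).a₃ ∈ A ∧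
      (P.freyCurve⁄K).a₄ ∈ A ∧ (P.freyCurve⁄K).a₆ ∈ A := by
  refine ⟨?_, ?_, ?_, ?_, ?_⟩
  · rw [freyCurve_a₁]; exact one_mem A
  · rw [freyCurve_a₂]; exact L2Frey.a₂_mem P A
  · rw [freyCurve_a₃]; exact zero_mem A
  · rw [freyCurve_a₄]
    obtain ⟨e, m, -, -, -, h⟩ := @L2Frey.exists_a₄_map P K _ _
    rw [h]
    exact mul_mem (pow_mem (A.nonunits_subset (two_mem_nonunits A hA)) e) (intCast_mem A m)
  · rw [freyCurve_a₆]; exact zero_mem A

include hA in
/-- The valuation of `a₄` at `2`: a positive integer prime to `p`. -/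
theorem exists_wval_a₄ :
    ∃ e : ℕ, 0 < e ∧ ¬ P.p ∣ e ∧ (P.freyCurve⁄K).a₄ ≠ 0 ∧
      wval A 2 (P.freyCurve⁄K).a₄ = (e : ℚ) := by
  obtain ⟨e, m, he, hpe, hm, h⟩ := @L2Frey.exists_a₄_map P K _ _
  have h2 : ((2 : ℕ) : K) ∈ A.nonunits := hA
  have hm0 : (m : K) ≠ 0 := by
    intro h0
    have : m = 0 := by exact_mod_cast h0
    rw [this] at hm
    exact absurd hm (by decide)
  have h20 : ((2 : ℕ) : K) ^ e ≠ 0 := pow_ne_zero _ (by norm_num)
  have hm2 : ¬ ((2 : ℕ) : ℤ) ∣ m := by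
    intro hdvd
    rw [Int.odd_iff] at hm
    have : m % 2 = 0 := Int.emod_eq_zero_of_dvd (by simpa using hdvd)
    omega
  refine ⟨e, he, hpe, ?_, ?_⟩
  · rw [freyCurve_a₄, h]
    exact mul_ne_zero (pow_ne_zero _ (by norm_num)) hm0
  · rw [freyCurve_a₄, h]
    have e1 : (2 : K) ^ e * (m : K) = ((2 : ℕ) : K) ^ e * (m : K) := by norm_num
    rw [e1, wval_mul A Nat.prime_two h2 h20 hm0, wval_pow A Nat.prime_two h2,
      wval_q A Nat.prime_two h2, wval_intCast_of_not_dvd A Nat.prime_two h2 hm2]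
    ring

/-- The roots `α, α'` of `t² + a₁ t - a₂`. -/
theorem exists_roots :
    ∃ α α' : K, α + α' = -(P.freyCurve⁄K).a₁ ∧ α * α' = -(P.freyCurve⁄K).a₂ ∧
      (α - α') ^ 2 = algebraMap ℚ K P.freyCurve.a₁ ^ 2 + 4 * algebraMap ℚ K P.freyCurve.a₂ := by
  obtain ⟨d, hd⟩ := IsAlgClosed.exists_pow_nat_eq
    (algebraMap ℚ K P.freyCurve.a₁ ^ 2 + 4 * algebraMap ℚ K P.freyCurve.a₂) (n := 2) (by norm_num)
  have ha1 : algebraMap ℚ K P.freyCurve.a₁ = 1 := by
    have : P.freyCurve.a₁ = 1 := rfl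
    rw [this, map_one]
  refine ⟨(d - 1) / 2, (-d - 1) / 2, ?_, ?_, ?_⟩
  · rw [freyCurve_a₁]; ring
  · rw [freyCurve_a₂]
    rw [ha1] at hd
    have : 4 * algebraMap ℚ K P.freyCurve.a₂ = d ^ 2 - 1 := by rw [hd]; ring
    linear_combination (1 / 4 : K) * this
  · rw [← hd]; ring

include hA in
/-- The Frey curve at a place over `2` is a node curve. -/
theorem exists_nodeCurve :
    ∃ α α' : K, Trop.NodeCurve (val2 A hA) (P.freyCurve⁄K) α α' := by
  obtain ⟨α, α', hsum, hprod, hsq⟩ := exists_roots P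
  obtain ⟨e, he, -, hne, hw⟩ := exists_wval_a₄ P A hA
  have h2 : ((2 : ℕ) : K) ∈ A.nonunits := hA
  refine ⟨α, α', ⟨freyCurve_a₃ P, freyCurve_a₆ P, hprod, ⟨hsum, ?_, ?_, hne⟩⟩⟩
  · -- `α - α'` is a unit
    obtain ⟨n, hn, hb⟩ := L2Frey.exists_b₂_odd P
    have hb' : algebraMap ℚ K P.freyCurve.a₁ ^ 2 + 4 * algebraMap ℚ K P.freyCurve.a₂ = (n : K) := by
      rw [← @L2Frey.algebraMap_int K _ _ n, ← hb]
      simp only [map_add, map_mul, map_pow, map_ofNat]
    rw [hb'] at hsq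
    have hn2 : ¬ ((2 : ℕ) : ℤ) ∣ n := by
      intro hdvd
      rw [Int.odd_iff] at hn
      have : n % 2 = 0 := Int.emod_eq_zero_of_dvd (by simpa using hdvd)
      omega
    have hn0 : (n : K) ≠ 0 := by
      intro h0
      have : n = 0 := by exact_mod_cast h0
      rw [this] at hn
      exact absurd hn (by decide)
    have hd0 : α - α' ≠ 0 := by
      intro h0
      rw [h0] at hsq
      exact hn0 (by rw [← hsq]; ring)
    refine ⟨hd0, ?_⟩
    have h3 : wval A 2 ((α - α') ^ 2) = 0 := by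
      rw [hsq]; exact wval_intCast_of_not_dvd A Nat.prime_two h2 hn2
    rw [wval_pow A Nat.prime_two h2] at h3
    rw [val2_w]
    have : ((2 : ℕ) : ℚ) * wval A 2 (α - α') = 0 := h3
    simpa using this
  · rw [val2_w, hw]
    exact_mod_cast he

end Node

/-! ### Consequences of the homomorphism `Λ` -/

section Lam

variable {P : FreyPackage} {A : ValuationSubring K} {hA : A.LiesOverPrime 2} {α α' : K}
  (C : Trop.NodeCurve (val2 A hA) (P.freyCurve⁄K) α α')

include C in
theorem some_mem_E0_iff' {x y : K} (h : (P.freyCurve⁄K).Nonsingular x y) :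
    Point.some x y h ∈ Trop.E0 C ↔ x ∉ A.nonunits := by
  rw [Trop.some_mem_E0_iff, val2_w]
  constructor
  · rintro ⟨hx, hw⟩ hmem
    have := (wval_pos_iff A Nat.prime_two hA hx).2 hmem
    linarith
  · intro hx
    have hx0 : x ≠ 0 := by
      rintro rfl
      exact hx (Fermat.Agent.S54.zero_mem_nonunits A)
    refine ⟨hx0, ?_⟩
    by_contra hcon
    push Not at hcon
    exact hx ((wval_pos_iff A Nat.prime_two hA hx0).1 hcon)

include C in
theorem some_mem_E1_iff' {x y : K} (h : (P.freyCurve⁄K).Nonsingular x y) :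
    Point.some x y h ∈ Trop.E1 C ↔ x ∉ A := by
  rw [Trop.some_mem_E1_iff, val2_w]
  constructor
  · rintro ⟨hx, hw⟩ hmem
    have := (wval_nonneg_iff A Nat.prime_two hA hx).2 hmem
    linarith
  · intro hx
    have hx0 : x ≠ 0 := by
      rintro rfl
      exact hx (zero_mem A)
    refine ⟨hx0, ?_⟩
    by_contra hcon
    push Not at hcon
    exact hx ((wval_nonneg_iff A Nat.prime_two hA hx0).1 hcon)

/-- The `p`-torsion modulo `E₀` is cyclic. -/
theorem exists_zsmul_sub_mem_E0 {p : ℕ} (hp : p.Prime) (T T' : (P.freyCurve⁄K).Point)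
    (hT : p • T = 0) (hT' : p • T' = 0) (hT0 : T ∉ Trop.E0 C) :
    ∃ j : ℤ, T' - j • T ∈ Trop.E0 C := by
  have hg : p • Trop.lam C T = 0 := by rw [← map_nsmul, hT, map_zero]
  have hg' : p • Trop.lam C T' = 0 := by rw [← map_nsmul, hT', map_zero]
  have hg0 : Trop.lam C T ≠ 0 := fun h => hT0 (by rw [Trop.E0, AddMonoidHom.mem_ker]; exact h)
  obtain ⟨j, hj⟩ := exists_zsmul_eq_of_torsion hp _ _ hg hg' hg0
  refine ⟨j, ?_⟩
  rw [Trop.E0, AddMonoidHom.mem_ker, map_sub, map_zsmul, hj, sub_self]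

/-- A `p`-torsion point outside `E₀` has `x ≠ 0` of non-integral valuation (when `p` is an odd
prime not dividing the valuation `e` of `a₄`). -/
theorem wval_ne_int_of_notMem_E0 {p e : ℕ} (hp : p.Prime) (hp2 : p ≠ 2) (hpe : ¬ p ∣ e)
    (he : wval A 2 (P.freyCurve⁄K).a₄ = (e : ℚ))
    {x y : K} (h : (P.freyCurve⁄K).Nonsingular x y) (hT : p • Point.some x y h = 0)
    (hT0 : Point.some x y h ∉ Trop.E0 C) : x ≠ 0 ∧ ∀ m : ℤ, wval A 2 x ≠ (m : ℚ) := by
  have hg : p • Trop.lam C (Point.some x y h) = 0 := by rw [← map_nsmul, hT, map_zero]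
  have hpodd : ¬ (p : ℤ) ∣ 2 := by
    intro hdvd
    have h1 : p ∣ 2 := by exact_mod_cast hdvd
    exact hp2 ((Nat.prime_dvd_prime_iff_eq hp Nat.prime_two).1 h1)
  have hpe' : ¬ (p : ℤ) ∣ (e : ℤ) := by
    intro hdvd
    exact hpe (by exact_mod_cast hdvd)
  have hpZ : Prime (p : ℤ) := Nat.prime_iff_prime_int.mp hp
  have he0 : (0 : ℚ) < e := by
    have := C.node.pos
    rw [val2_w, he] at this
    exact this
  -- the common computation for the `(+)` and `(-)` points
  have key : ∀ x' : K, 0 < wval A 2 x' → wval A 2 x' < (e : ℚ) →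
      p • (((wval A 2 x' : ℚ)) : ℚ ⧸ AddSubgroup.zmultiples (2 * (val2 A hA).w (P.freyCurve⁄K).a₄))
        = 0 → ∀ m : ℤ, wval A 2 x' ≠ (m : ℚ) := by
    intro x' h0 h1 hx' m hm
    obtain ⟨k, hk⟩ := exists_mul_eq_of_nsmul_eq_zero hx'
    rw [val2_w, he, hm] at hk
    rw [hm] at h0 h1
    have hk' : (p : ℤ) * m = k * (2 * e) := by exact_mod_cast hk
    have hdvd : (p : ℤ) ∣ k := by
      have h2 : (p : ℤ) ∣ k * (2 * e) := ⟨m, hk'.symm⟩
      rcases hpZ.dvd_or_dvd h2 with h3 | h3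
      · exact h3
      · rcases hpZ.dvd_or_dvd h3 with h4 | h4
        · exact absurd h4 hpodd
        · exact absurd h4 hpe'
    obtain ⟨k0, rfl⟩ := hdvd
    have hm' : m = k0 * (2 * e) := by
      have hp0 : (p : ℤ) ≠ 0 := hpZ.ne_zero
      have : (p : ℤ) * m = p * (k0 * (2 * e)) := by rw [hk']; ring
      exact mul_left_cancel₀ hp0 this
    have h0' : (0 : ℤ) < m := by exact_mod_cast h0
    have h1' : m < (e : ℤ) := by exact_mod_cast h1
    have he0' : (0 : ℤ) < e := by exact_mod_cast he0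
    rw [hm'] at h0' h1'
    have hk0 : 0 < k0 := by
      by_contra hcon
      push Not at hcon
      nlinarith
    nlinarith
  rcases Trop.lam_cases C (Point.some x y h) with h1 | h1 | h1 | h1
  · exact absurd h1 hT0
  · obtain ⟨x', y', h', heq, hx0, hpos, hlt, -, hval⟩ := h1
    obtain ⟨rfl, rfl⟩ := Point.some.inj heq
    refine ⟨hx0, ?_⟩
    rw [hval] at hg
    rw [val2_w] at hpos
    rw [val2_w, val2_w, he] at hlt
    exact key x hpos hlt hg
  · obtain ⟨x', y', h', heq, hx0, hpos, hlt, -, hval⟩ := h1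
    obtain ⟨rfl, rfl⟩ := Point.some.inj heq
    refine ⟨hx0, ?_⟩
    rw [hval, smul_neg, neg_eq_zero] at hg
    rw [val2_w] at hpos
    rw [val2_w, val2_w, he] at hlt
    exact key x hpos hlt hg
  · exfalso
    rw [h1] at hg
    obtain ⟨k, hk⟩ := exists_mul_eq_of_nsmul_eq_zero hg
    rw [val2_w, he] at hk
    have hk' : (p : ℤ) * e = k * (2 * e) := by exact_mod_cast hk
    have he0' : (e : ℤ) ≠ 0 := by
      have : (0 : ℤ) < e := by exact_mod_cast he0
      exact this.ne'
    have : (p : ℤ) = 2 * k := by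
      have h3 : (p : ℤ) * e = (2 * k) * e := by rw [hk']; ring
      exact mul_right_cancel₀ he0' h3
    have h2p : 2 ∣ p := by
      have : (2 : ℤ) ∣ (p : ℤ) := ⟨k, this⟩
      exact_mod_cast this
    rcases hp.eq_one_or_self_of_dvd 2 h2p with h4 | h4
    · omega
    · exact hp2 h4.symm

/-- `Λ` is invariant under the elements of the decomposition group which fix `α`. -/
theorem lam_smul (σ : K ≃ₐ[ℚ] K) (hσ : σ ∈ A.decompositionSubgroup ℚ) (hα : σ α = α)
    (T : (P.freyCurve⁄K).Point) : Trop.lam C (σ • T) = Trop.lam C T := by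
  classical
  rcases T with _ | ⟨x, y, h⟩
  · rfl
  · have h' : (P.freyCurve⁄K).Nonsingular (σ x) (σ y) :=
      (WeierstrassCurve.Affine.baseChange_nonsingular P.freyCurve σ.toAlgHom.injective ..).mpr h
    have hmap : σ • Point.some x y h = Point.some (σ x) (σ y) h' := rfl
    rw [hmap, Trop.lam_some, Trop.lam_some]
    congr 1
    have hw : ∀ z : K, (val2 A hA).w (σ z) = (val2 A hA).w z := fun z =>
      wval_algEquiv A Nat.prime_two hA hσ z
    have h0 : ∀ z : K, σ z = 0 ↔ z = 0 := fun z => map_eq_zero_iff σ σ.injective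
    have hgt : Trop.Gt (val2 A hA) (σ y - α * σ x) ((val2 A hA).w (σ x)) ↔
        Trop.Gt (val2 A hA) (y - α * x) ((val2 A hA).w x) := by
      have e1 : σ y - α * σ x = σ (y - α * x) := by rw [map_sub, map_mul, hα]
      rw [e1]
      unfold Trop.Gt
      rw [hw, hw, h0]
    unfold Trop.lamQ
    rw [if_congr (h0 x) rfl rfl]
    by_cases hx0 : x = 0
    · rw [if_pos hx0, if_pos hx0]
    · rw [if_neg hx0, if_neg hx0, if_congr (by rw [hw x]) rfl rfl]
      by_cases h1 : (val2 A hA).w x ≤ 0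
      · rw [if_pos h1, if_pos h1]
      · rw [if_neg h1, if_neg h1, if_congr (by rw [hw x]) rfl rfl]
        by_cases h2 : (val2 A hA).w (P.freyCurve⁄K).a₄ ≤ (val2 A hA).w x
        · rw [if_pos h2, if_pos h2]
        · rw [if_neg h2, if_neg h2, if_congr hgt rfl rfl, hw x]

include C in
/-- The root `α` is integral. -/
theorem root_mem : α ∈ A := by
  by_contra hα
  obtain ⟨h1, h2, -, -, -⟩ := freyCurve_coeff_mem P A hA
  have hα0 : α ≠ 0 := by
    rintro rfl
    exact hα (zero_mem A)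
  have hinv : α⁻¹ ∈ A.nonunits := by
    rw [ValuationSubring.mem_nonunits_iff, map_inv₀]
    have h3 : ¬ A.valuation α ≤ 1 := fun h => hα ((A.valuation_le_one_iff α).1 h)
    push Not at h3
    have hpos : 0 < A.valuation α := lt_trans zero_lt_one h3
    exact (inv_lt_one₀ hpos).2 h3
  have heq : α ^ 2 + (P.freyCurve⁄K).a₁ * α - (P.freyCurve⁄K).a₂ = 0 := by
    have e1 := C.node.sum
    have e2 := C.prod
    linear_combination α * e1 - e2
  have hone : (1 : K) = -((P.freyCurve⁄K).a₁ * α⁻¹) + (P.freyCurve⁄K).a₂ * (α⁻¹ * α⁻¹) := by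
    field_simp
    linear_combination heq
  apply Fermat.Agent.S54.one_not_mem_nonunits A
  rw [hone]
  refine Fermat.Agent.S54.add_mem_nonunits A ?_ ?_
  · have := Fermat.Agent.S54.mul_mem_nonunits A h1 hinv
    rw [ValuationSubring.mem_nonunits_iff] at this ⊢
    rwa [Valuation.map_neg]
  · exact Fermat.Agent.S54.mul_mem_nonunits A h2
      (Fermat.Agent.S54.mul_mem_nonunits A (A.nonunits_subset hinv) hinv)

include C in
/-- Inertia fixes the root `α`. -/
theorem map_root_eq_of_mem_inertia (σ : K ≃ₐ[ℚ] K) (hσ : σ ∈ A.inertiaSubgroupIn ℚ) :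
    σ α = α := by
  have heq : α ^ 2 + (P.freyCurve⁄K).a₁ * α - (P.freyCurve⁄K).a₂ = 0 := by
    have e1 := C.node.sum
    have e2 := C.prod
    linear_combination α * e1 - e2
  have hσ1 : σ (P.freyCurve⁄K).a₁ = (P.freyCurve⁄K).a₁ := by
    rw [freyCurve_a₁, map_one]
  have hσ2 : σ (P.freyCurve⁄K).a₂ = (P.freyCurve⁄K).a₂ := by
    rw [freyCurve_a₂]; exact σ.commutes _
  have heq' : (σ α) ^ 2 + (P.freyCurve⁄K).a₁ * σ α - (P.freyCurve⁄K).a₂ = 0 := by
    have := congrArg σ heq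
    rw [map_sub, map_add, map_pow, map_mul, hσ1, hσ2, map_zero] at this
    exact this
  have hprod : (σ α - α) * (σ α - α') = 0 := by
    have e1 := C.node.sum
    have e2 := C.prod
    linear_combination heq' - (σ α) * e1 + e2
  rcases mul_eq_zero.1 hprod with h | h
  · exact sub_eq_zero.1 h
  · exfalso
    have hmem := QVal.sub_mem_nonunits_of_mem_inertia A hσ (root_mem C)
    rw [sub_eq_zero.1 h] at hmem
    have hd := C.node.delta
    have hpos : 0 < wval A 2 (α' - α) := by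
      have hne : α' - α ≠ 0 := by
        intro h0
        exact hd.1 (by rw [← neg_sub, h0, neg_zero])
      exact (wval_pos_iff A Nat.prime_two hA hne).2 hmem
    have h3 : wval A 2 (α' - α) = wval A 2 (α - α') := by
      rw [← neg_sub, wval_neg A Nat.prime_two hA]
    rw [h3] at hpos
    have := hd.2
    rw [val2_w] at this
    linarith

end Lam

end Fermat.Agent.S13.L2
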