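import Mathlib

set_option autoImplicit false

open WeierstrassCurve

namespace Fermat.Agent.S13

namespace Red

variable {F : Type*} [Field F]

section Toolkit

variable (A : ValuationSubring F)

theorem one_notMem_nonunits : (1 : F) ∉ A.nonunits := by
  rw [ValuationSubring.mem_nonunits_iff, map_one]
  exact lt_irrefl _

theorem mul_mem_nonunits_left {x y : F} (hx : x ∈ A.nonunits) (hy : y ∈ A) :
    x * y ∈ A.nonunits := by
  rw [ValuationSubring.mem_nonunits_iff] at hx ⊢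
  rw [map_mul]
  have hy' : A.valuation y ≤ 1 := (A.valuation_le_one_iff y).2 hy
  calc A.valuation x * A.valuation y ≤ A.valuation x * 1 := mul_le_mul_right hy' _
    _ = A.valuation x := mul_one _
    _ < 1 := hx

theorem mul_mem_nonunits_right {x y : F} (hx : x ∈ A) (hy : y ∈ A.nonunits) :
    x * y ∈ A.nonunits := by
  rw [mul_comm]; exact mul_mem_nonunits_left A hy hx

theorem mem_of_mem_nonunits {x : F} (hx : x ∈ A.nonunits) : x ∈ A :=
  ValuationSubring.nonunits_subset hx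

theorem inv_mem_of_notMem_nonunits {x : F} (hx : x ∉ A.nonunits) : x⁻¹ ∈ A := by
  by_contra h
  exact hx ((ValuationSubring.mem_nonunits_iff_or A).2 (Or.inr h))

theorem ne_zero_of_notMem_nonunits {x : F} (hx : x ∉ A.nonunits) : x ≠ 0 := by
  rintro rfl
  exact hx A.nonunits.zero_mem

theorem inv_mem_nonunits_of_notMem {x : F} (hx : x ∉ A) : x⁻¹ ∈ A.nonunits :=
  (ValuationSubring.inv_mem_nonunits_iff A).2 (Or.inr hx)

theorem notMem_nonunits_of_inv_mem {x : F} (hx0 : x ≠ 0) (hx : x⁻¹ ∈ A) : x ∉ A.nonunits := by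
  intro h
  rcases (ValuationSubring.mem_nonunits_iff_or A).1 h with h0 | h1
  · exact hx0 h0
  · exact h1 hx

theorem one_add_notMem_nonunits {x : F} (hx : x ∈ A.nonunits) : 1 + x ∉ A.nonunits := by
  intro h
  apply one_notMem_nonunits A
  have : (1 : F) = (1 + x) - x := by ring
  rw [this]
  exact A.nonunits.sub_mem h hx

theorem notMem_of_mul_mem_nonunits {x y : F} (hy : y ∈ A) (hxy : x * y = 1) :
    x ∉ A.nonunits := by
  intro h
  apply one_notMem_nonunits A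
  rw [← hxy]
  exact mul_mem_nonunits_left A h hy

/-- Quadratic integrality. -/
theorem mem_of_quadratic {θ b c : F} (hb : b ∈ A) (hc : c ∈ A) (h : θ ^ 2 + b * θ + c = 0) :
    θ ∈ A := by
  by_contra hθ
  have hi : θ⁻¹ ∈ A.nonunits := inv_mem_nonunits_of_notMem A hθ
  have h0 : θ ≠ 0 := fun h0 => hθ (h0 ▸ (zero_mem A))
  apply one_notMem_nonunits A
  have key : (1 : F) = -(b * θ⁻¹ + c * (θ⁻¹ * θ⁻¹)) := by
    field_simp
    linear_combination h
  rw [key]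
  exact A.nonunits.neg_mem (A.nonunits.add_mem (mul_mem_nonunits_right A hb hi)
    (mul_mem_nonunits_right A hc (A.nonunits.mul_mem hi hi)))

theorem mem_nonunits_of_sq {z : F} (hz : z * z ∈ A.nonunits) : z ∈ A.nonunits := by
  rw [ValuationSubring.mem_nonunits_iff] at hz ⊢
  rw [map_mul] at hz
  by_contra h
  rw [not_lt] at h
  have : (1 : A.ValueGroup) ≤ A.valuation z * A.valuation z := by
    calc (1 : A.ValueGroup) = 1 * 1 := (one_mul 1).symm
      _ ≤ A.valuation z * A.valuation z := mul_le_mul' h h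
  exact absurd hz (not_lt.2 this)

end Toolkit

section Core

variable (A : ValuationSubring F)

/-- For a point with `x ∉ 𝔪` on `y² + a₁xy = x³ + a₂x² + a₄x`: `y / x²` and `y² / x³` are
integral. -/
theorem point_bounds {a₁ a₂ a₄ x y : F} (ha₁ : a₁ ∈ A) (ha₂ : a₂ ∈ A) (ha₄ : a₄ ∈ A)
    (hx : x ∉ A.nonunits) (h : y ^ 2 + a₁ * x * y = x ^ 3 + a₂ * x ^ 2 + a₄ * x) :
    y * (x⁻¹) ^ 2 ∈ A ∧ y ^ 2 * (x⁻¹) ^ 3 ∈ A := by
  have hq : x⁻¹ ∈ A := inv_mem_of_notMem_nonunits A hx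
  have hx0 : x ≠ 0 := ne_zero_of_notMem_nonunits A hx
  have hθ : y * (x⁻¹) ^ 2 ∈ A := by
    refine mem_of_quadratic A (b := a₁ * x⁻¹) (c := -(x⁻¹ + a₂ * (x⁻¹) ^ 2 + a₄ * (x⁻¹) ^ 3))
      (mul_mem ha₁ hq) (neg_mem (add_mem (add_mem hq (mul_mem ha₂ (pow_mem hq 2)))
        (mul_mem ha₄ (pow_mem hq 3)))) ?_
    field_simp
    linear_combination h
  refine ⟨hθ, ?_⟩
  have : y ^ 2 * (x⁻¹) ^ 3 = 1 + a₂ * x⁻¹ + a₄ * (x⁻¹) ^ 2 - a₁ * (y * (x⁻¹) ^ 2) := by
    field_simp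
    linear_combination h
  rw [this]
  exact sub_mem (add_mem (add_mem (one_mem A) (mul_mem ha₂ hq))
    (mul_mem ha₄ (pow_mem hq 2))) (mul_mem ha₁ hθ)

/-- Closure: the third intersection point of a line through two points with `x ∉ 𝔪` has
`x ∉ 𝔪`. -/
theorem third_notMem_nonunits {a₁ a₂ a₄ x₁ y₁ x₂ y₂ x₃ ℓ ν : F} (ha₁ : a₁ ∈ A) (ha₂ : a₂ ∈ A)
    (ha₄ : a₄ ∈ A.nonunits) (hx₁ : x₁ ∉ A.nonunits) (hx₂ : x₂ ∉ A.nonunits)
    (h₁ : y₁ ^ 2 + a₁ * x₁ * y₁ = x₁ ^ 3 + a₂ * x₁ ^ 2 + a₄ * x₁)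
    (h₂ : y₂ ^ 2 + a₁ * x₂ * y₂ = x₂ ^ 3 + a₂ * x₂ ^ 2 + a₄ * x₂)
    (hl₁ : y₁ = ℓ * x₁ + ν) (hl₂ : y₂ = ℓ * x₂ + ν)
    (e₂ : x₁ * x₂ + x₁ * x₃ + x₂ * x₃ = a₄ - ν * (2 * ℓ + a₁))
    (e₃ : x₁ * x₂ * x₃ = ν ^ 2) : x₃ ∉ A.nonunits := by
  have ha₄' : a₄ ∈ A := mem_of_mem_nonunits A ha₄
  have hq₁ : x₁⁻¹ ∈ A := inv_mem_of_notMem_nonunits A hx₁
  have hq₂ : x₂⁻¹ ∈ A := inv_mem_of_notMem_nonunits A hx₂
  have hx₁0 : x₁ ≠ 0 := ne_zero_of_notMem_nonunits A hx₁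
  have hx₂0 : x₂ ≠ 0 := ne_zero_of_notMem_nonunits A hx₂
  obtain ⟨hθ₁, hc₁⟩ := point_bounds A ha₁ ha₂ ha₄' hx₁ h₁
  obtain ⟨hθ₂, hc₂⟩ := point_bounds A ha₁ ha₂ ha₄' hx₂ h₂
  set S := y₁ * x₂ + y₂ * x₁ + a₁ * x₁ * x₂ with hS
  have hF2 : ν * S = x₁ * x₂ * (a₄ - x₁ * x₂) := by
    rw [hS, hl₁, hl₂]
    linear_combination (x₁ * x₂) * e₂ - (x₁ + x₂) * e₃
  -- the unit `u = 1 - a₄ / (x₁ x₂)`
  set u := 1 + -(a₄ * (x₁⁻¹ * x₂⁻¹)) with hu
  have hu1 : u ∉ A.nonunits := one_add_notMem_nonunits A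
    (A.nonunits.neg_mem (mul_mem_nonunits_left A ha₄ (mul_mem hq₁ hq₂)))
  have hu0 : u ≠ 0 := ne_zero_of_notMem_nonunits A hu1
  have hui : u⁻¹ ∈ A := inv_mem_of_notMem_nonunits A hu1
  have hF2' : ν * S = -((x₁ * x₂) ^ 2 * u) := by
    rw [hF2, hu]
    field_simp
    ring
  have hνS : ν * S ≠ 0 := by
    rw [hF2']
    exact neg_ne_zero.2 (mul_ne_zero (pow_ne_zero 2 (mul_ne_zero hx₁0 hx₂0)) hu0)
  have hν0 : ν ≠ 0 := left_ne_zero_of_mul hνS
  have hS0 : S ≠ 0 := right_ne_zero_of_mul hνS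
  have hx₃0 : x₃ ≠ 0 := by
    intro h0
    rw [h0, mul_zero] at e₃
    exact hν0 ((pow_eq_zero_iff (two_ne_zero)).1 e₃.symm)
  -- `S² / (x₁x₂)³ ∈ A`
  have hSA : S ^ 2 * (x₁⁻¹ * x₂⁻¹) ^ 3 ∈ A := by
    have : S ^ 2 * (x₁⁻¹ * x₂⁻¹) ^ 3 = (y₁ ^ 2 * (x₁⁻¹) ^ 3) * x₂⁻¹ + (y₂ ^ 2 * (x₂⁻¹) ^ 3) * x₁⁻¹
        + a₁ ^ 2 * (x₁⁻¹ * x₂⁻¹) + 2 * ((y₁ * (x₁⁻¹) ^ 2) * (y₂ * (x₂⁻¹) ^ 2))
        + 2 * a₁ * ((y₁ * (x₁⁻¹) ^ 2) * x₂⁻¹) + 2 * a₁ * ((y₂ * (x₂⁻¹) ^ 2) * x₁⁻¹) := by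
      rw [hS]
      field_simp
      ring
    rw [this]
    have h2 : (2 : F) ∈ A := by
      have : (2 : F) = 1 + 1 := by norm_num
      rw [this]; exact add_mem (one_mem A) (one_mem A)
    exact add_mem (add_mem (add_mem (add_mem (add_mem (mul_mem hc₁ hq₂)
      (mul_mem hc₂ hq₁)) (mul_mem (pow_mem ha₁ 2) (mul_mem hq₁ hq₂)))
      (mul_mem h2 (mul_mem hθ₁ hθ₂))) (mul_mem (mul_mem h2 ha₁) (mul_mem hθ₁ hq₂)))
      (mul_mem (mul_mem h2 ha₁) (mul_mem hθ₂ hq₁))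
  have hinv : x₃⁻¹ = S ^ 2 * (x₁⁻¹ * x₂⁻¹) ^ 3 * (u⁻¹) ^ 2 := by
    have e₃' : x₃ = ν ^ 2 / (x₁ * x₂) := by
      field_simp
      linear_combination e₃
    have hν : ν = -((x₁ * x₂) ^ 2 * u) / S := by
      field_simp
      linear_combination hF2'
    rw [e₃', hν]
    field_simp
  refine notMem_nonunits_of_inv_mem A hx₃0 ?_
  rw [hinv]
  exact mul_mem hSA (pow_mem hui 2)

/-- The product identity for the three intersection points of a line with the nodal model. -/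
theorem prod_identity {a₁ a₂ a₄ α x₁ x₂ x₃ ℓ ν : F} (hα : α ^ 2 + a₁ * α - a₂ = 0)
    (e₁ : x₁ + x₂ + x₃ = ℓ ^ 2 + a₁ * ℓ - a₂)
    (e₂ : x₁ * x₂ + x₁ * x₃ + x₂ * x₃ = a₄ - ν * (2 * ℓ + a₁))
    (e₃ : x₁ * x₂ * x₃ = ν ^ 2) :
    ((ℓ - α) * x₁ + ν) * ((ℓ - α) * x₂ + ν) * ((ℓ - α) * x₃ + ν) =
      ν ^ 3 + a₄ * ν * (ℓ - α) ^ 2 := by
  linear_combination (ℓ - α) ^ 3 * e₃ + (ℓ - α) ^ 2 * ν * e₂ + (ℓ - α) * ν ^ 2 * e₁ +
    (ℓ - α) * ν ^ 2 * hα

/-- The other root of `t² + a₁ t - a₂`. -/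
theorem root' {a₁ a₂ α : F} (hα : α ^ 2 + a₁ * α - a₂ = 0) :
    (-a₁ - α) ^ 2 + a₁ * (-a₁ - α) - a₂ = 0 := by
  linear_combination hα

/-- If the three intersection points have `x ∉ 𝔪`, then `(ℓ - α) / ν` is integral. -/
theorem ratio_mem {a₁ a₂ a₄ α x₁ x₂ x₃ ℓ ν : F} (ha₄ : a₄ ∈ A.nonunits)
    (hx₁ : x₁ ∉ A.nonunits) (hx₂ : x₂ ∉ A.nonunits) (hx₃ : x₃ ∉ A.nonunits)
    (hα : α ^ 2 + a₁ * α - a₂ = 0)
    (e₁ : x₁ + x₂ + x₃ = ℓ ^ 2 + a₁ * ℓ - a₂)
    (e₂ : x₁ * x₂ + x₁ * x₃ + x₂ * x₃ = a₄ - ν * (2 * ℓ + a₁))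
    (e₃ : x₁ * x₂ * x₃ = ν ^ 2) : ν ≠ 0 ∧ (ℓ - α) / ν ∈ A := by
  have ha₄' : a₄ ∈ A := mem_of_mem_nonunits A ha₄
  have hq₁ : x₁⁻¹ ∈ A := inv_mem_of_notMem_nonunits A hx₁
  have hq₂ : x₂⁻¹ ∈ A := inv_mem_of_notMem_nonunits A hx₂
  have hq₃ : x₃⁻¹ ∈ A := inv_mem_of_notMem_nonunits A hx₃
  have hx₁0 : x₁ ≠ 0 := ne_zero_of_notMem_nonunits A hx₁
  have hx₂0 : x₂ ≠ 0 := ne_zero_of_notMem_nonunits A hx₂
  have hx₃0 : x₃ ≠ 0 := ne_zero_of_notMem_nonunits A hx₃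
  have hν0 : ν ≠ 0 := by
    intro h
    rw [h] at e₃
    have : x₁ * x₂ * x₃ ≠ 0 := mul_ne_zero (mul_ne_zero hx₁0 hx₂0) hx₃0
    exact this (by rw [e₃]; ring)
  refine ⟨hν0, ?_⟩
  by_contra hκ
  have hℓ : ℓ - α ≠ 0 := by
    intro h
    apply hκ
    rw [h, zero_div]
    exact zero_mem A
  have hs : ν / (ℓ - α) ∈ A.nonunits := by
    have := inv_mem_nonunits_of_notMem A hκ
    rwa [inv_div] at this
  have hG := prod_identity hα e₁ e₂ e₃
  have key : (1 : F) = ν / (ℓ - α) * (((ν / (ℓ - α)) ^ 2 + a₄) * (x₁⁻¹ * x₂⁻¹ * x₃⁻¹)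
      - (x₁⁻¹ + x₂⁻¹ + x₃⁻¹) - ν / (ℓ - α) * (x₁⁻¹ * x₂⁻¹ + x₁⁻¹ * x₃⁻¹ + x₂⁻¹ * x₃⁻¹)
      - (ν / (ℓ - α)) ^ 2 * (x₁⁻¹ * x₂⁻¹ * x₃⁻¹)) := by
    field_simp
    linear_combination hG
  apply one_notMem_nonunits A
  rw [key]
  have hsA : ν / (ℓ - α) ∈ A := mem_of_mem_nonunits A hs
  refine mul_mem_nonunits_left A hs ?_
  exact sub_mem (sub_mem (sub_mem (mul_mem (add_mem (pow_mem hsA 2) ha₄')
    (mul_mem (mul_mem hq₁ hq₂) hq₃)) (add_mem (add_mem hq₁ hq₂) hq₃))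
    (mul_mem hsA (add_mem (add_mem (mul_mem hq₁ hq₂) (mul_mem hq₁ hq₃)) (mul_mem hq₂ hq₃))))
    (mul_mem (pow_mem hsA 2) (mul_mem (mul_mem hq₁ hq₂) hq₃))

/-- The congruence: `∏ (y_i - α' x_i) = ∏ (y_i - α x_i) * (1 + a₄ c)` with `c` integral. -/
theorem congr_core {a₁ a₂ a₄ α x₁ x₂ x₃ ℓ ν : F} (ha₄ : a₄ ∈ A.nonunits)
    (hx₁ : x₁ ∉ A.nonunits) (hx₂ : x₂ ∉ A.nonunits) (hx₃ : x₃ ∉ A.nonunits)
    (hα : α ^ 2 + a₁ * α - a₂ = 0)
    (e₁ : x₁ + x₂ + x₃ = ℓ ^ 2 + a₁ * ℓ - a₂)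
    (e₂ : x₁ * x₂ + x₁ * x₃ + x₂ * x₃ = a₄ - ν * (2 * ℓ + a₁))
    (e₃ : x₁ * x₂ * x₃ = ν ^ 2) :
    ((ℓ - α) * x₁ + ν) * ((ℓ - α) * x₂ + ν) * ((ℓ - α) * x₃ + ν) ≠ 0 ∧
    ∃ c ∈ A, ((ℓ - (-a₁ - α)) * x₁ + ν) * ((ℓ - (-a₁ - α)) * x₂ + ν) * ((ℓ - (-a₁ - α)) * x₃ + ν)
      = ((ℓ - α) * x₁ + ν) * ((ℓ - α) * x₂ + ν) * ((ℓ - α) * x₃ + ν) * (1 + a₄ * c) := by
  obtain ⟨hν0, hκ⟩ := ratio_mem A ha₄ hx₁ hx₂ hx₃ hα e₁ e₂ e₃
  obtain ⟨-, hκ'⟩ := ratio_mem A ha₄ hx₁ hx₂ hx₃ (root' hα) e₁ e₂ e₃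
  have hG := prod_identity hα e₁ e₂ e₃
  have hG' := prod_identity (root' hα) e₁ e₂ e₃
  set κ := (ℓ - α) / ν with hκdef
  set κ' := (ℓ - (-a₁ - α)) / ν with hκ'def
  have hu : 1 + a₄ * κ ^ 2 ∉ A.nonunits :=
    one_add_notMem_nonunits A (mul_mem_nonunits_left A ha₄ (pow_mem hκ 2))
  have hu0 : 1 + a₄ * κ ^ 2 ≠ 0 := ne_zero_of_notMem_nonunits A hu
  have hui : (1 + a₄ * κ ^ 2)⁻¹ ∈ A := inv_mem_of_notMem_nonunits A hu
  have hGκ : ν ^ 3 + a₄ * ν * (ℓ - α) ^ 2 = ν ^ 3 * (1 + a₄ * κ ^ 2) := by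
    rw [hκdef]; field_simp
  have hGκ' : ν ^ 3 + a₄ * ν * (ℓ - (-a₁ - α)) ^ 2 = ν ^ 3 * (1 + a₄ * κ' ^ 2) := by
    rw [hκ'def]; field_simp
  refine ⟨?_, (κ' ^ 2 - κ ^ 2) * (1 + a₄ * κ ^ 2)⁻¹,
    mul_mem (sub_mem (pow_mem hκ' 2) (pow_mem hκ 2)) hui, ?_⟩
  · rw [hG, hGκ]
    exact mul_ne_zero (pow_ne_zero 3 hν0) hu0
  · rw [hG, hG', hGκ, hGκ']
    field_simp
    ring

end Core

section Line

variable [DecidableEq F]

/-- The line through two points (chord or tangent) and its third intersection point with the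
curve: elementary symmetric functions of the three `x`-coordinates. -/
theorem line_identities (W : WeierstrassCurve F) {x₁ x₂ y₁ y₂ : F}
    (h₁ : W.toAffine.Equation x₁ y₁) (h₂ : W.toAffine.Equation x₂ y₂)
    (hxy : ¬(x₁ = x₂ ∧ y₁ = W.toAffine.negY x₂ y₂)) :
    y₂ = W.toAffine.slope x₁ x₂ y₁ y₂ * (x₂ - x₁) + y₁ ∧
    x₁ * x₂ + x₁ * W.toAffine.addX x₁ x₂ (W.toAffine.slope x₁ x₂ y₁ y₂) +
        x₂ * W.toAffine.addX x₁ x₂ (W.toAffine.slope x₁ x₂ y₁ y₂) =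
      2 * x₁ * (W.toAffine.slope x₁ x₂ y₁ y₂) ^ 2 +
        (W.a₁ * x₁ - 2 * y₁ - W.a₃) * W.toAffine.slope x₁ x₂ y₁ y₂ + (-W.a₁ * y₁ + W.a₄) ∧
    x₁ * x₂ * W.toAffine.addX x₁ x₂ (W.toAffine.slope x₁ x₂ y₁ y₂) =
      x₁ ^ 2 * (W.toAffine.slope x₁ x₂ y₁ y₂) ^ 2 -
        (2 * x₁ * y₁ + W.a₃ * x₁) * W.toAffine.slope x₁ x₂ y₁ y₂ +
        (y₁ ^ 2 + W.a₃ * y₁ - W.a₆) := by
  have h := Affine.addPolynomial_slope h₁ h₂ hxy
  rw [Affine.addPolynomial_eq, neg_inj, Cubic.prod_X_sub_C_eq, Cubic.toPoly_injective] at h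
  have hc := congrArg Cubic.c h
  have hd := congrArg Cubic.d h
  simp only at hc hd
  refine ⟨?_, hc.symm, by linear_combination hd⟩
  by_cases hx : x₁ = x₂
  · have hy : y₁ ≠ W.toAffine.negY x₂ y₂ := fun hy => hxy ⟨hx, hy⟩
    have := Affine.Y_eq_of_Y_ne h₁ h₂ hx hy
    rw [hx, this]; ring
  · rw [Affine.slope_of_X_ne hx]
    have : x₁ - x₂ ≠ 0 := sub_ne_zero.2 hx
    field_simp
    ring

end Line

/-- A Weierstrass model `y² + a₁xy = x³ + a₂x² + a₄x` over a valued field whose reduction has a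
node at the origin with tangent directions `α` and `α' = -a₁ - α` (distinct in the residue
field). No assumption on the residue characteristic. -/
structure NodeData (A : ValuationSubring F) (W : WeierstrassCurve F) (α : F) : Prop where
  a₃ : W.a₃ = 0
  a₆ : W.a₆ = 0
  a₁ : W.a₁ ∈ A
  a₂ : W.a₂ ∈ A
  a₄ : W.a₄ ∈ A.nonunits
  root : α ^ 2 + W.a₁ * α - W.a₂ = 0
  disc : 2 * α + W.a₁ ∉ A.nonunits

namespace NodeData

variable {A : ValuationSubring F} {W : WeierstrassCurve F} {α : F}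

theorem α_mem (hN : NodeData A W α) : α ∈ A :=
  mem_of_quadratic A hN.a₁ (neg_mem hN.a₂) (by linear_combination hN.root)

theorem α'_mem (hN : NodeData A W α) : -W.a₁ - α ∈ A :=
  sub_mem (neg_mem hN.a₁) hN.α_mem

theorem disc_mem (hN : NodeData A W α) : 2 * α + W.a₁ ∈ A := by
  have : 2 * α + W.a₁ = α + α + W.a₁ := by ring
  rw [this]
  exact add_mem (add_mem hN.α_mem hN.α_mem) hN.a₁

theorem equation_iff (hN : NodeData A W α) (x y : F) :
    W.toAffine.Equation x y ↔ y ^ 2 + W.a₁ * x * y = x ^ 3 + W.a₂ * x ^ 2 + W.a₄ * x := by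
  rw [Affine.equation_iff, hN.a₃, hN.a₆]
  simp

/-- Facts on an affine point with `x ∉ 𝔪`. -/
theorem point_facts (hN : NodeData A W α) {x y : F} (h : W.toAffine.Equation x y)
    (hx : x ∉ A.nonunits) :
    y - α * x ≠ 0 ∧ y - (-W.a₁ - α) * x ≠ 0 ∧
      (y - α * x) / (y - (-W.a₁ - α) * x) ∈ A ∧ (y - (-W.a₁ - α) * x) / (y - α * x) ∈ A ∧
      ((y - α * x) / (y - (-W.a₁ - α) * x) - 1 ∈ A.nonunits ↔ x ∉ A) := by
  rw [hN.equation_iff] at h
  have ha₄' : W.a₄ ∈ A := mem_of_mem_nonunits A hN.a₄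
  have hq : x⁻¹ ∈ A := inv_mem_of_notMem_nonunits A hx
  have hx0 : x ≠ 0 := ne_zero_of_notMem_nonunits A hx
  have hD := hN.disc
  have hDA := hN.disc_mem
  have hD0 : 2 * α + W.a₁ ≠ 0 := ne_zero_of_notMem_nonunits A hD
  have hDi : (2 * α + W.a₁)⁻¹ ∈ A := inv_mem_of_notMem_nonunits A hD
  set g := y - α * x with hg
  set g' := y - (-W.a₁ - α) * x with hg'
  -- the unit `1 + a₄ / x²`
  have hu : 1 + W.a₄ * (x⁻¹ * x⁻¹) ∉ A.nonunits :=
    one_add_notMem_nonunits A (mul_mem_nonunits_left A hN.a₄ (mul_mem hq hq))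
  have hu0 : 1 + W.a₄ * (x⁻¹ * x⁻¹) ≠ 0 := ne_zero_of_notMem_nonunits A hu
  have hui : (1 + W.a₄ * (x⁻¹ * x⁻¹))⁻¹ ∈ A := inv_mem_of_notMem_nonunits A hu
  have hgg : g * g' = x ^ 3 * (1 + W.a₄ * (x⁻¹ * x⁻¹)) := by
    rw [hg, hg']
    field_simp
    linear_combination h - x ^ 2 * hN.root
  have hgg0 : g * g' ≠ 0 := by
    rw [hgg]; exact mul_ne_zero (pow_ne_zero 3 hx0) hu0
  have hg0 : g ≠ 0 := left_ne_zero_of_mul hgg0
  have hg'0 : g' ≠ 0 := right_ne_zero_of_mul hgg0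
  have hdiff : g' - g = (2 * α + W.a₁) * x := by rw [hg, hg']; ring
  -- `z = x / g'`, `z₂ = x / g`
  have hzz : (x / g') * (x / g) = x⁻¹ * (1 + W.a₄ * (x⁻¹ * x⁻¹))⁻¹ := by
    have : x / g' * (x / g) = x ^ 2 / (g * g') := by field_simp
    rw [this, hgg]
    field_simp
  have hzzA : (x / g') * (x / g) ∈ A := by rw [hzz]; exact mul_mem hq hui
  have hrel : g' / x = g / x + (2 * α + W.a₁) := by
    field_simp
    linear_combination hdiff
  have hz : x / g' ∈ A := by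
    by_contra hz
    have h1 : g' / x ∈ A.nonunits := by
      have := inv_mem_nonunits_of_notMem A hz
      rwa [inv_div] at this
    have h2 : g / x ∈ A := by
      have : g / x = g' / x - (2 * α + W.a₁) := by rw [hrel]; ring
      rw [this]
      exact sub_mem (mem_of_mem_nonunits A h1) hDA
    have h3 : g / x ∉ A.nonunits := by
      intro h3
      apply hD
      have : 2 * α + W.a₁ = g' / x - g / x := by rw [hrel]; ring
      rw [this]
      exact A.nonunits.sub_mem h1 h3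
    apply hz
    have : x / g' = (x / g') * (x / g) * (g / x) := by field_simp
    rw [this]
    exact mul_mem hzzA h2
  have hz₂ : x / g ∈ A := by
    by_contra hz₂
    have h1 : g / x ∈ A.nonunits := by
      have := inv_mem_nonunits_of_notMem A hz₂
      rwa [inv_div] at this
    have h2 : g' / x ∈ A := by
      rw [hrel]
      exact add_mem (mem_of_mem_nonunits A h1) hDA
    apply hz₂
    have : x / g = (x / g') * (x / g) * (g' / x) := by field_simp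
    rw [this]
    exact mul_mem hzzA h2
  have ht : g / g' = 1 - (2 * α + W.a₁) * (x / g') := by
    field_simp
    linear_combination -hdiff
  have ht' : g' / g = 1 + (2 * α + W.a₁) * (x / g) := by
    field_simp
    linear_combination hdiff
  refine ⟨hg0, hg'0, ?_, ?_, ?_⟩
  · rw [ht]; exact sub_mem (one_mem A) (mul_mem hDA hz)
  · rw [ht']; exact add_mem (one_mem A) (mul_mem hDA hz₂)
  · have hsub : g / g' - 1 = -((2 * α + W.a₁) * (x / g')) := by rw [ht]; ring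
    rw [hsub]
    constructor
    · intro hm hxA
      -- `z ∈ 𝔪`
      have hzm : x / g' ∈ A.nonunits := by
        have : x / g' = -((2 * α + W.a₁) * (x / g')) * (-(2 * α + W.a₁)⁻¹) := by
          field_simp
        rw [this]
        exact mul_mem_nonunits_left A hm (neg_mem hDi)
      have hzzm : (x / g') * (x / g) ∈ A.nonunits := mul_mem_nonunits_left A hzm hz₂
      have hqm : x⁻¹ ∈ A.nonunits := by
        have : x⁻¹ = (x / g') * (x / g) * (1 + W.a₄ * (x⁻¹ * x⁻¹)) := by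
          rw [hzz, mul_assoc, inv_mul_cancel₀ hu0, mul_one]
        rw [this]
        exact mul_mem_nonunits_left A hzzm
          (add_mem (one_mem A) (mul_mem ha₄' (mul_mem hq hq)))
      apply one_notMem_nonunits A
      have : (1 : F) = x⁻¹ * x := by field_simp
      rw [this]
      exact mul_mem_nonunits_left A hqm hxA
    · intro hxA
      have hqm : x⁻¹ ∈ A.nonunits := inv_mem_nonunits_of_notMem A hxA
      have hzzm : (x / g') * (x / g) ∈ A.nonunits := by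
        rw [hzz]; exact mul_mem_nonunits_left A hqm hui
      have hz2 : x / g = x / g' + (2 * α + W.a₁) * ((x / g') * (x / g)) := by
        field_simp
        linear_combination hdiff
      have hsq : (x / g') * (x / g') ∈ A.nonunits := by
        have : (x / g') * (x / g') = (x / g') * (x / g) * (1 - (2 * α + W.a₁) * (x / g')) := by
          field_simp
          linear_combination -x ^ 2 * g' * hdiff
        rw [this]
        exact mul_mem_nonunits_left A hzzm (sub_mem (one_mem A) (mul_mem hDA hz))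
      have hzm := mem_nonunits_of_sq A hsq
      exact A.nonunits.neg_mem (mul_mem_nonunits_right A hDA hzm)

end NodeData

section Points

variable [DecidableEq F]

/-- `P` lies in `E₀`: it is `0` or its `x`-coordinate is not in the maximal ideal
(nonsingular reduction). -/
def InE0 (A : ValuationSubring F) {W : WeierstrassCurve F} : W.toAffine.Point → Prop
  | .zero => True
  | .some x _ _ => x ∉ A.nonunits

/-- `P` lies in `E₁` (kernel of reduction): it is `0` or its `x`-coordinate is not integral. -/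
def InE1 (A : ValuationSubring F) {W : WeierstrassCurve F} : W.toAffine.Point → Prop
  | .zero => True
  | .some x _ _ => x ∉ A

/-- The multiplicative coordinate `t = (y - αx)/(y - α'x)`, `t(0) = 1`. -/
def tval (W : WeierstrassCurve F) (α : F) : W.toAffine.Point → F
  | .zero => 1
  | .some x y _ => (y - α * x) / (y - (-W.a₁ - α) * x)

variable {A : ValuationSubring F} {W : WeierstrassCurve F} {α : F}

omit [DecidableEq F] in
@[simp] theorem inE0_zero : InE0 A (0 : W.toAffine.Point) := trivial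

omit [DecidableEq F] in
@[simp] theorem inE1_zero : InE1 A (0 : W.toAffine.Point) := trivial

omit [DecidableEq F] in
@[simp] theorem inE0_some {x y : F} (h : W.toAffine.Nonsingular x y) :
    InE0 A (Affine.Point.some x y h) ↔ x ∉ A.nonunits := Iff.rfl

omit [DecidableEq F] in
@[simp] theorem inE1_some {x y : F} (h : W.toAffine.Nonsingular x y) :
    InE1 A (Affine.Point.some x y h) ↔ x ∉ A := Iff.rfl

omit [DecidableEq F] in
@[simp] theorem tval_zero : tval W α (0 : W.toAffine.Point) = 1 := rfl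

omit [DecidableEq F] in
@[simp] theorem tval_some {x y : F} (h : W.toAffine.Nonsingular x y) :
    tval W α (Affine.Point.some x y h) = (y - α * x) / (y - (-W.a₁ - α) * x) := rfl

omit [DecidableEq F] in
theorem InE1.inE0 {P : W.toAffine.Point} (hP : InE1 A P) : InE0 A P := by
  rcases P with _ | ⟨x, y, h⟩
  · trivial
  · exact fun hx => hP (mem_of_mem_nonunits A hx)

omit [DecidableEq F] in
theorem inE0_neg {P : W.toAffine.Point} (hP : InE0 A P) : InE0 A (-P) := by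
  rcases P with _ | ⟨x, y, h⟩
  · trivial
  · exact hP

omit [DecidableEq F] in
/-- `t(-P) = t(P)⁻¹`. -/
theorem tval_neg (hN : NodeData A W α) (P : W.toAffine.Point) :
    tval W α (-P) = (tval W α P)⁻¹ := by
  rcases P with _ | ⟨x, y, h⟩
  · change (1 : F) = 1⁻¹
    simp
  · rw [Affine.Point.neg_some, tval_some, tval_some, inv_div, Affine.negY, hN.a₃]
    have e1 : -y - W.a₁ * x - 0 - α * x = -(y - (-W.a₁ - α) * x) := by ring
    have e2 : -y - W.a₁ * x - 0 - (-W.a₁ - α) * x = -(y - α * x) := by ring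
    rw [e1, e2, neg_div_neg_eq]

omit [DecidableEq F] in
/-- Integrality of `t` on `E₀`. -/
theorem tval_mem (hN : NodeData A W α) {P : W.toAffine.Point} (hP : InE0 A P) :
    tval W α P ∈ A ∧ (tval W α P)⁻¹ ∈ A ∧ tval W α P ≠ 0 := by
  rcases P with _ | ⟨x, y, h⟩
  · change (1 : F) ∈ A ∧ (1 : F)⁻¹ ∈ A ∧ (1 : F) ≠ 0
    simp [one_mem]
  · obtain ⟨hg, hg', ht, ht', -⟩ := hN.point_facts h.1 hP
    refine ⟨ht, ?_, div_ne_zero hg hg'⟩
    rw [tval_some, inv_div]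
    exact ht'

omit [DecidableEq F] in
/-- On `E₀`: `t ≡ 1` modulo the maximal ideal exactly on `E₁`. -/
theorem tval_sub_one_mem_iff (hN : NodeData A W α) {P : W.toAffine.Point} (hP : InE0 A P) :
    tval W α P - 1 ∈ A.nonunits ↔ InE1 A P := by
  rcases P with _ | ⟨x, y, h⟩
  · change (1 : F) - 1 ∈ A.nonunits ↔ True
    simp [A.nonunits.zero_mem]
  · exact (hN.point_facts h.1 hP).2.2.2.2

omit [DecidableEq F] in
theorem final_alg {g₁ g₂ g₃ g₁' g₂' g₃' u : F} (h₁' : g₁' ≠ 0) (h₂' : g₂' ≠ 0) (h₃ : g₃ ≠ 0)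
    (hG : g₁' * g₂' * g₃' = g₁ * g₂ * g₃ * u) :
    (-g₃') / (-g₃) = g₁ / g₁' * (g₂ / g₂') * u := by
  rw [neg_div_neg_eq]
  field_simp
  linear_combination hG

/-- **Main congruence.** `E₀` is closed under addition and `t` is multiplicative on `E₀`
modulo `1 + a₄ A`. -/
theorem tval_add (hN : NodeData A W α) {P Q : W.toAffine.Point} (hP : InE0 A P)
    (hQ : InE0 A Q) :
    InE0 A (P + Q) ∧ ∃ c ∈ A, tval W α (P + Q) = tval W α P * tval W α Q * (1 + W.a₄ * c) := by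
  rcases P with _ | ⟨x₁, y₁, h₁⟩
  · refine ⟨by simpa [← Affine.Point.zero_def] using hQ, 0, zero_mem A, ?_⟩
    rw [← Affine.Point.zero_def, zero_add, tval_zero]
    ring
  rcases Q with _ | ⟨x₂, y₂, h₂⟩
  · refine ⟨by simpa [← Affine.Point.zero_def] using hP, 0, zero_mem A, ?_⟩
    rw [← Affine.Point.zero_def, add_zero, tval_zero]
    ring
  by_cases hxy : x₁ = x₂ ∧ y₁ = W.toAffine.negY x₂ y₂
  · rw [Affine.Point.add_of_Y_eq hxy.1 hxy.2]
    refine ⟨trivial, 0, zero_mem A, ?_⟩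
    have hneg : Affine.Point.some x₁ y₁ h₁ = -Affine.Point.some x₂ y₂ h₂ := by
      rw [Affine.Point.neg_some]
      congr 1
      · exact hxy.1
      · exact hxy.2
    have h0 := (tval_mem hN hQ).2.2
    rw [hneg, tval_neg hN, tval_zero]
    field_simp
    ring
  · rw [Affine.Point.add_some hxy]
    obtain ⟨hl, he₂, he₃⟩ := line_identities W h₁.1 h₂.1 hxy
    set ℓ := W.toAffine.slope x₁ x₂ y₁ y₂ with hℓ
    set x₃ := W.toAffine.addX x₁ x₂ ℓ with hx₃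
    have hx₁ : x₁ ∉ A.nonunits := hP
    have hx₂ : x₂ ∉ A.nonunits := hQ
    have e₁ : x₁ + x₂ + x₃ = ℓ ^ 2 + W.a₁ * ℓ - W.a₂ := by
      rw [hx₃]; simp only [Affine.addX]; ring
    have e₂ : x₁ * x₂ + x₁ * x₃ + x₂ * x₃ = W.a₄ - (y₁ - ℓ * x₁) * (2 * ℓ + W.a₁) := by
      rw [he₂, hN.a₃]; ring
    have e₃ : x₁ * x₂ * x₃ = (y₁ - ℓ * x₁) ^ 2 := by
      rw [he₃, hN.a₃, hN.a₆]; ring
    have hE₁ := (hN.equation_iff x₁ y₁).1 h₁.1
    have hE₂ := (hN.equation_iff x₂ y₂).1 h₂.1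
    have hx₃' : x₃ ∉ A.nonunits :=
      third_notMem_nonunits A hN.a₁ hN.a₂ hN.a₄ hx₁ hx₂ hE₁ hE₂ (by ring)
        (by rw [hl]; ring) e₂ e₃
    refine ⟨hx₃', ?_⟩
    obtain ⟨hG0, c, hc, hGc⟩ := congr_core A hN.a₄ hx₁ hx₂ hx₃' hN.root e₁ e₂ e₃
    refine ⟨c, hc, ?_⟩
    obtain ⟨hg₁, hg₁', -⟩ := hN.point_facts h₁.1 hx₁
    obtain ⟨hg₂, hg₂', -⟩ := hN.point_facts h₂.1 hx₂
    rw [tval_some, tval_some, tval_some]
    -- rewrite everything through the line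
    have k₁ : y₁ - α * x₁ = (ℓ - α) * x₁ + (y₁ - ℓ * x₁) := by ring
    have k₁' : y₁ - (-W.a₁ - α) * x₁ = (ℓ - (-W.a₁ - α)) * x₁ + (y₁ - ℓ * x₁) := by ring
    have k₂ : y₂ - α * x₂ = (ℓ - α) * x₂ + (y₁ - ℓ * x₁) := by rw [hl]; ring
    have k₂' : y₂ - (-W.a₁ - α) * x₂ = (ℓ - (-W.a₁ - α)) * x₂ + (y₁ - ℓ * x₁) := by
      rw [hl]; ring
    have k₃ : W.toAffine.addY x₁ x₂ y₁ ℓ - α * x₃ =
        -((ℓ - (-W.a₁ - α)) * x₃ + (y₁ - ℓ * x₁)) := by
      simp only [Affine.addY, Affine.negAddY, Affine.negY, hN.a₃, ← hx₃]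
      ring
    have k₃' : W.toAffine.addY x₁ x₂ y₁ ℓ - (-W.a₁ - α) * x₃ =
        -((ℓ - α) * x₃ + (y₁ - ℓ * x₁)) := by
      simp only [Affine.addY, Affine.negAddY, Affine.negY, hN.a₃, ← hx₃]
      ring
    have hg₁'L : (ℓ - (-W.a₁ - α)) * x₁ + (y₁ - ℓ * x₁) ≠ 0 := by rw [← k₁']; exact hg₁'
    have hg₂'L : (ℓ - (-W.a₁ - α)) * x₂ + (y₁ - ℓ * x₁) ≠ 0 := by rw [← k₂']; exact hg₂'
    have hg₃ : (ℓ - α) * x₃ + (y₁ - ℓ * x₁) ≠ 0 := right_ne_zero_of_mul hG0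
    rw [k₃, k₃', k₁, k₁', k₂, k₂']
    exact final_alg hg₁'L hg₂'L hg₃ hGc

/-- `E₀`: the points with nonsingular reduction, as a subgroup. -/
def E0 (hN : NodeData A W α) : AddSubgroup W.toAffine.Point where
  carrier := {P | InE0 A P}
  zero_mem' := trivial
  add_mem' := fun hP hQ => (tval_add hN hP hQ).1
  neg_mem' := fun hP => inE0_neg hP

theorem mem_E0_iff (hN : NodeData A W α) (P : W.toAffine.Point) : P ∈ E0 hN ↔ InE0 A P :=
  Iff.rfl

theorem some_mem_E0_iff (hN : NodeData A W α) {x y : F} (h : W.toAffine.Nonsingular x y) :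
    Affine.Point.some x y h ∈ E0 hN ↔ x ∉ A.nonunits := Iff.rfl

/-- The residue class of `t(T)`, `T ∈ E₀`, as an element of the residue field. -/
noncomputable def redFun (hN : NodeData A W α) (T : E0 hN) : IsLocalRing.ResidueField A :=
  IsLocalRing.residue A ⟨tval W α T.1, (tval_mem hN T.2).1⟩

omit [DecidableEq F] in
theorem residue_eq_iff (a b : A) :
    IsLocalRing.residue A a = IsLocalRing.residue A b ↔ (a : F) - (b : F) ∈ A.nonunits := by
  rw [← sub_eq_zero, ← map_sub, IsLocalRing.residue_eq_zero_iff,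
    ← ValuationSubring.coe_mem_nonunits_iff]
  rfl

theorem redFun_zero (hN : NodeData A W α) : redFun hN 0 = 1 := by
  rw [← map_one (IsLocalRing.residue A)]
  rfl

theorem redFun_add (hN : NodeData A W α) (S T : E0 hN) :
    redFun hN (S + T) = redFun hN S * redFun hN T := by
  obtain ⟨-, c, hc, h⟩ := tval_add hN S.2 T.2
  rw [redFun, redFun, redFun, ← map_mul, residue_eq_iff]
  change tval W α (S.1 + T.1) - tval W α S.1 * tval W α T.1 ∈ A.nonunits
  rw [h]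
  have : tval W α S.1 * tval W α T.1 * (1 + W.a₄ * c) - tval W α S.1 * tval W α T.1 =
      W.a₄ * (c * (tval W α S.1 * tval W α T.1)) := by ring
  rw [this]
  exact mul_mem_nonunits_left A hN.a₄
    (mul_mem hc (mul_mem (tval_mem hN S.2).1 (tval_mem hN T.2).1))

/-- `red` as a monoid homomorphism on `Multiplicative E₀`. -/
noncomputable def redMul (hN : NodeData A W α) :
    Multiplicative (E0 hN) →* IsLocalRing.ResidueField A where
  toFun T := redFun hN T.toAdd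
  map_one' := redFun_zero hN
  map_mul' S T := redFun_add hN S.toAdd T.toAdd

/-- **The reduction homomorphism** `E₀ → kˣ` (written additively), `T ↦ t(T) mod 𝔪`. -/
noncomputable def redHom (hN : NodeData A W α) :
    E0 hN →+ Additive (IsLocalRing.ResidueField A)ˣ :=
  MonoidHom.toAdditiveRight (redMul hN).toHomUnits

theorem redHom_apply (hN : NodeData A W α) (T : E0 hN) :
    ((redHom hN T).toMul : IsLocalRing.ResidueField A) =
      IsLocalRing.residue A ⟨tval W α T.1, (tval_mem hN T.2).1⟩ := rfl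

theorem redHom_eq_iff (hN : NodeData A W α) (S T : E0 hN) :
    redHom hN S = redHom hN T ↔ tval W α S.1 - tval W α T.1 ∈ A.nonunits := by
  rw [← residue_eq_iff ⟨tval W α S.1, (tval_mem hN S.2).1⟩ ⟨tval W α T.1, (tval_mem hN T.2).1⟩,
    ← redHom_apply, ← redHom_apply]
  constructor
  · intro h; rw [h]
  · intro h
    exact Additive.toMul.injective (Units.ext h)

/-- The kernel of `red` is `E₁`. -/
theorem redHom_eq_zero_iff (hN : NodeData A W α) (T : E0 hN) :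
    redHom hN T = 0 ↔ InE1 A T.1 := by
  rw [← tval_sub_one_mem_iff hN T.2, ← map_zero (redHom hN), redHom_eq_iff]
  rfl

/-- `E₁`: the kernel of reduction, as a subgroup. -/
noncomputable def E1 (hN : NodeData A W α) : AddSubgroup W.toAffine.Point :=
  (redHom hN).ker.map (E0 hN).subtype

theorem mem_E1_iff (hN : NodeData A W α) (P : W.toAffine.Point) : P ∈ E1 hN ↔ InE1 A P := by
  constructor
  · rintro ⟨T, hT, rfl⟩
    exact (redHom_eq_zero_iff hN T).1 hT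
  · intro hP
    exact ⟨⟨P, hP.inE0⟩, (redHom_eq_zero_iff hN ⟨P, hP.inE0⟩).2 hP, rfl⟩

theorem some_mem_E1_iff (hN : NodeData A W α) {x y : F} (h : W.toAffine.Nonsingular x y) :
    Affine.Point.some x y h ∈ E1 hN ↔ x ∉ A := mem_E1_iff hN _

theorem E1_le_E0 (hN : NodeData A W α) : E1 hN ≤ E0 hN := fun P hP =>
  ((mem_E1_iff hN P).1 hP).inE0

/-! ### Equivariance -/

omit [DecidableEq F] in
/-- A ring endomorphism fixing `a₁, a₂` permutes the two tangent directions. -/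
theorem map_root (hN : NodeData A W α) (σ : F →+* F) (hσ₁ : σ W.a₁ = W.a₁)
    (hσ₂ : σ W.a₂ = W.a₂) : σ α = α ∨ σ α = -W.a₁ - α := by
  have h := congrArg σ hN.root
  simp only [map_sub, map_add, map_mul, map_pow, hσ₁, hσ₂, map_zero] at h
  have : (σ α - α) * (σ α - (-W.a₁ - α)) = 0 := by linear_combination h - hN.root
  rcases mul_eq_zero.1 this with h1 | h1
  · exact Or.inl (sub_eq_zero.1 h1)
  · exact Or.inr (sub_eq_zero.1 h1)

omit [DecidableEq F] in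
/-- Inertia-like endomorphisms fix the tangent directions. -/
theorem map_root_of_inertia (hN : NodeData A W α) (σ : F →+* F) (hσ₁ : σ W.a₁ = W.a₁)
    (hσ₂ : σ W.a₂ = W.a₂) (hσA : ∀ z ∈ A, σ z - z ∈ A.nonunits) : σ α = α := by
  rcases map_root hN σ hσ₁ hσ₂ with h | h
  · exact h
  · exfalso
    apply hN.disc
    have := hσA α hN.α_mem
    rw [h] at this
    have e : 2 * α + W.a₁ = -(-W.a₁ - α - α) := by ring
    rw [e]
    exact A.nonunits.neg_mem this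

omit [DecidableEq F] in
theorem tval_map_of_fix (σ : F →+* F) (hσ₁ : σ W.a₁ = W.a₁) (hσα : σ α = α) {x y : F}
    (h : W.toAffine.Nonsingular x y) (h' : W.toAffine.Nonsingular (σ x) (σ y)) :
    tval W α (Affine.Point.some (σ x) (σ y) h') = σ (tval W α (Affine.Point.some x y h)) := by
  simp only [tval_some, map_div₀, map_sub, map_mul, map_neg, hσ₁, hσα]

omit [DecidableEq F] in
theorem tval_map_of_swap (σ : F →+* F) (hσ₁ : σ W.a₁ = W.a₁) (hσα : σ α = -W.a₁ - α)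
    {x y : F} (h : W.toAffine.Nonsingular x y) (h' : W.toAffine.Nonsingular (σ x) (σ y)) :
    tval W α (Affine.Point.some (σ x) (σ y) h') =
      (σ (tval W α (Affine.Point.some x y h)))⁻¹ := by
  simp only [tval_some, map_div₀, map_sub, map_mul, map_neg, hσ₁, hσα, inv_div]
  have e : -W.a₁ - (-W.a₁ - α) = α := by ring
  rw [e]

omit [DecidableEq F] in
/-- Membership in `E₀` is invariant under automorphisms preserving `A`. -/
theorem inE0_map (σ : F →+* F) (hσ : ∀ z, z ∈ A ↔ σ z ∈ A) {x y : F}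
    (h : W.toAffine.Nonsingular x y) (h' : W.toAffine.Nonsingular (σ x) (σ y)) :
    InE0 A (Affine.Point.some (σ x) (σ y) h') ↔ InE0 A (Affine.Point.some x y h) := by
  simp only [inE0_some, ValuationSubring.mem_nonunits_iff_or, ← map_inv₀, map_eq_zero, ← hσ]

omit [DecidableEq F] in
/-- Membership in `E₁` is invariant under automorphisms preserving `A`. -/
theorem inE1_map (σ : F →+* F) (hσ : ∀ z, z ∈ A ↔ σ z ∈ A) {x y : F}
    (h : W.toAffine.Nonsingular x y) (h' : W.toAffine.Nonsingular (σ x) (σ y)) :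
    InE1 A (Affine.Point.some (σ x) (σ y) h') ↔ InE1 A (Affine.Point.some x y h) := by
  simp only [inE1_some, ← hσ]

/-- **Inertia acts trivially on `red`.** -/
theorem redHom_inertia (hN : NodeData A W α) (σ : F →+* F) (hσ₁ : σ W.a₁ = W.a₁)
    (hσ₂ : σ W.a₂ = W.a₂) (hσA : ∀ z ∈ A, σ z - z ∈ A.nonunits) (S T : E0 hN) {x y : F}
    {h : W.toAffine.Nonsingular x y} {h' : W.toAffine.Nonsingular (σ x) (σ y)}
    (hT : T.1 = Affine.Point.some x y h) (hS : S.1 = Affine.Point.some (σ x) (σ y) h') :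
    redHom hN S = redHom hN T := by
  rw [redHom_eq_iff, hS, hT,
    tval_map_of_fix σ hσ₁ (map_root_of_inertia hN σ hσ₁ hσ₂ hσA) h h']
  have := (tval_mem hN T.2).1
  rw [hT] at this
  exact hσA _ this

/-- **Frobenius acts on `red` by `±2`.** -/
theorem redHom_frobenius (hN : NodeData A W α) (σ : F →+* F) (hσ₁ : σ W.a₁ = W.a₁)
    (hσ₂ : σ W.a₂ = W.a₂) (hσF : ∀ z ∈ A, σ z - z ^ 2 ∈ A.nonunits) (S T : E0 hN) {x y : F}
    {h : W.toAffine.Nonsingular x y} {h' : W.toAffine.Nonsingular (σ x) (σ y)}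
    (hT : T.1 = Affine.Point.some x y h) (hS : S.1 = Affine.Point.some (σ x) (σ y) h') :
    redHom hN S = 2 • redHom hN T ∨ redHom hN S = -(2 • redHom hN T) := by
  have key : ∀ R : E0 hN, tval W α R.1 = σ (tval W α T.1) → redHom hN R = 2 • redHom hN T := by
    intro R hR
    rw [two_nsmul, ← map_add, redHom_eq_iff, hR]
    obtain ⟨-, c, hc, hadd⟩ := tval_add hN T.2 T.2
    change σ (tval W α T.1) - tval W α (T.1 + T.1) ∈ A.nonunits
    rw [hadd]
    have htA := (tval_mem hN T.2).1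
    have e : σ (tval W α T.1) - tval W α T.1 * tval W α T.1 * (1 + W.a₄ * c) =
        (σ (tval W α T.1) - tval W α T.1 ^ 2) -
          W.a₄ * (c * (tval W α T.1 * tval W α T.1)) := by ring
    rw [e]
    exact A.nonunits.sub_mem (hσF _ htA)
      (mul_mem_nonunits_left A hN.a₄ (mul_mem hc (mul_mem htA htA)))
  rcases map_root hN σ hσ₁ hσ₂ with hα | hα
  · left
    apply key
    rw [hS, hT]
    exact tval_map_of_fix σ hσ₁ hα h h'
  · right
    have h1 : redHom hN (-S) = 2 • redHom hN T := by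
      apply key
      change tval W α (-S.1) = _
      rw [tval_neg hN, hS, hT, tval_map_of_swap σ hσ₁ hα h h', inv_inv]
    rw [← h1, map_neg, neg_neg]

/-- Points of `E₀` killed by `n` that are pairwise incongruent modulo `E₁`: at most `n`. -/
theorem card_le_of_nsmul_eq_zero (hN : NodeData A W α) {n : ℕ} (hn : 0 < n)
    (s : Finset (E0 hN)) (hs : ∀ T ∈ s, n • T = 0)
    (hinj : ∀ S ∈ s, ∀ T ∈ s, InE1 A (S.1 - T.1) → S = T) : s.card ≤ n := by
  classical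
  let f : E0 hN → IsLocalRing.ResidueField A := fun T => ((redHom hN T).toMul : _)
  have hmaps : ∀ T ∈ s, f T ∈ (Polynomial.nthRoots n (1 : IsLocalRing.ResidueField A)).toFinset := by
    intro T hT
    rw [Multiset.mem_toFinset, Polynomial.mem_nthRoots hn]
    have h0 : redHom hN (n • T) = 0 := by rw [hs T hT, map_zero]
    rw [map_nsmul] at h0
    have h1 : ((redHom hN T).toMul) ^ n = 1 := by
      have := congrArg Additive.toMul h0
      simpa using this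
    have h2 := congrArg (Units.val) h1
    simpa [f] using h2
  have hinj' : Set.InjOn f s := by
    intro S hS T hT hST
    apply hinj S hS T hT
    have h1 : redHom hN S = redHom hN T := Additive.toMul.injective (Units.ext hST)
    have h2 : redHom hN (S - T) = 0 := by rw [map_sub, h1, sub_self]
    exact (redHom_eq_zero_iff hN (S - T)).1 h2
  calc s.card ≤ (Polynomial.nthRoots n (1 : IsLocalRing.ResidueField A)).toFinset.card :=
        Finset.card_le_card_of_injOn f hmaps hinj'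
    _ ≤ Multiset.card (Polynomial.nthRoots n (1 : IsLocalRing.ResidueField A)) :=
        Multiset.toFinset_card_le _
    _ ≤ n := Polynomial.card_nthRoots n 1

end Points

end Red

end Fermat.Agent.S13
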