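/-
S13, local analysis at `2` for the Frey curve (package L2): the two hypotheses `h2a`, `h2b`
of `Fermat.Agent.S13.hasCofixedLine_of_local`.

Let `A` be a valuation subring of `K = AlgebraicClosure ℚ` over `2`, `V` the `p`-torsion of the
Frey curve, `V₀ = V ∩ E₀` (points with nonsingular reduction).  Then
* `V ∩ E₁ = 0` (kernel of reduction has no `p`-torsion),
* `V₀` embeds into `μ_p` of the residue field via the reduction map, so `dim V₀ ≤ 1`,
* `V / V₀` is cyclic via `Λ`, so `dim V / V₀ ≤ 1`,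
* inertia acts trivially on `V₀` (reduction) and on `V / V₀` (`Λ`),
* a point of `V` outside `V₀` has an `x`-coordinate of non-integral valuation, hence is moved
  by inertia,
* a Frobenius element fixes no nonzero point of `V₀`.
Consequently every Galois-stable line `N` is fixed pointwise by inertia at `2` with trivial
action on `V / N` (`l2a`), and it equals `V₀`, on which Frobenius acts nontrivially (`l2b`).
-/
import Mathlib
import Fermat.Prelude.Def_FLTPrelim_Ramification
import Fermat.Prelude.Def_EllipticCurve_FrobeniusTrace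
import Fermat.Agent.S13.L2Abs
import Fermat.Agent.S13.L2Lam
import Fermat.Agent.S13.Red
import Fermat.Agent.S13.InertiaField
import Fermat.Agent.S13.Cyclo
import Fermat.Agent.S05.KerRedX

set_option autoImplicit false

open WeierstrassCurve WeierstrassCurve.Affine WeierstrassCurve.Affine.Point
open Fermat.Agent.S05

namespace Fermat.Agent.S13

namespace L2

local notation "K" => AlgebraicClosure ℚ

attribute [local instance] QVal.isAlgebraic_Qbar

section Setup

variable {P : FreyPackage} {A : ValuationSubring K} {hA : A.LiesOverPrime 2} {α α' : K}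
  (C : Trop.NodeCurve (val2 A hA) (P.freyCurve⁄K) α α')

include C in
/-- The node data for the reduction map. -/
theorem nodeData : Red.NodeData A (P.freyCurve⁄K) α := by
  obtain ⟨h1, h2, -, -, -⟩ := freyCurve_coeff_mem P A hA
  have e1 := C.node.sum
  have e2 := C.prod
  refine ⟨freyCurve_a₃ P, freyCurve_a₆ P, h1, h2, ?_, ?_, ?_⟩
  · have hpos := C.node.pos
    rw [val2_w] at hpos
    exact (wval_pos_iff A Nat.prime_two hA C.node.ne).1 hpos
  · linear_combination α * e1 - e2
  · have hd := C.node.delta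
    have e3 : 2 * α + (P.freyCurve⁄K).a₁ = α - α' := by linear_combination e1
    rw [e3]
    intro hmem
    have := (wval_pos_iff A Nat.prime_two hA hd.1).2 hmem
    have h0 := hd.2
    rw [val2_w] at h0
    linarith

include C in
theorem mem_E0_iff_red (T : (P.freyCurve⁄K).Point) :
    T ∈ Trop.E0 C ↔ T ∈ Red.E0 (nodeData C) := by
  rcases T with _ | ⟨x, y, h⟩
  · exact ⟨fun _ => (Red.E0 (nodeData C)).zero_mem, fun _ => (Trop.E0 C).zero_mem⟩
  · rw [some_mem_E0_iff' C h]
    exact (Red.some_mem_E0_iff (nodeData C) h).symm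

theorem p_notMem_nonunits (P : FreyPackage) (A : ValuationSubring K) (hA : A.LiesOverPrime 2) :
    (P.p : K) ∉ A.nonunits :=
  Cyclo.natCast_not_mem_nonunits A Nat.prime_two hA P.pp (by have := P.hp5; omega)

/-- The kernel of reduction contains no nonzero `p`-torsion point. -/
theorem eq_zero_of_inE1 (P : FreyPackage) (A : ValuationSubring K) (hA : A.LiesOverPrime 2)
    (T : (P.freyCurve⁄K).Point) (hT : P.p • T = 0) (h1 : Red.InE1 A T) : T = 0 := by
  rcases T with _ | ⟨x, y, h⟩
  · rfl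
  · exfalso
    obtain ⟨h1', h2, h3, h4, h6⟩ := freyCurve_coeff_mem P A hA
    exact h1 (KerRedX.x_mem_of_nsmul_eq_zero A (P.freyCurve⁄K) h1' h2 h3 h4 h6 P.p
      (p_notMem_nonunits P A hA) h hT)

end Setup

/-! ### The subspace `V₀` -/

section Main

variable (P : FreyPackage) (A : ValuationSubring K) (hA : A.LiesOverPrime 2) {α α' : K}
  (C : Trop.NodeCurve (val2 A hA) (P.freyCurve⁄K) α α')

set_option quotPrecheck false in
local notation "Vt" => Submodule.torsionBy ℤ (P.freyCurve⁄K).Point P.p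

theorem nsmul_coe (x : Vt) : P.p • (x : (P.freyCurve⁄K).Point) = 0 := by
  have := x.2
  rw [Submodule.mem_torsionBy_iff] at this
  rwa [natCast_zsmul] at this

/-- `V₀`: the `p`-torsion points with nonsingular reduction at `A`. -/
noncomputable def V0 : Submodule (ZMod P.p) Vt :=
  AddSubgroup.toZModSubmodule P.p ((Trop.E0 C).comap (Vt).subtype.toAddMonoidHom)

theorem mem_V0_iff (x : Vt) :
    x ∈ V0 P A hA C ↔ (x : (P.freyCurve⁄K).Point) ∈ Trop.E0 C := Iff.rfl

/-- `V₀` has at most `p` elements (it embeds into the `p`-th roots of unity of the residue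
field). -/
theorem card_V0_le : Finite (V0 P A hA C) ∧ Nat.card (V0 P A hA C) ≤ P.p := by
  classical
  have hN := nodeData C
  let ι : V0 P A hA C → Red.E0 hN := fun x => ⟨x.1.1, (mem_E0_iff_red C _).1 x.2⟩
  have hι : Function.Injective ι := by
    intro x y hxy
    have : (ι x).1 = (ι y).1 := congrArg Subtype.val hxy
    exact Subtype.ext (Subtype.ext this)
  have hbound : ∀ t : Finset (V0 P A hA C), t.card ≤ P.p := by
    intro t
    rw [← Finset.card_image_of_injective t hι]
    refine Red.card_le_of_nsmul_eq_zero hN P.hppos _ ?_ ?_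
    · intro T hT
      obtain ⟨x, -, rfl⟩ := Finset.mem_image.1 hT
      exact Subtype.ext (nsmul_coe P x.1)
    · intro S hS T hT hST
      obtain ⟨x, -, rfl⟩ := Finset.mem_image.1 hS
      obtain ⟨y, -, rfl⟩ := Finset.mem_image.1 hT
      have h0 : x.1.1 - y.1.1 = 0 := by
        refine eq_zero_of_inE1 P A hA _ ?_ hST
        rw [nsmul_sub, nsmul_coe P x.1, nsmul_coe P y.1, sub_zero]
      exact congrArg ι (Subtype.ext (Subtype.ext (sub_eq_zero.1 h0)))
  have hfin : Finite (V0 P A hA C) := by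
    by_contra hinf
    rw [not_finite_iff_infinite] at hinf
    obtain ⟨t, ht⟩ := Infinite.exists_subset_card_eq (V0 P A hA C) (P.p + 1)
    have := hbound t
    omega
  refine ⟨hfin, ?_⟩
  have := Fintype.ofFinite (V0 P A hA C)
  rw [Nat.card_eq_fintype_card, ← Finset.card_univ]
  exact hbound _

/-- `V / V₀` is cyclic. -/
theorem exists_zsmul_sub_mem_V0 (x y : Vt) (hx : x ∉ V0 P A hA C) :
    ∃ j : ℤ, y - j • x ∈ V0 P A hA C := by
  obtain ⟨j, hj⟩ := exists_zsmul_sub_mem_E0 C P.pp x.1 y.1 (nsmul_coe P x) (nsmul_coe P y) hx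
  exact ⟨j, hj⟩

/-- The quotient `V / V₀` is a finite module. -/
theorem finite_quotient [Fact P.p.Prime] : Module.Finite (ZMod P.p) (Vt ⧸ V0 P A hA C) := by
  by_cases htop : ∀ x : Vt, x ∈ V0 P A hA C
  · have : Subsingleton (Vt ⧸ V0 P A hA C) := by
      refine ⟨fun a b => ?_⟩
      obtain ⟨a, rfl⟩ := Submodule.Quotient.mk_surjective _ a
      obtain ⟨b, rfl⟩ := Submodule.Quotient.mk_surjective _ b
      rw [Submodule.Quotient.eq]
      exact htop _
    exact Module.Finite.of_finite
  · push Not at htop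
    obtain ⟨x, hx⟩ := htop
    refine Module.Finite.of_surjective
      (LinearMap.toSpanSingleton (ZMod P.p) (Vt ⧸ V0 P A hA C) (Submodule.Quotient.mk x)) ?_
    intro w
    obtain ⟨y, rfl⟩ := Submodule.Quotient.mk_surjective _ w
    obtain ⟨j, hj⟩ := exists_zsmul_sub_mem_V0 P A hA C x y hx
    refine ⟨(j : ZMod P.p), ?_⟩
    rw [LinearMap.toSpanSingleton_apply, ← Submodule.Quotient.mk_smul, eq_comm,
      Submodule.Quotient.eq]
    have : (j : ZMod P.p) • x = j • x := by
      rw [Int.cast_smul_eq_zsmul]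
    rw [this]
    exact hj

/-- The dimension data for the abstract core. -/
theorem finrank_data [Fact P.p.Prime] :
    Module.Finite (ZMod P.p) Vt ∧ Module.finrank (ZMod P.p) (V0 P A hA C) ≤ 1 ∧
      Module.finrank (ZMod P.p) (Vt ⧸ V0 P A hA C) ≤ 1 := by
  obtain ⟨hfin, hcard⟩ := card_V0_le P A hA C
  have h1 : Module.Finite (ZMod P.p) (V0 P A hA C) := Module.Finite.of_finite
  have h2 := finite_quotient P A hA C
  refine ⟨Module.Finite.of_submodule_quotient (V0 P A hA C), ?_, ?_⟩
  · exact finrank_le_one_of_card_le _ hcard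
  · exact finrank_quotient_le_one _ (exists_zsmul_sub_mem_V0 P A hA C)

/-! ### Galois action -/

theorem map_a₁ (σ : K ≃ₐ[ℚ] K) :
    (σ : K →+* K) (P.freyCurve⁄K).a₁ = (P.freyCurve⁄K).a₁ := by
  rw [freyCurve_a₁, map_one]

theorem map_a₂ (σ : K ≃ₐ[ℚ] K) :
    (σ : K →+* K) (P.freyCurve⁄K).a₂ = (P.freyCurve⁄K).a₂ := by
  rw [freyCurve_a₂]
  exact σ.commutes _

/-- Inertia at `2` fixes `V₀` pointwise. -/
theorem smul_eq_of_mem_V0 (σ : K ≃ₐ[ℚ] K) (hσ : σ ∈ A.inertiaSubgroupIn ℚ) (x : Vt)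
    (hx : x ∈ V0 P A hA C) : σ • x = x := by
  have hN := nodeData C
  have hdec := QVal.mem_decomposition_of_mem_inertia A hσ
  have htor := nsmul_coe P (σ • x)
  have htor' := nsmul_coe P x
  rw [mem_V0_iff, mem_E0_iff_red C] at hx
  obtain ⟨T, hT⟩ := x
  apply Subtype.ext
  change σ • T = T
  change P.p • (σ • T) = 0 at htor
  change P.p • T = 0 at htor'
  change T ∈ Red.E0 hN at hx
  rcases T with _ | ⟨x0, y0, h⟩
  · rfl
  · have h' : (P.freyCurve⁄K).Nonsingular (σ x0) (σ y0) :=
      (WeierstrassCurve.Affine.baseChange_nonsingular P.freyCurve σ.toAlgHom.injective ..).mpr h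
    have hmap : σ • Point.some x0 y0 h = Point.some (σ x0) (σ y0) h' := rfl
    rw [hmap] at htor ⊢
    have hx' : Point.some (σ x0) (σ y0) h' ∈ Red.E0 hN :=
      (Red.inE0_map (σ : K →+* K) (fun z => QVal.mem_iff_of_mem_decomposition A hdec z) h h').2 hx
    have hred := Red.redHom_inertia hN (σ : K →+* K) (map_a₁ P σ) (map_a₂ P σ)
      (fun z hz => QVal.sub_mem_nonunits_of_mem_inertia A hσ hz)
      ⟨Point.some (σ x0) (σ y0) h', hx'⟩ ⟨Point.some x0 y0 h, hx⟩ (h := h) (h' := h') rfl rfl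
    have h0 : Red.redHom hN (⟨Point.some (σ x0) (σ y0) h', hx'⟩ - ⟨Point.some x0 y0 h, hx⟩) = 0 := by
      rw [map_sub, hred, sub_self]
    have h1 := (Red.redHom_eq_zero_iff hN _).1 h0
    have h2 : Point.some (σ x0) (σ y0) h' - Point.some x0 y0 h = 0 := by
      refine eq_zero_of_inE1 P A hA _ ?_ h1
      rw [nsmul_sub, htor, htor', sub_zero]
    exact sub_eq_zero.1 h2

/-- Inertia at `2` acts trivially on `V / V₀`. -/
theorem smul_sub_mem_V0 (σ : K ≃ₐ[ℚ] K) (hσ : σ ∈ A.inertiaSubgroupIn ℚ) (x : Vt) :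
    σ • x - x ∈ V0 P A hA C := by
  have hdec := QVal.mem_decomposition_of_mem_inertia A hσ
  rw [mem_V0_iff]
  change σ • (x : (P.freyCurve⁄K).Point) - x ∈ Trop.E0 C
  rw [Trop.E0, AddMonoidHom.mem_ker, map_sub,
    lam_smul C σ hdec (map_root_eq_of_mem_inertia C σ hσ), sub_self]

/-- A point of `V` outside `V₀` is moved by some element of the inertia group at `2`. -/
theorem exists_smul_ne (x : Vt) (hx : x ∉ V0 P A hA C) :
    ∃ σ ∈ A.inertiaSubgroupIn ℚ, σ • x ≠ x := by
  obtain ⟨e, he0, hpe, -, he⟩ := exists_wval_a₄ P A hA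
  have hp2 : P.p ≠ 2 := by have := P.hp5; omega
  have htor := nsmul_coe P x
  rw [mem_V0_iff] at hx
  by_contra hcon
  push Not at hcon
  obtain ⟨T, hT⟩ := x
  change P.p • T = 0 at htor
  change T ∉ Trop.E0 C at hx
  rcases T with _ | ⟨x0, y0, h⟩
  · exact hx (Trop.E0 C).zero_mem
  · obtain ⟨hx0, hval⟩ := wval_ne_int_of_notMem_E0 C P.pp hp2 hpe he h htor hx
    have hfix : ∀ σ ∈ A.inertiaSubgroupIn ℚ, σ x0 = x0 := by
      intro σ hσ
      have h1 := congrArg Subtype.val (hcon σ hσ)
      have h' : (P.freyCurve⁄K).Nonsingular (σ x0) (σ y0) :=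
        (WeierstrassCurve.Affine.baseChange_nonsingular P.freyCurve σ.toAlgHom.injective ..).mpr h
      have hmap : σ • Point.some x0 y0 h = Point.some (σ x0) (σ y0) h' := rfl
      change σ • Point.some x0 y0 h = Point.some x0 y0 h at h1
      rw [hmap] at h1
      exact (Point.some.inj h1).1
    obtain ⟨m, u, hu, hu', hxu⟩ := exists_unit_of_inertia_fixed A Nat.prime_two hA hx0 hfix
    have h2 : ((2 : ℕ) : K) ∈ A.nonunits := hA
    have hu0 : u ≠ 0 := by
      rintro rfl
      rw [mul_zero] at hxu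
      exact hx0 hxu
    have h2m : ((2 : ℕ) : K) ^ m ≠ 0 := zpow_ne_zero _ (by norm_num)
    apply hval m
    rw [hxu, wval_mul A Nat.prime_two h2 h2m hu0, wval_zpow A Nat.prime_two h2,
      wval_q A Nat.prime_two h2, (wval_eq_zero_iff A Nat.prime_two h2 hu0).2 ⟨hu, hu'⟩]
    ring

/-- A Frobenius element at `2` fixes no nonzero point of `V₀`. -/
theorem eq_zero_of_frobenius_fixed (σ : K ≃ₐ[ℚ] K) (hσ : A.IsFrobeniusAt σ 2) (x : Vt)
    (hx : x ∈ V0 P A hA C) (hfix : σ • x = x) : x = 0 := by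
  have hN := nodeData C
  have hdec := hσ.mem_decompositionSubgroup
  have htor' := nsmul_coe P x
  rw [mem_V0_iff, mem_E0_iff_red C] at hx
  have h1 := congrArg Subtype.val hfix
  obtain ⟨T, hT⟩ := x
  apply Subtype.ext
  change T = 0
  change σ • T = T at h1
  change P.p • T = 0 at htor'
  change T ∈ Red.E0 hN at hx
  rcases T with _ | ⟨x0, y0, h⟩
  · rfl
  · have h' : (P.freyCurve⁄K).Nonsingular (σ x0) (σ y0) :=
      (WeierstrassCurve.Affine.baseChange_nonsingular P.freyCurve σ.toAlgHom.injective ..).mpr h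
    have hmap : σ • Point.some x0 y0 h = Point.some (σ x0) (σ y0) h' := rfl
    rw [hmap] at h1
    have hx' : Point.some (σ x0) (σ y0) h' ∈ Red.E0 hN :=
      (Red.inE0_map (σ : K →+* K) (fun z => QVal.mem_iff_of_mem_decomposition A hdec z) h h').2 hx
    have hred := Red.redHom_frobenius hN (σ : K →+* K) (map_a₁ P σ) (map_a₂ P σ)
      (fun z hz => Cyclo.sub_pow_mem_nonunits_of_isFrobeniusAt A hσ hz)
      ⟨Point.some (σ x0) (σ y0) h', hx'⟩ ⟨Point.some x0 y0 h, hx⟩ (h := h) (h' := h') rfl rfl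
    have hST : (⟨Point.some (σ x0) (σ y0) h', hx'⟩ : Red.E0 hN) = ⟨Point.some x0 y0 h, hx⟩ :=
      Subtype.ext h1
    rw [hST] at hred
    set r := Red.redHom hN ⟨Point.some x0 y0 h, hx⟩ with hr
    have hpr : P.p • r = 0 := by
      rw [hr, ← map_nsmul]
      have : P.p • (⟨Point.some x0 y0 h, hx⟩ : Red.E0 hN) = 0 := Subtype.ext htor'
      rw [this, _root_.map_zero]
    have h3r : (3 : ℕ) • r = 0 ∨ r = 0 := by
      rcases hred with h2 | h2
      · right
        have : r + r = r + 0 := by rw [add_zero, ← two_nsmul]; exact h2.symm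
        exact add_left_cancel this
      · left
        have : r + 2 • r = 0 := by
          nth_rewrite 1 [h2]
          exact neg_add_cancel _
        have e : (3 : ℕ) • r = r + 2 • r := by abel
        rw [e]
        exact this
    have hr0 : r = 0 := by
      rcases h3r with h3 | h3
      · -- `gcd(3, p) = 1`
        have hcop : Nat.Coprime 3 P.p := by
          rw [Nat.coprime_primes Nat.prime_three P.pp]
          have := P.hp5
          omega
        have d3 := addOrderOf_dvd_of_nsmul_eq_zero h3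
        have dp := addOrderOf_dvd_of_nsmul_eq_zero hpr
        have hd := Nat.dvd_gcd d3 dp
        rw [hcop.gcd_eq_one] at hd
        exact AddMonoid.addOrderOf_eq_one_iff.1 (Nat.dvd_one.1 hd)
      · exact h3
    have h4 := (Red.redHom_eq_zero_iff hN _).1 hr0
    exact eq_zero_of_inE1 P A hA _ htor' h4

end Main

end L2

open L2 in
/-- **Local analysis at `2`, first half (`h2a`)**: for every Galois-stable line `N` in the
`p`-torsion `V` of the Frey curve there is a valuation subring `A` over `2` whose inertia group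
fixes `N` pointwise and acts trivially on `V / N`. -/
theorem l2a (P : FreyPackage)
    (N : Submodule (ZMod P.p)
      (Submodule.torsionBy ℤ (P.freyCurve⁄(AlgebraicClosure ℚ)).Point P.p))
    (hN : IsGaloisStable ℚ N) (h0 : N ≠ ⊥) (h1 : N ≠ ⊤) :
    ∃ A : ValuationSubring (AlgebraicClosure ℚ), A.LiesOverPrime 2 ∧
      ∀ σ ∈ A.inertiaSubgroupIn ℚ, (∀ x ∈ N, σ • x = x) ∧
        (∀ x : Submodule.torsionBy ℤ (P.freyCurve⁄(AlgebraicClosure ℚ)).Point P.p,
          σ • x - x ∈ N) := by
  have : Fact P.p.Prime := ⟨P.pp⟩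
  obtain ⟨A, hA⟩ := S54.exists_liesOverPrime (L := AlgebraicClosure ℚ) Nat.prime_two
  obtain ⟨α, α', C⟩ := exists_nodeCurve P A hA
  obtain ⟨hfin, hV0, hQ⟩ := finrank_data P A hA C
  refine ⟨A, hA, fun σ hσ => ?_⟩
  exact unipotent_core (V0 P A hA C) N hV0 hQ h0 h1 (DistribSMul.toAddMonoidHom _ σ)
    (fun x hx => hN σ x hx) (fun x hx => smul_eq_of_mem_V0 P A hA C σ hσ x hx)
    (fun x => smul_sub_mem_V0 P A hA C σ hσ x)

open L2 in
/-- **Local analysis at `2`, second half (`h2b`)**: no Galois-stable line in the `p`-torsion of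
the Frey curve is fixed pointwise by the Galois group (a Frobenius element at `2` moves it). -/
theorem l2b (P : FreyPackage)
    (N : Submodule (ZMod P.p)
      (Submodule.torsionBy ℤ (P.freyCurve⁄(AlgebraicClosure ℚ)).Point P.p))
    (hN : IsGaloisStable ℚ N) (h0 : N ≠ ⊥) (h1 : N ≠ ⊤) :
    ∃ σ : AlgebraicClosure ℚ ≃ₐ[ℚ] AlgebraicClosure ℚ, ∃ x ∈ N, σ • x ≠ x := by
  have : Fact P.p.Prime := ⟨P.pp⟩
  obtain ⟨A, hA⟩ := S54.exists_liesOverPrime (L := AlgebraicClosure ℚ) Nat.prime_two
  obtain ⟨α, α', C⟩ := exists_nodeCurve P A hA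
  obtain ⟨hfin, hV0, hQ⟩ := finrank_data P A hA C
  -- `N = V₀`
  obtain ⟨x, hx⟩ := exists_notMem (V0 P A hA C) N hV0 hQ h0 h1
  obtain ⟨σ0, hσ0, hmove⟩ := exists_smul_ne P A hA C x hx
  have hNV : N = V0 P A hA C :=
    eq_of_moved (V0 P A hA C) N hV0 hQ h0 h1 (DistribSMul.toAddMonoidHom _ σ0)
      (fun x hx => hN σ0 x hx) (fun x hx => smul_eq_of_mem_V0 P A hA C σ0 hσ0 x hx)
      (fun x => smul_sub_mem_V0 P A hA C σ0 hσ0 x) ⟨x, hmove⟩
  -- Frobenius
  obtain ⟨σ, hσ⟩ := S54.exists_isFrobeniusAt A Nat.prime_two hA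
  obtain ⟨y, hy, hy0⟩ := Submodule.exists_mem_ne_zero_of_ne_bot h0
  refine ⟨σ, y, hy, fun hfix => hy0 ?_⟩
  exact eq_zero_of_frobenius_fixed P A hA C σ hσ y (hNV ▸ hy) hfix

end Fermat.Agent.S13
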