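import Mathlib
import Fermat.Prelude.Def_FLTPrelim_Ramification
import Fermat.Agent.S05.FoldCase
import Fermat.Agent.S05.QValGal
import Fermat.Agent.S05.TropGal

/-!
# S13 local structure: `Λ` over an algebraic extension of `ℚ` with a valuation subring

Instantiation of `Fermat.Agent.S05.Trop` (the homomorphism `Λ`, the subgroups `E₀ ⊇ E₁`) at the
`ℚ`-valued valuation `FoldCase.ratVal A hq hA` (`w = wval A q`) of a valuation subring `A` of a
field `L` algebraic over `ℚ`, for a base-changed curve `W'⁄L`, with the Galois action `σ • T`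
of the prelude:

* `E₀`, `E₁` in terms of `A`;
* `Λ (σ • T) = Λ T` for `σ` in the inertia group, `Λ (σ • T) = ± Λ T` for `σ` in the
  decomposition group.
-/

set_option autoImplicit false
set_option linter.unusedSectionVars false

open WeierstrassCurve WeierstrassCurve.Affine

namespace Fermat.Agent.S13

namespace LocalQbar

open Fermat.Agent.S05 Fermat.Agent.S05.Trop

variable {L : Type*} [Field L] [Algebra ℚ L] [Algebra.IsAlgebraic ℚ L]
  (A : ValuationSubring L) {q : ℕ} (hq : q.Prime) (hA : (q : L) ∈ A.nonunits)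

theorem zero_mem_nonunits_vs : (0 : L) ∈ A.nonunits := by
  rw [A.mem_nonunits_iff, map_zero]; exact zero_lt_one

theorem w_nonpos_iff {x : L} (hx : x ≠ 0) :
    (FoldCase.ratVal A hq hA).w x ≤ 0 ↔ x ∉ A.nonunits := by
  rw [← wval_pos_iff A hq hA hx, not_lt]
  rfl

theorem w_neg_iff {x : L} (hx : x ≠ 0) :
    (FoldCase.ratVal A hq hA).w x < 0 ↔ x ∉ A := by
  rw [← wval_nonneg_iff A hq hA hx, not_le]
  rfl

theorem w_nonneg_iff {x : L} (hx : x ≠ 0) :
    0 ≤ (FoldCase.ratVal A hq hA).w x ↔ x ∈ A :=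
  wval_nonneg_iff A hq hA hx

theorem w_pos_iff {x : L} (hx : x ≠ 0) :
    0 < (FoldCase.ratVal A hq hA).w x ↔ x ∈ A.nonunits :=
  wval_pos_iff A hq hA hx

theorem gt_zero_iff {x : L} : Gt (FoldCase.ratVal A hq hA) x 0 ↔ x ∈ A.nonunits := by
  unfold Gt
  rcases eq_or_ne x 0 with rfl | hx
  · simp [zero_mem_nonunits_vs A]
  · rw [w_pos_iff A hq hA hx]
    simp [hx]

theorem ge_zero_iff {x : L} : (FoldCase.ratVal A hq hA).Ge x 0 ↔ x ∈ A := by
  unfold RatVal.Ge
  rcases eq_or_ne x 0 with rfl | hx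
  · simp [A.zero_mem]
  · rw [w_nonneg_iff A hq hA hx]
    simp [hx]

variable [DecidableEq L] {W' : WeierstrassCurve.Affine ℚ} {α α' : L}

/-- The tangent directions are integral if `a₁` and `a₂` are. -/
theorem alpha_mem (C : NodeCurve (FoldCase.ratVal A hq hA) (W'⁄L) α α')
    (h₁ : (W'⁄L).a₁ ∈ A) (h₂ : (W'⁄L).a₂ ∈ A) : α ∈ A := by
  set v := FoldCase.ratVal A hq hA with hv
  rcases eq_or_ne α 0 with rfl | hα0
  · exact A.zero_mem
  by_contra hα
  have hneg : v.w α < 0 := (w_neg_iff A hq hA hα0).mpr hα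
  have e : α * (α + (W'⁄L).a₁) = (W'⁄L).a₂ := by
    linear_combination α * C.node.sum - C.prod
  have h1 : v.Is (α + (W'⁄L).a₁) (v.w α) :=
    RatVal.Is.add_of_lt ⟨hα0, rfl⟩ ((ge_zero_iff A hq hA).mpr h₁) hneg
  have h2 : v.Is ((W'⁄L).a₂) (v.w α + v.w α) := e ▸ (RatVal.Is.mul ⟨hα0, rfl⟩ h1)
  have h3 := (w_nonneg_iff A hq hA h2.1).mpr h₂
  rw [h2.2] at h3
  linarith

theorem some_mem_E0_iff (C : NodeCurve (FoldCase.ratVal A hq hA) (W'⁄L) α α') {x y : L}
    (h : (W'⁄L).Nonsingular x y) : Point.some x y h ∈ E0 C ↔ x ∉ A.nonunits := by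
  rw [Trop.some_mem_E0_iff]
  constructor
  · rintro ⟨hx, hw⟩
    exact (w_nonpos_iff A hq hA hx).mp hw
  · intro hx
    have hx0 : x ≠ 0 := fun h0 => hx (h0 ▸ zero_mem_nonunits_vs A)
    exact ⟨hx0, (w_nonpos_iff A hq hA hx0).mpr hx⟩

theorem some_mem_E1_iff (C : NodeCurve (FoldCase.ratVal A hq hA) (W'⁄L) α α') {x y : L}
    (h : (W'⁄L).Nonsingular x y) : Point.some x y h ∈ E1 C ↔ x ∉ A := by
  rw [Trop.some_mem_E1_iff]
  constructor
  · rintro ⟨hx, hw⟩
    exact (w_neg_iff A hq hA hx).mp hw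
  · intro hx
    have hx0 : x ≠ 0 := fun h0 => hx (h0 ▸ A.zero_mem)
    exact ⟨hx0, (w_neg_iff A hq hA hx0).mpr hx⟩

/-- `Λ` is invariant under elements of the decomposition group fixing `α`. -/
theorem lam_smul_of_fix (C : NodeCurve (FoldCase.ratVal A hq hA) (W'⁄L) α α')
    {σ : L ≃ₐ[ℚ] L} (hσ : σ ∈ A.decompositionSubgroup ℚ) (hσα : σ α = α)
    (T : (W'⁄L).Point) : lam C (σ • T) = lam C T := by
  rcases T with _ | ⟨x, y, h⟩
  · rfl
  · exact lam_map_of_fix C (σ : L →+* L) (fun z => wval_algEquiv A hq hA hσ z) hσα h _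

/-- `Λ` changes sign under elements of the decomposition group swapping `α` and `α'`. -/
theorem lam_smul_of_swap (C : NodeCurve (FoldCase.ratVal A hq hA) (W'⁄L) α α')
    {σ : L ≃ₐ[ℚ] L} (hσ : σ ∈ A.decompositionSubgroup ℚ) (hσα' : σ α' = α)
    (T : (W'⁄L).Point) : lam C (σ • T) = -lam C T := by
  rcases T with _ | ⟨x, y, h⟩
  · show lam C 0 = -lam C 0
    rw [map_zero, neg_zero]
  · exact lam_map_of_swap C (σ : L →+* L) (fun z => wval_algEquiv A hq hA hσ z) hσα' h _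

/-- An element of the decomposition group fixes or swaps the tangent directions. -/
theorem map_alpha' (C : NodeCurve (FoldCase.ratVal A hq hA) (W'⁄L) α α') (σ : L ≃ₐ[ℚ] L) :
    (σ α = α ∧ σ α' = α') ∨ (σ α = α' ∧ σ α' = α) :=
  map_alpha C (σ : L →+* L) (σ.commutes _) (σ.commutes _)

/-- `Λ (σ • T) = ± Λ T` for `σ` in the decomposition group, with a sign depending only on `σ`. -/
theorem lam_smul_of_mem_decomposition (C : NodeCurve (FoldCase.ratVal A hq hA) (W'⁄L) α α')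
    {σ : L ≃ₐ[ℚ] L} (hσ : σ ∈ A.decompositionSubgroup ℚ) :
    (∀ T : (W'⁄L).Point, lam C (σ • T) = lam C T) ∨
      (∀ T : (W'⁄L).Point, lam C (σ • T) = -lam C T) := by
  rcases map_alpha' A hq hA C σ with h | h
  · exact Or.inl (lam_smul_of_fix A hq hA C hσ h.1)
  · exact Or.inr (lam_smul_of_swap A hq hA C hσ h.2)

/-- Inertia fixes the tangent directions. -/
theorem map_alpha_of_mem_inertia (C : NodeCurve (FoldCase.ratVal A hq hA) (W'⁄L) α α')
    (hα : α ∈ A) {σ : L ≃ₐ[ℚ] L} (hσ : σ ∈ A.inertiaSubgroupIn ℚ) : σ α = α ∧ σ α' = α' :=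
  map_alpha_of_inertia C (σ : L →+* L) (σ.commutes _) (σ.commutes _)
    ((gt_zero_iff A hq hA).mpr (QVal.sub_mem_nonunits_of_mem_inertia A hσ hα))

/-- `Λ` is invariant under inertia. -/
theorem lam_smul_of_mem_inertia (C : NodeCurve (FoldCase.ratVal A hq hA) (W'⁄L) α α')
    (hα : α ∈ A) {σ : L ≃ₐ[ℚ] L} (hσ : σ ∈ A.inertiaSubgroupIn ℚ) (T : (W'⁄L).Point) :
    lam C (σ • T) = lam C T :=
  lam_smul_of_fix A hq hA C (QVal.mem_decomposition_of_mem_inertia A hσ)
    (map_alpha_of_mem_inertia A hq hA C hα hσ).1 T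

/-- Inertia acts trivially on `E(L)/E₀`. -/
theorem smul_sub_mem_E0 (C : NodeCurve (FoldCase.ratVal A hq hA) (W'⁄L) α α')
    (hα : α ∈ A) {σ : L ≃ₐ[ℚ] L} (hσ : σ ∈ A.inertiaSubgroupIn ℚ) (T : (W'⁄L).Point) :
    σ • T - T ∈ E0 C := by
  rw [E0, AddMonoidHom.mem_ker, map_sub, lam_smul_of_mem_inertia A hq hA C hα hσ, sub_self]

end LocalQbar

end Fermat.Agent.S13
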