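import Mathlib
import Fermat.Prelude.Def_FLTPrelim_Ramification
import Fermat.Prelude.Def_FLTPrelim_FreyPackage
import Fermat.Agent.S13.Frey2
import Fermat.Agent.S13.LocalQbar
import Fermat.Agent.S13.Red

/-!
# S13: the Frey model at `2` is a nodal model

For a valuation subring `A` of `AlgebraicClosure ℚ` over `2`, the base change of the Frey curve
`y² + x y = x³ + a₂ x² + a₄ x` is a nodal model both in the sense of `Trop.NodeCurve` (for the
valuation `wval A 2`) and in the sense of `Red.NodeData`: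
`α, α' = (-1 ± √(bᵖ - aᵖ))/2` are integral, `α - α'` is a unit (`bᵖ - aᵖ` is odd), and
`w a₄ = p · v₂(b) - 4 > 0`.
-/

set_option autoImplicit false

open WeierstrassCurve WeierstrassCurve.Affine

namespace Fermat.Agent.S13

namespace Node2

open Fermat.Agent.S05 Fermat.Agent.S05.Trop

local notation "K" => AlgebraicClosure ℚ

attribute [local instance] QVal.isAlgebraic_Qbar

/-- The Frey model at a valuation subring over `2`: tangent directions at the node, the `Trop`
and `Red` structures, and the valuation of `a₄`. -/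
theorem exists_nodeCurve_two (P : FreyPackage) (A : ValuationSubring K)
    (hA : A.LiesOverPrime 2) :
    ∃ α α' : K,
      NodeCurve (FoldCase.ratVal A Nat.prime_two hA) (P.freyCurve⁄K) α α' ∧
      α ∈ A ∧ α' ∈ A ∧
      Red.NodeData A (P.freyCurve⁄K) α ∧ Red.NodeData A (P.freyCurve⁄K) α' ∧
      ∃ m : ℕ, 1 ≤ m ∧
        (FoldCase.ratVal A Nat.prime_two hA).w (P.freyCurve⁄K).a₄ = (P.p : ℚ) * m - 4 := by
  obtain ⟨n₂, n₄, m, h₂, h₄, hn₄, hm, hval⟩ := frey_two P
  have hA' : ((2 : ℕ) : K) ∈ A.nonunits := hA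
  have hp5 := P.hp5
  -- the coefficients of the base change
  have e₁ : (P.freyCurve⁄K).a₁ = 1 := by
    show algebraMap ℚ K P.freyCurve.a₁ = 1
    rw [show P.freyCurve.a₁ = 1 from rfl, map_one]
  have e₂ : (P.freyCurve⁄K).a₂ = (n₂ : K) := by
    show algebraMap ℚ K P.freyCurve.a₂ = _
    rw [h₂, map_intCast]
  have e₃ : (P.freyCurve⁄K).a₃ = 0 := by
    show algebraMap ℚ K P.freyCurve.a₃ = 0
    rw [show P.freyCurve.a₃ = 0 from rfl, map_zero]
  have e₄ : (P.freyCurve⁄K).a₄ = algebraMap ℚ K P.freyCurve.a₄ := rfl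
  have e₆ : (P.freyCurve⁄K).a₆ = 0 := by
    show algebraMap ℚ K P.freyCurve.a₆ = 0
    rw [show P.freyCurve.a₆ = 0 from rfl, map_zero]
  have ha₄0 : P.freyCurve.a₄ ≠ 0 := by
    rw [h₄]
    exact_mod_cast hn₄
  have ha₄K : (P.freyCurve⁄K).a₄ ≠ 0 := by
    rw [e₄]
    exact (map_ne_zero _).mpr ha₄0
  -- the valuation of `a₄`
  have hw₄ : wval A 2 (P.freyCurve⁄K).a₄ = (P.p : ℚ) * m - 4 := by
    rw [e₄, wval_algebraMap_rat A Nat.prime_two hA' ha₄0, hval]
    push_cast
    ring
  have hmQ : (1 : ℚ) ≤ m := by exact_mod_cast hm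
  have hpQ : (5 : ℚ) ≤ P.p := by exact_mod_cast hp5
  have hpos : (0 : ℚ) < (P.p : ℚ) * m - 4 := by nlinarith
  have ha₄m : (P.freyCurve⁄K).a₄ ∈ A.nonunits := by
    rw [← wval_pos_iff A Nat.prime_two hA' ha₄K, hw₄]
    exact hpos
  -- the discriminant `1 + 4 a₂ = bᵖ - aᵖ` is odd
  have hodd : ¬ ((2 : ℕ) : ℤ) ∣ 1 + 4 * n₂ := by
    intro h
    have h' : (2 : ℤ) ∣ 1 + 4 * n₂ := by exact_mod_cast h
    omega
  obtain ⟨s, hs⟩ := IsAlgClosed.exists_pow_nat_eq (((1 + 4 * n₂ : ℤ) : K)) (n := 2) (by norm_num)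
  have hws : wval A 2 s = 0 := by
    have h1 := wval_pow A Nat.prime_two hA' s 2
    rw [hs, wval_intCast_of_not_dvd A Nat.prime_two hA' hodd] at h1
    push_cast at h1
    linarith
  have hs0 : s ≠ 0 := by
    rintro rfl
    have h0 : ((1 + 4 * n₂ : ℤ) : K) = 0 := by
      rw [← hs]
      ring
    have h1 : (1 + 4 * n₂ : ℤ) = 0 := by exact_mod_cast h0
    omega
  have hsm : s ∉ A.nonunits := by
    rw [← wval_pos_iff A Nat.prime_two hA' hs0, hws]
    exact lt_irrefl _
  have hnsm : -s ∉ A.nonunits := fun h => hsm (by simpa using A.nonunits.neg_mem h)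
  have hs' : s ^ 2 = 1 + 4 * (n₂ : K) := by
    rw [hs]
    push_cast
    ring
  have h1A : (P.freyCurve⁄K).a₁ ∈ A := by
    rw [e₁]
    exact A.one_mem
  have h2A : (P.freyCurve⁄K).a₂ ∈ A := by
    rw [e₂]
    exact intCast_mem A n₂
  have h2K : (2 : K) ≠ 0 := two_ne_zero
  have N1 : Red.NodeData A (P.freyCurve⁄K) ((-1 + s) / 2) :=
    { a₃ := e₃
      a₆ := e₆
      a₁ := h1A
      a₂ := h2A
      a₄ := ha₄m
      root := by
        rw [e₁, e₂]
        field_simp
        linear_combination hs'
      disc := by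
        rw [e₁]
        have : 2 * ((-1 + s) / 2) + 1 = s := by
          field_simp
          ring
        rw [this]
        exact hsm }
  have N2 : Red.NodeData A (P.freyCurve⁄K) ((-1 - s) / 2) :=
    { a₃ := e₃
      a₆ := e₆
      a₁ := h1A
      a₂ := h2A
      a₄ := ha₄m
      root := by
        rw [e₁, e₂]
        field_simp
        linear_combination hs'
      disc := by
        rw [e₁]
        have : 2 * ((-1 - s) / 2) + 1 = -s := by
          field_simp
          ring
        rw [this]
        exact hnsm }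
  refine ⟨(-1 + s) / 2, (-1 - s) / 2, ?_, N1.α_mem, N2.α_mem, N1, N2, m, hm, hw₄⟩
  exact
    { a₃ := e₃
      a₆ := e₆
      prod := by
        rw [e₂]
        field_simp
        linear_combination (-1 : K) * hs'
      node :=
        { sum := by
            rw [e₁]
            field_simp
            ring
          delta := by
            have : (-1 + s) / 2 - (-1 - s) / 2 = s := by
              field_simp
              ring
            rw [this]
            exact ⟨hs0, hws⟩
          pos := by
            show 0 < wval A 2 (P.freyCurve⁄K).a₄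
            rw [hw₄]
            exact hpos
          ne := ha₄K } }

end Node2

end Fermat.Agent.S13
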