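import Mathlib
import Fermat.Agent.S05.QVal
import Fermat.Agent.S05.QValGal

/-!
# S13: points fixed by the whole Galois group are rational (helper8)

* `exists_rat_of_fixed` : an element of `AlgebraicClosure ℚ` fixed by every `ℚ`-automorphism is
  rational.
* `wval_eq_int_of_fixed` : its `q`-adic valuation `wval A q x` is an integer.
* `false_of_fixed_of_wval` : hence `x` cannot have `0 < wval A q x < Nw` with
  `p * wval A q x ∈ 2 * Nw * ℤ`, when the prime `p` does not divide `2 * Nw`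
  (replaces "inertia-fixed elements have integral valuation" in the local analysis at `2`).
-/

namespace Fermat.Agent.S13.RatPoint

open Fermat.Agent.S05

theorem isGalois_Qbar : IsGalois ℚ (AlgebraicClosure ℚ) := by
  have h : @IsGalois ℚ _ (AlgebraicClosure ℚ) _ (AlgebraicClosure.instAlgebra ℚ) := inferInstance
  convert h
  exact Subsingleton.elim _ _

/-- An element of `AlgebraicClosure ℚ` fixed by all of `Gal(ℚ̄/ℚ)` is rational. -/
theorem exists_rat_of_fixed (x : AlgebraicClosure ℚ)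
    (h : ∀ σ : AlgebraicClosure ℚ ≃ₐ[ℚ] AlgebraicClosure ℚ, σ x = x) :
    ∃ r : ℚ, algebraMap ℚ (AlgebraicClosure ℚ) r = x := by
  have := isGalois_Qbar
  exact (InfiniteGalois.mem_range_algebraMap_iff_fixed x).mpr h

/-- The valuation of a nonzero Galois-fixed element is an integer. -/
theorem wval_eq_int_of_fixed (A : ValuationSubring (AlgebraicClosure ℚ)) {q : ℕ} (hq : q.Prime)
    (hA : (q : AlgebraicClosure ℚ) ∈ A.nonunits) {x : AlgebraicClosure ℚ} (hx : x ≠ 0)
    (h : ∀ σ : AlgebraicClosure ℚ ≃ₐ[ℚ] AlgebraicClosure ℚ, σ x = x) :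
    ∃ m : ℤ, wval A q x = m := by
  have := QVal.isAlgebraic_Qbar
  obtain ⟨r, rfl⟩ := exists_rat_of_fixed x h
  have hr : r ≠ 0 := by
    rintro rfl
    exact hx (map_zero _)
  exact ⟨padicValRat q r, wval_algebraMap_rat A hq hA hr⟩

/-- A Galois-fixed element cannot have valuation strictly between `0` and `Nw` with
`p * w ∈ 2 * Nw * ℤ` if the prime `p` does not divide `2 * Nw`. -/
theorem false_of_fixed_of_wval (A : ValuationSubring (AlgebraicClosure ℚ)) {q : ℕ} (hq : q.Prime)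
    (hA : (q : AlgebraicClosure ℚ) ∈ A.nonunits) {x : AlgebraicClosure ℚ}
    (hfix : ∀ σ : AlgebraicClosure ℚ ≃ₐ[ℚ] AlgebraicClosure ℚ, σ x = x)
    {p : ℕ} (hp : p.Prime) {Nw j : ℤ} (hpN : ¬ (p : ℤ) ∣ 2 * Nw)
    (h1 : 0 < wval A q x) (h2 : wval A q x < Nw)
    (h3 : (p : ℚ) * wval A q x = 2 * Nw * j) : False := by
  have hx : x ≠ 0 := by
    rintro rfl
    rw [wval_zero] at h1
    exact lt_irrefl _ h1
  obtain ⟨m, hm⟩ := wval_eq_int_of_fixed A hq hA hx hfix
  rw [hm] at h1 h2 h3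
  have h1' : 0 < m := by exact_mod_cast h1
  have h2' : m < Nw := by exact_mod_cast h2
  have h3' : (p : ℤ) * m = 2 * Nw * j := by exact_mod_cast h3
  have hpp : Prime (p : ℤ) := Nat.prime_iff_prime_int.mp hp
  have hdvd : (p : ℤ) ∣ 2 * Nw * j := ⟨m, h3'.symm⟩
  rcases hpp.dvd_or_dvd hdvd with h | h
  · exact hpN h
  · obtain ⟨j', rfl⟩ := h
    have hp0 : (p : ℤ) ≠ 0 := hpp.ne_zero
    have hm' : m = 2 * Nw * j' := by
      have : (p : ℤ) * m = p * (2 * Nw * j') := by rw [h3']; ring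
      exact mul_left_cancel₀ hp0 this
    have hNw : 0 < Nw := by omega
    have hj' : 0 < j' := by
      by_contra hneg
      push Not at hneg
      have : 2 * Nw * j' ≤ 0 := mul_nonpos_of_nonneg_of_nonpos (by omega) hneg
      omega
    have : 2 * Nw * 1 ≤ 2 * Nw * j' := by
      apply mul_le_mul_of_nonneg_left (by omega) (by omega)
    omega

/-- Variant: some Galois element moves `x`. -/
theorem exists_map_ne_of_wval (A : ValuationSubring (AlgebraicClosure ℚ)) {q : ℕ} (hq : q.Prime)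
    (hA : (q : AlgebraicClosure ℚ) ∈ A.nonunits) {x : AlgebraicClosure ℚ}
    {p : ℕ} (hp : p.Prime) {Nw j : ℤ} (hpN : ¬ (p : ℤ) ∣ 2 * Nw)
    (h1 : 0 < wval A q x) (h2 : wval A q x < Nw)
    (h3 : (p : ℚ) * wval A q x = 2 * Nw * j) :
    ∃ σ : AlgebraicClosure ℚ ≃ₐ[ℚ] AlgebraicClosure ℚ, σ x ≠ x := by
  by_contra hcon
  push Not at hcon
  exact false_of_fixed_of_wval A hq hA hcon hp hpN h1 h2 h3

end Fermat.Agent.S13.RatPoint
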